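import Mathlib
import Fermat.Prelude.Def_GaloisRep_Residual

set_option autoImplicit false

namespace Fermat.Agent.S53

theorem burnside_algClosed {K V : Type} [Field K] [IsAlgClosed K] [AddCommGroup V] [Module K V]
    [FiniteDimensional K V] [Nontrivial V] (𝒜 : Subalgebra K (Module.End K V))
    (hirr : ∀ W : Submodule K V, (∀ a ∈ 𝒜, ∀ x ∈ W, a x ∈ W) → W = ⊥ ∨ W = ⊤) : 𝒜 = ⊤ := by
  classical
  haveI : IsSimpleModule 𝒜 V := by
    rw [isSimpleModule_iff]
    refine { exists_pair_ne := ⟨⊥, ⊤, bot_ne_top⟩, eq_bot_or_eq_top := fun N => ?_ }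
    rcases hirr (N.restrictScalars K) (fun a ha x hx => N.smul_mem ⟨a, ha⟩ hx) with h | h
    · left
      exact (Submodule.restrictScalars_eq_bot_iff K 𝒜 V).mp h
    · right
      exact (Submodule.restrictScalars_eq_top_iff K 𝒜 V).mp h
  have schur : ∀ f : Module.End 𝒜 V, ∃ c : K, ∀ v, f v = c • v := by
    intro f
    obtain ⟨c, hc⟩ := Module.End.exists_eigenvalue (f.restrictScalars K)
    obtain ⟨v, hv⟩ := hc.exists_hasEigenvector
    let g : V →ₗ[𝒜] V :=
      { toFun := fun v => f v - c • v
        map_add' := fun x y => by rw [map_add, smul_add]; abel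
        map_smul' := fun a x => by
          rw [map_smul, RingHom.id_apply, smul_sub, smul_comm] }
    refine ⟨c, fun w => ?_⟩
    rcases LinearMap.bijective_or_eq_zero g with hg | hg
    · exfalso
      apply hv.2
      apply hg.1
      rw [map_zero]
      show f v - c • v = 0
      have := hv.apply_eq_smul
      rw [LinearMap.restrictScalars_apply] at this
      rw [this, sub_self]
    · have : g w = 0 := by rw [hg]; rfl
      exact sub_eq_zero.mp this
  rw [eq_top_iff]
  intro T _
  let F : Module.End (Module.End 𝒜 V) V :=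
    { toFun := T
      map_add' := map_add T
      map_smul' := fun φ v => by
        obtain ⟨c, hc⟩ := schur φ
        rw [RingHom.id_apply, Module.End.smul_def, Module.End.smul_def, hc, hc, map_smul] }
  let b := Module.finBasis K V
  obtain ⟨a, ha⟩ := jacobson_density F (Finset.univ.image b)
  have : T = (a : Module.End K V) := by
    refine b.ext fun i => ?_
    exact ha (b i) (Finset.mem_image_of_mem _ (Finset.mem_univ i))
  rw [this]
  exact a.2

theorem burnside_functional_eq_sum {k : Type} [Field k]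
    (φ : Matrix (Fin 2) (Fin 2) k →ₗ[k] k) (M : Matrix (Fin 2) (Fin 2) k) :
    φ M = ∑ i, ∑ j, M i j * φ (Matrix.single i j 1) := by
  conv_lhs => rw [Matrix.matrix_eq_sum_single M]
  rw [map_sum]
  refine Finset.sum_congr rfl fun i _ => ?_
  rw [map_sum]
  refine Finset.sum_congr rfl fun j _ => ?_
  rw [← smul_eq_mul, ← map_smul, Matrix.smul_single, smul_eq_mul, mul_one]

/-- D2 (Burnside in dimension 2): the image of an absolutely irreducible residual representation
spans the full endomorphism algebra. -/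
theorem span_range_eq_top {k : Type} [Field k] (ρ : ResidualGaloisRep k)
    (h : ρ.IsAbsolutelyIrreducible) :
    Submodule.span k (Set.range ρ.ρ) = ⊤ := by
  classical
  let b : Module.Basis (Fin 2) k ρ.V := Module.finBasisOfFinrankEq k ρ.V ρ.finrank_eq
  set K := AlgebraicClosure k with hK
  set ρK := ρ.baseChange K with hρK
  haveI : Nontrivial ρK.V :=
    Module.nontrivial_of_finrank_pos (R := K) (by rw [ρK.finrank_eq]; norm_num)
  have htop : Algebra.adjoin K (Set.range ρK.ρ) = ⊤ := by
    apply burnside_algClosed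
    intro W hW
    exact h W fun σ x hx => hW _ (Algebra.subset_adjoin ⟨σ, rfl⟩) x hx
  have hspan : Submodule.span K (Set.range ρK.ρ) = ⊤ := by
    have h1 := Algebra.adjoin_eq_span K (Set.range ρK.ρ)
    rw [htop, Algebra.top_toSubmodule] at h1
    rw [h1, ← MonoidHom.coe_mrange, Submonoid.closure_eq]
  by_contra hne
  obtain ⟨φ₀, hφ0, hφ⟩ := Submodule.exists_le_ker_of_lt_top _ (lt_top_iff_ne_top.mpr hne)
  let φ : Matrix (Fin 2) (Fin 2) k →ₗ[k] k := φ₀ ∘ₗ (Matrix.toLin b b).toLinearMap
  let bK : Module.Basis (Fin 2) K ρK.V := Algebra.TensorProduct.basis K b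
  have hbK : ∀ σ, LinearMap.toMatrix bK bK (ρK.ρ σ) =
      (LinearMap.toMatrix b b (ρ.ρ σ)).map (algebraMap k K) := by
    intro σ
    exact LinearMap.toMatrix_baseChange K (ρ.ρ σ) b b
  let φK : Matrix (Fin 2) (Fin 2) K →ₗ[K] K :=
    ∑ i, ∑ j, algebraMap k K (φ (Matrix.single i j 1)) • Matrix.entryLinearMap K K i j
  have hφK : ∀ M : Matrix (Fin 2) (Fin 2) k,
      φK (M.map (algebraMap k K)) = algebraMap k K (φ M) := by
    intro M
    rw [burnside_functional_eq_sum φ M]
    simp only [φK, LinearMap.sum_apply, LinearMap.smul_apply, Matrix.entryLinearMap_apply,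
      Matrix.map_apply, smul_eq_mul, map_sum, map_mul]
    refine Finset.sum_congr rfl fun i _ => Finset.sum_congr rfl fun j _ => mul_comm _ _
  let Φ : Module.End K ρK.V →ₗ[K] K := φK ∘ₗ (LinearMap.toMatrix bK bK).toLinearMap
  have hΦ : ∀ M : Matrix (Fin 2) (Fin 2) k,
      Φ (Matrix.toLin bK bK (M.map (algebraMap k K))) = algebraMap k K (φ M) := by
    intro M
    show φK (LinearMap.toMatrix bK bK (Matrix.toLin bK bK (M.map (algebraMap k K)))) = _
    rw [LinearMap.toMatrix_toLin, hφK]
  have hΦ0 : Φ = 0 := by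
    have : Submodule.span K (Set.range ρK.ρ) ≤ LinearMap.ker Φ := by
      rw [Submodule.span_le]
      rintro _ ⟨σ, rfl⟩
      rw [SetLike.mem_coe, LinearMap.mem_ker]
      have h2 : ρK.ρ σ = Matrix.toLin bK bK
          ((LinearMap.toMatrix b b (ρ.ρ σ)).map (algebraMap k K)) := by
        rw [← hbK, Matrix.toLin_toMatrix]
      rw [h2, hΦ]
      have : φ (LinearMap.toMatrix b b (ρ.ρ σ)) = 0 := by
        show φ₀ (Matrix.toLin b b (LinearMap.toMatrix b b (ρ.ρ σ))) = 0
        rw [Matrix.toLin_toMatrix]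
        exact hφ (Submodule.subset_span ⟨σ, rfl⟩)
      rw [this, map_zero]
    rw [hspan, top_le_iff, LinearMap.ker_eq_top] at this
    exact this
  apply hφ0
  ext1 T
  have := hΦ (LinearMap.toMatrix b b T)
  rw [hΦ0, LinearMap.zero_apply] at this
  rw [LinearMap.zero_apply]
  have h3 : φ (LinearMap.toMatrix b b T) = φ₀ T := by
    show φ₀ (Matrix.toLin b b (LinearMap.toMatrix b b T)) = φ₀ T
    rw [Matrix.toLin_toMatrix]
  rw [h3] at this
  exact (map_eq_zero_iff _ (algebraMap k K).injective).mp this.symm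

end Fermat.Agent.S53
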