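import Mathlib

set_option autoImplicit false

namespace Fermat.Agent.S53

open IsLocalRing

/-- D3 (a Chevalley type lemma). -/
theorem le_pow_of_chain {R : Type} [CommRing R] [IsLocalRing R]
    [IsAdicComplete (maximalIdeal R) R] (a : ℕ → Ideal R) (hanti : Antitone a)
    (hbot : ⨅ n, a n = ⊥)
    (hpow : ∀ n, maximalIdeal R ^ (n + 1) ≤ a n)
    (hstep : ∀ n, a n ≤ a (n + 1) ⊔ maximalIdeal R ^ (n + 1)) (n : ℕ) :
    a n ≤ maximalIdeal R ^ (n + 1) := by
  intro x hx
  have step : ∀ (i : ℕ) (y : a (n + i)), ∃ y' : a (n + (i + 1)),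
      (y : R) - y' ∈ maximalIdeal R ^ (n + i + 1) := by
    intro i y
    obtain ⟨y', hy', z, hz, hyz⟩ := Submodule.mem_sup.mp (hstep (n + i) y.2)
    refine ⟨⟨y', hy'⟩, ?_⟩
    have : (y : R) - y' = z := by rw [← hyz]; ring
    rw [this]
    exact hz
  choose next hnext using step
  let seq : (i : ℕ) → a (n + i) := fun i => Nat.rec ⟨x, hx⟩ (fun i y => next i y) i
  have hseq0 : (seq 0).1 = x := rfl
  have hseqs : ∀ i, (seq i).1 - (seq (i + 1)).1 ∈ maximalIdeal R ^ (n + i + 1) :=
    fun i => hnext i (seq i)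
  have hdiff : ∀ m j, m ≤ j → (seq m).1 - (seq j).1 ∈ maximalIdeal R ^ (n + m + 1) := by
    intro m j hmj
    induction j, hmj using Nat.le_induction with
    | base => simp
    | succ j hmj ih =>
      have h1 : (seq m).1 - (seq (j + 1)).1 = ((seq m).1 - (seq j).1) + ((seq j).1 - (seq (j + 1)).1) := by
        ring
      rw [h1]
      exact Ideal.add_mem _ ih (Ideal.pow_le_pow_right (by omega) (hseqs j))
  obtain ⟨s, hs⟩ := IsPrecomplete.prec (I := maximalIdeal R) (M := R) inferInstance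
    (f := fun j => x - (seq j).1) (by
      intro m j hmj
      rw [SModEq.sub_mem, smul_eq_mul, Ideal.mul_top]
      have h1 : (x - (seq m).1) - (x - (seq j).1) = - ((seq m).1 - (seq j).1) := by ring
      rw [h1]
      exact Ideal.neg_mem_iff _ |>.mpr (Ideal.pow_le_pow_right (by omega) (hdiff m j hmj)))
  have hs' : ∀ j, (x - (seq j).1) - s ∈ maximalIdeal R ^ j := by
    intro j
    have := hs j
    rwa [SModEq.sub_mem, smul_eq_mul, Ideal.mul_top] at this
  have hsmem : s ∈ maximalIdeal R ^ (n + 1) := by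
    have h1 := hs' (n + 1)
    have h2 : x - (seq (n + 1)).1 ∈ maximalIdeal R ^ (n + 1) := by
      have := hdiff 0 (n + 1) (Nat.zero_le _)
      rwa [hseq0] at this
    have h3 : s = (x - (seq (n + 1)).1) - ((x - (seq (n + 1)).1) - s) := by ring
    rw [h3]
    exact Ideal.sub_mem _ h2 h1
  have hxs : x - s ∈ ⨅ l, a l := by
    rw [Ideal.mem_iInf]
    intro l
    have h1 : x - s = (seq (l + 1)).1 + ((x - (seq (l + 1)).1) - s) := by ring
    rw [h1]
    exact Ideal.add_mem _ (hanti (by omega) (seq (l + 1)).2) (hpow l (hs' (l + 1)))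
  rw [hbot, Ideal.mem_bot, sub_eq_zero] at hxs
  rw [hxs]
  exact hsmem

end Fermat.Agent.S53
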