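import Mathlib

set_option autoImplicit false

namespace Fermat.Agent.S53

lemma aeval_mem_pow_of_mem_idealOfVars_pow {𝒪 A : Type} [CommRing 𝒪] [CommRing A] [Algebra 𝒪 A]
    {e : ℕ} (x : Fin e → A) (N : ℕ) (a : MvPolynomial (Fin e) 𝒪)
    (ha : a ∈ MvPolynomial.idealOfVars (Fin e) 𝒪 ^ N) :
    MvPolynomial.aeval x a ∈ Ideal.span (Set.range x) ^ N := by
  have h1 : Ideal.map (MvPolynomial.aeval x : MvPolynomial (Fin e) 𝒪 →ₐ[𝒪] A)
      (MvPolynomial.idealOfVars (Fin e) 𝒪 ^ N) = Ideal.span (Set.range x) ^ N := by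
    rw [Ideal.map_pow, MvPolynomial.idealOfVars, Ideal.map_span, ← Set.range_comp]
    congr 3
    ext i
    simp
  rw [← h1]
  exact Ideal.mem_map_of_mem _ ha

lemma algHom_coe_eq_aeval {𝒪 A : Type} [CommRing 𝒪] [CommRing A] [Algebra 𝒪 A] {e : ℕ}
    (φ : MvPowerSeries (Fin e) 𝒪 →ₐ[𝒪] A) (a : MvPolynomial (Fin e) 𝒪) :
    φ (a : MvPowerSeries (Fin e) 𝒪) = MvPolynomial.aeval (fun i => φ (MvPowerSeries.X i)) a := by
  have h : φ.comp (MvPolynomial.coeToMvPowerSeries.algHom (σ := Fin e) (R := 𝒪) 𝒪) =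
      MvPolynomial.aeval (fun i => φ (MvPowerSeries.X i)) := by
    apply MvPolynomial.algHom_ext
    intro i
    simp
  have := DFunLike.congr_fun h a
  simpa using this

/-- D4a: evaluation of power series at a nilpotent family. -/
theorem exists_algHom_mvPowerSeries {𝒪 A : Type} [CommRing 𝒪] [CommRing A] [Algebra 𝒪 A] {e : ℕ}
    (x : Fin e → A) (N : ℕ) (hx : Ideal.span (Set.range x) ^ N = ⊥) :
    ∃ φ : MvPowerSeries (Fin e) 𝒪 →ₐ[𝒪] A,
      ∀ p : MvPolynomial (Fin e) 𝒪, φ (p : MvPowerSeries (Fin e) 𝒪) = MvPolynomial.aeval x p := by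
  let L : (MvPolynomial (Fin e) 𝒪 ⧸ MvPolynomial.idealOfVars (Fin e) 𝒪 ^ N) →ₐ[𝒪] A :=
    Ideal.Quotient.liftₐ _ (MvPolynomial.aeval x) (fun a ha => by
      have := aeval_mem_pow_of_mem_idealOfVars_pow x N a ha
      rwa [hx, Ideal.mem_bot] at this)
  refine ⟨L.comp ((MvPowerSeries.truncTotalAlgHom (Fin e) 𝒪 N).restrictScalars 𝒪), fun p => ?_⟩
  have h1 : (MvPowerSeries.truncTotalAlgHom (Fin e) 𝒪 N) (p : MvPowerSeries (Fin e) 𝒪) =
      Ideal.Quotient.mk _ p := (MvPowerSeries.truncTotalAlgHom (Fin e) 𝒪 N).commutes p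
  show L ((MvPowerSeries.truncTotalAlgHom (Fin e) 𝒪 N) (p : MvPowerSeries (Fin e) 𝒪)) = _
  rw [h1]
  rfl

lemma algHom_eq_zero_of_truncTotal_eq_zero {𝒪 A : Type} [CommRing 𝒪] [CommRing A] [Algebra 𝒪 A]
    {e : ℕ} (φ : MvPowerSeries (Fin e) 𝒪 →ₐ[𝒪] A) (N : ℕ)
    (hφ : Ideal.span (Set.range fun i => φ (MvPowerSeries.X i)) ^ N = ⊥)
    (g : MvPowerSeries (Fin e) 𝒪) (hg : MvPowerSeries.truncTotal N g = 0) : φ g = 0 := by
  let E := MvPowerSeries.toAdicCompletionAlgEquiv (Fin e) 𝒪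
  have h1 : E g ∈ (MvPolynomial.idealOfVars (Fin e) 𝒪 ^ N) •
      (⊤ : Submodule (MvPolynomial (Fin e) 𝒪)
        (AdicCompletion (MvPolynomial.idealOfVars (Fin e) 𝒪) (MvPolynomial (Fin e) 𝒪))) := by
    rw [AdicCompletion.pow_smul_top_eq_ker_eval (MvPolynomial.idealOfVars_fg (Fin e) 𝒪),
      LinearMap.mem_ker]
    show (MvPowerSeries.toAdicCompletion (Fin e) 𝒪 g).val N = 0
    rw [MvPowerSeries.toAdicCompletion_apply_eq_mk_truncTotal, hg]
    rfl
  have h2 : g ∈ (MvPolynomial.idealOfVars (Fin e) 𝒪 ^ N) •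
      (⊤ : Submodule (MvPolynomial (Fin e) 𝒪) (MvPowerSeries (Fin e) 𝒪)) := by
    have h3 := Submodule.mem_map_of_mem (f := E.symm.toLinearMap) h1
    rw [Submodule.map_smul''] at h3
    have h4 : E.symm.toLinearMap (E g) = g := E.symm_apply_apply g
    rw [h4] at h3
    exact Submodule.smul_mono le_rfl le_top h3
  refine Submodule.smul_induction_on h2 ?_ ?_
  · intro a ha y _
    have h5 : a • y = (a : MvPowerSeries (Fin e) 𝒪) * y := rfl
    rw [h5, map_mul, algHom_coe_eq_aeval]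
    have := aeval_mem_pow_of_mem_idealOfVars_pow (fun i => φ (MvPowerSeries.X i)) N a ha
    rw [hφ, Ideal.mem_bot] at this
    rw [this, zero_mul]
  · intro y z hy hz
    rw [map_add, hy, hz, add_zero]

/-- D4b: uniqueness. -/
theorem algHom_mvPowerSeries_ext {𝒪 A : Type} [CommRing 𝒪] [CommRing A] [Algebra 𝒪 A] {e : ℕ}
    (φ ψ : MvPowerSeries (Fin e) 𝒪 →ₐ[𝒪] A) (N : ℕ)
    (hφ : Ideal.span (Set.range fun i => φ (MvPowerSeries.X i)) ^ N = ⊥)
    (h : ∀ i, φ (MvPowerSeries.X i) = ψ (MvPowerSeries.X i)) : φ = ψ := by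
  have hψ : Ideal.span (Set.range fun i => ψ (MvPowerSeries.X i)) ^ N = ⊥ := by
    rw [← hφ]
    congr 3
    ext i
    rw [h]
  ext f
  have hg : MvPowerSeries.truncTotal N
      (f - ((MvPowerSeries.truncTotal N f : MvPolynomial (Fin e) 𝒪) : MvPowerSeries (Fin e) 𝒪)) = 0 := by
    ext m
    by_cases hm : Finsupp.degree m < N
    · rw [MvPowerSeries.coeff_truncTotal _ hm, map_sub, MvPolynomial.coeff_coe,
        MvPowerSeries.coeff_truncTotal _ hm, sub_self, MvPolynomial.coeff_zero]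
    · rw [MvPowerSeries.coeff_truncTotal_eq_zero _ (not_lt.mp hm), MvPolynomial.coeff_zero]
  have h1 := algHom_eq_zero_of_truncTotal_eq_zero φ N hφ _ hg
  have h2 := algHom_eq_zero_of_truncTotal_eq_zero ψ N hψ _ hg
  rw [map_sub, sub_eq_zero] at h1 h2
  rw [h1, h2, algHom_coe_eq_aeval, algHom_coe_eq_aeval]
  congr 2
  ext i
  rw [h]

end Fermat.Agent.S53
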