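import Mathlib
import Fermat.Prelude.Thm_IsAdicComplete_of_module_finite

set_option autoImplicit false

namespace Fermat.Agent.S53

open IsLocalRing

section single

variable {B : Type} [CommRing B] [IsLocalRing B]

theorem psc_mem_maximalIdeal_iff (f : PowerSeries B) :
    f ∈ maximalIdeal (PowerSeries B) ↔ PowerSeries.constantCoeff f ∈ maximalIdeal B := by
  rw [mem_maximalIdeal, mem_maximalIdeal, mem_nonunits_iff, mem_nonunits_iff,
    PowerSeries.isUnit_iff_constantCoeff]

theorem psc_coeff_mem_of_mem_pow (n : ℕ) (f : PowerSeries B)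
    (hf : f ∈ maximalIdeal (PowerSeries B) ^ n) (j : ℕ) :
    PowerSeries.coeff j f ∈ maximalIdeal B ^ (n - j) := by
  induction n generalizing f j with
  | zero => simp
  | succ n ih =>
    rw [pow_succ] at hf
    refine Submodule.mul_induction_on hf ?_ ?_
    · intro g hg h hh
      rw [PowerSeries.coeff_mul]
      refine Ideal.sum_mem _ fun p hp => ?_
      have hp' : p.1 + p.2 = j := Finset.HasAntidiagonal.mem_antidiagonal.mp hp
      have h1 := ih g hg p.1
      by_cases h2 : p.2 = 0
      · have h3 : PowerSeries.coeff p.2 h ∈ maximalIdeal B := by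
          rw [h2, PowerSeries.coeff_zero_eq_constantCoeff_apply]
          exact (psc_mem_maximalIdeal_iff h).mp hh
        have h4 : PowerSeries.coeff p.1 g * PowerSeries.coeff p.2 h ∈
            maximalIdeal B ^ (n - p.1) * maximalIdeal B := Ideal.mul_mem_mul h1 h3
        rw [← pow_succ] at h4
        exact Ideal.pow_le_pow_right (by omega) h4
      · exact Ideal.mul_mem_right _ _ (Ideal.pow_le_pow_right (by omega) h1)
    · intro x y hx hy
      rw [map_add]
      exact Ideal.add_mem _ hx hy

theorem psc_mem_pow_of_coeff_mem (n : ℕ) (f : PowerSeries B)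
    (hf : ∀ j, j < n → PowerSeries.coeff j f ∈ maximalIdeal B ^ (n - j)) :
    f ∈ maximalIdeal (PowerSeries B) ^ n := by
  induction n generalizing f with
  | zero => simp
  | succ n ih =>
    rw [f.eq_X_mul_shift_add_const]
    refine Ideal.add_mem _ ?_ ?_
    · rw [pow_succ']
      refine Ideal.mul_mem_mul ?_ (ih _ fun j hj => ?_)
      · rw [psc_mem_maximalIdeal_iff]
        simp
      · rw [PowerSeries.coeff_mk]
        have := hf (j + 1) (by omega)
        rwa [show n + 1 - (j + 1) = n - j by omega] at this
    · have h0 := hf 0 (by omega)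
      rw [PowerSeries.coeff_zero_eq_constantCoeff_apply, Nat.sub_zero] at h0
      have h1 : (maximalIdeal B).map (PowerSeries.C : B →+* PowerSeries B) ≤
          maximalIdeal (PowerSeries B) := by
        rw [Ideal.map_le_iff_le_comap]
        intro x hx
        rw [Ideal.mem_comap, psc_mem_maximalIdeal_iff]
        simpa using hx
      have h2 := Ideal.mem_map_of_mem (PowerSeries.C : B →+* PowerSeries B) h0
      rw [Ideal.map_pow] at h2
      exact Ideal.pow_right_mono h1 _ h2

theorem psc_isAdicComplete_powerSeries [IsAdicComplete (maximalIdeal B) B] :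
    IsAdicComplete (maximalIdeal (PowerSeries B)) (PowerSeries B) where
  haus' := by
    intro f hf
    ext j
    rw [map_zero]
    refine IsHausdorff.haus (I := maximalIdeal B) inferInstance _ fun n => ?_
    have h1 := hf (n + j)
    rw [SModEq.zero, smul_eq_mul, Ideal.mul_top] at h1 ⊢
    have := psc_coeff_mem_of_mem_pow _ f h1 j
    rwa [Nat.add_sub_cancel] at this
  prec' := by
    intro f hf
    have hc : ∀ j : ℕ, ∃ c : B, ∀ n, PowerSeries.coeff j (f (n + j)) ≡ c
        [SMOD (maximalIdeal B ^ n • ⊤ : Submodule B B)] := by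
      intro j
      refine IsPrecomplete.prec inferInstance (f := fun n => PowerSeries.coeff j (f (n + j))) ?_
      intro m n hmn
      have h1 := hf (show m + j ≤ n + j by omega)
      rw [SModEq.sub_mem, smul_eq_mul, Ideal.mul_top] at h1 ⊢
      have := psc_coeff_mem_of_mem_pow _ _ h1 j
      rwa [Nat.add_sub_cancel, map_sub] at this
    choose c hc using hc
    refine ⟨PowerSeries.mk c, fun n => ?_⟩
    rw [SModEq.sub_mem, smul_eq_mul, Ideal.mul_top]
    refine psc_mem_pow_of_coeff_mem _ _ fun j hj => ?_
    have h1 := hc j (n - j)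
    rw [SModEq.sub_mem, smul_eq_mul, Ideal.mul_top, Nat.sub_add_cancel hj.le] at h1
    rwa [map_sub, PowerSeries.coeff_mk]

end single

theorem psc_map_maximalIdeal {R S : Type} [CommRing R] [CommRing S] [IsLocalRing R]
    [IsLocalRing S] (e : R ≃+* S) : (maximalIdeal R).map e = maximalIdeal S := by
  ext x
  rw [Ideal.mem_map_of_equiv]
  constructor
  · rintro ⟨y, hy, rfl⟩
    rw [mem_maximalIdeal, mem_nonunits_iff] at hy ⊢
    intro h
    apply hy
    have := h.map e.symm
    simpa using this
  · intro hx
    refine ⟨e.symm x, ?_, by simp⟩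
    rw [mem_maximalIdeal, mem_nonunits_iff] at hx ⊢
    intro h
    apply hx
    have := h.map e
    simpa using this

theorem psc_isAdicComplete_of_ringEquiv {R S : Type} [CommRing R] [CommRing S] [IsLocalRing R]
    [IsLocalRing S] (e : R ≃+* S) [h : IsAdicComplete (maximalIdeal R) R] :
    IsAdicComplete (maximalIdeal S) S := by
  rw [← psc_map_maximalIdeal e]
  exact (IsAdicComplete.congr_ringEquiv _ e).mpr h

/-- D1: the power series ring over a complete noetherian local ring is complete for its
maximal ideal. -/
theorem isAdicComplete_mvPowerSeries (𝒪 : Type) [CommRing 𝒪] [IsLocalRing 𝒪] [IsNoetherianRing 𝒪]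
    [IsAdicComplete (maximalIdeal 𝒪) 𝒪] (e : ℕ) :
    IsAdicComplete (maximalIdeal (MvPowerSeries (Fin e) 𝒪)) (MvPowerSeries (Fin e) 𝒪) := by
  induction e with
  | zero =>
    exact psc_isAdicComplete_of_ringEquiv (MvPowerSeries.isEmptyEquiv (Fin 0) 𝒪).toRingEquiv.symm
  | succ n ih =>
    have := psc_isAdicComplete_powerSeries (B := MvPowerSeries (Fin n) 𝒪)
    exact psc_isAdicComplete_of_ringEquiv (MvPowerSeries.finSuccEquiv 𝒪 n).toRingEquiv.symm

end Fermat.Agent.S53
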