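import Mathlib
import Fermat.Prelude.Thm_IsLocalRing_isAdicComplete_of_module_finite
import Fermat.Agent.S53.PowerSeriesComplete
import Fermat.Agent.S53.Chevalley
import Fermat.Agent.S53.EvalNil

set_option autoImplicit false
set_option linter.unusedSectionVars false

namespace Fermat.Agent.S53

open IsLocalRing


theorem pr_top_le_sup_pow_smul {S A : Type*} [CommRing S] [AddCommGroup A] [Module S A]
    (N : Submodule S A) (I : Ideal S) (h : ⊤ ≤ N ⊔ I • (⊤ : Submodule S A)) (n : ℕ) :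
    ⊤ ≤ N ⊔ I ^ n • (⊤ : Submodule S A) := by
  induction n with
  | zero => simp
  | succ n ih =>
    refine ih.trans (sup_le le_sup_left ?_)
    calc I ^ n • (⊤ : Submodule S A) ≤ I ^ n • (N ⊔ I • (⊤ : Submodule S A)) :=
          smul_mono_right _ h
      _ = I ^ n • N ⊔ I ^ (n + 1) • (⊤ : Submodule S A) := by
          rw [Submodule.smul_sup, pow_succ, Submodule.mul_smul]
      _ ≤ N ⊔ I ^ (n + 1) • (⊤ : Submodule S A) := sup_le_sup_right Submodule.smul_le_right _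

theorem pr_le_sup_pow {S : Type*} [CommRing S] (M L : Ideal S) (h : M ≤ L ⊔ M ^ 2) (n : ℕ) :
    M ≤ L ⊔ M ^ (n + 1) := by
  induction n with
  | zero => simp
  | succ n ih =>
    refine h.trans (sup_le le_sup_left ?_)
    calc M ^ 2 = M * M := sq M
      _ ≤ M * (L ⊔ M ^ (n + 1)) := Ideal.mul_mono_right ih
      _ = M * L ⊔ M ^ (n + 1 + 1) := by rw [Ideal.mul_sup, ← pow_succ']
      _ ≤ L ⊔ M ^ (n + 1 + 1) := sup_le_sup_right Ideal.mul_le_right _


theorem pr_surjective_of_nilpotent {S A : Type*} [CommRing S] [CommRing A] (ψ : S →+* A)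
    (𝔫 : Ideal S) (n : ℕ) (h0 : (𝔫.map ψ) ^ n = ⊥)
    (h : ∀ a : A, ∃ s : S, a - ψ s ∈ 𝔫.map ψ) : Function.Surjective ψ := by
  let _ : Algebra S A := ψ.toAlgebra
  have h2 : ⊤ ≤ (1 : Submodule S A) ⊔ 𝔫 • (⊤ : Submodule S A) := by
    intro a _
    obtain ⟨s, hs⟩ := h a
    have h3 : a = ψ s + (a - ψ s) := by ring
    rw [h3]
    refine Submodule.add_mem_sup ?_ ?_
    · rw [Submodule.mem_one]
      exact ⟨s, rfl⟩
    · rw [Ideal.smul_top_eq_map, Submodule.restrictScalars_mem]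
      exact hs
  have h3 := pr_top_le_sup_pow_smul _ _ h2 n
  have h4 : 𝔫 ^ n • (⊤ : Submodule S A) = ⊥ := by
    rw [Ideal.smul_top_eq_map, Ideal.map_pow]
    have : (𝔫.map (algebraMap S A)) ^ n = ⊥ := h0
    rw [this]
    rfl
  rw [h4, sup_bot_eq] at h3
  intro a
  have := h3 (Submodule.mem_top (x := a))
  rw [Submodule.mem_one] at this
  exact this

section

variable {𝒪 : Type} [CommRing 𝒪] [IsLocalRing 𝒪] {ι : Type}
  (ev : MvPolynomial ι 𝒪 →ₐ[𝒪] ResidueField 𝒪)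

theorem pr_ev_C (c : 𝒪) : ev (MvPolynomial.C c) = residue 𝒪 c := by
  rw [← MvPolynomial.algebraMap_eq, AlgHom.commutes]
  rfl

theorem pr_exists_sub_C_mem (f : MvPolynomial ι 𝒪) :
    ∃ c : 𝒪, f - MvPolynomial.C c ∈ RingHom.ker ev := by
  obtain ⟨c, hc⟩ := residue_surjective (ev f)
  refine ⟨c, ?_⟩
  rw [RingHom.mem_ker, map_sub, pr_ev_C, hc, sub_self]

theorem pr_map_C_le : (maximalIdeal 𝒪).map (MvPolynomial.C : 𝒪 →+* MvPolynomial ι 𝒪) ≤
    RingHom.ker ev := by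
  rw [Ideal.map_le_iff_le_comap]
  intro c hc
  rw [Ideal.mem_comap, RingHom.mem_ker, pr_ev_C]
  exact (residue_eq_zero_iff c).mpr hc

/-- the ideal `(X, 𝔪)` of the small polynomial ring -/
noncomputable def prN (𝒪 : Type) [CommRing 𝒪] [IsLocalRing 𝒪] (e : ℕ) :
    Ideal (MvPolynomial (Fin e) 𝒪) :=
  Ideal.span (Set.range MvPolynomial.X) ⊔
      (maximalIdeal 𝒪).map (MvPolynomial.C : 𝒪 →+* MvPolynomial (Fin e) 𝒪)

/-- evaluation of the small polynomial ring in a quotient of the big one -/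
noncomputable def prPsi (K : Ideal (MvPolynomial ι 𝒪)) {e : ℕ} (x : Fin e → MvPolynomial ι 𝒪) :
    MvPolynomial (Fin e) 𝒪 →ₐ[𝒪] MvPolynomial ι 𝒪 ⧸ K :=
  MvPolynomial.aeval (fun i => Ideal.Quotient.mk K (x i))

theorem prPsi_X (K : Ideal (MvPolynomial ι 𝒪)) {e : ℕ} (x : Fin e → MvPolynomial ι 𝒪) (i : Fin e) :
    prPsi K x (MvPolynomial.X i) = Ideal.Quotient.mk K (x i) := by
  simp [prPsi]

theorem prPsi_C (K : Ideal (MvPolynomial ι 𝒪)) {e : ℕ} (x : Fin e → MvPolynomial ι 𝒪) (c : 𝒪) :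
    prPsi K x (MvPolynomial.C c) = Ideal.Quotient.mk K (MvPolynomial.C c) := by
  simp [prPsi]
  rfl

theorem pr_map_prN (K : Ideal (MvPolynomial ι 𝒪)) {e : ℕ} (x : Fin e → MvPolynomial ι 𝒪) :
    (prN 𝒪 e).map (prPsi K x).toRingHom =
    (Ideal.span (Set.range x) ⊔
      (maximalIdeal 𝒪).map (MvPolynomial.C : 𝒪 →+* MvPolynomial ι 𝒪)).map
        (Ideal.Quotient.mk K) := by
  unfold prN
  rw [Ideal.map_sup, Ideal.map_sup, Ideal.map_span, Ideal.map_span, Ideal.map_map,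
    Ideal.map_map, ← Set.range_comp, ← Set.range_comp]
  congr 2
  · congr 1
    funext i
    exact prPsi_X K x i
  · ext c
    exact prPsi_C K x c

theorem pr_span_sup_le {e : ℕ} (x : Fin e → MvPolynomial ι 𝒪) (hx : ∀ i, x i ∈ RingHom.ker ev) :
    Ideal.span (Set.range x) ⊔
      (maximalIdeal 𝒪).map (MvPolynomial.C : 𝒪 →+* MvPolynomial ι 𝒪) ≤ RingHom.ker ev := by
  refine sup_le ?_ (pr_map_C_le ev)
  rw [Ideal.span_le]
  rintro _ ⟨i, rfl⟩
  exact hx i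

theorem pr_map_prN_pow_eq_bot (K : Ideal (MvPolynomial ι 𝒪)) (n : ℕ)
    (hn : RingHom.ker ev ^ n ≤ K)
    {e : ℕ} (x : Fin e → MvPolynomial ι 𝒪) (hx : ∀ i, x i ∈ RingHom.ker ev) :
    ((prN 𝒪 e).map (prPsi K x).toRingHom) ^ n = ⊥ := by
  rw [pr_map_prN, ← Ideal.map_pow, Ideal.map_eq_bot_iff_le_ker, Ideal.mk_ker]
  exact (Ideal.pow_right_mono (pr_span_sup_le ev x hx) n).trans hn

theorem pr_aeval_surjective (K : Ideal (MvPolynomial ι 𝒪)) (n : ℕ) (hn : RingHom.ker ev ^ n ≤ K)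
    {e : ℕ} (x : Fin e → MvPolynomial ι 𝒪) (hx : ∀ i, x i ∈ RingHom.ker ev)
    (hgen : RingHom.ker ev ≤ (Ideal.span (Set.range x) ⊔
      (maximalIdeal 𝒪).map (MvPolynomial.C : 𝒪 →+* MvPolynomial ι 𝒪) ⊔ K) ⊔ RingHom.ker ev ^ 2) :
    Function.Surjective (prPsi K x) := by
  set M := RingHom.ker ev with hM
  set 𝔞 := Ideal.span (Set.range x) ⊔
      (maximalIdeal 𝒪).map (MvPolynomial.C : 𝒪 →+* MvPolynomial ι 𝒪) with h𝔞
  have h1 : M ≤ 𝔞 ⊔ K := by
    refine (pr_le_sup_pow M (𝔞 ⊔ K) hgen n).trans (sup_le le_rfl ?_)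
    exact (Ideal.pow_le_pow_right (Nat.le_succ n)).trans (hn.trans le_sup_right)
  refine pr_surjective_of_nilpotent (prPsi K x).toRingHom (prN 𝒪 e) n
    (pr_map_prN_pow_eq_bot ev K n hn x hx) ?_
  intro a
  obtain ⟨f, rfl⟩ := Ideal.Quotient.mk_surjective a
  obtain ⟨c, hc⟩ := pr_exists_sub_C_mem ev f
  refine ⟨MvPolynomial.C c, ?_⟩
  rw [pr_map_prN]
  have h4 := Ideal.mem_map_of_mem (Ideal.Quotient.mk K) (h1 hc)
  rw [Ideal.map_sup, Ideal.map_quotient_self, sup_bot_eq, map_sub] at h4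
  convert h4 using 2
  exact prPsi_C K x c

end


section

variable {𝒪 : Type} [CommRing 𝒪] [IsLocalRing 𝒪] {ι : Type}

theorem pr_finite_quot_prN [Finite (ResidueField 𝒪)] (e : ℕ) :
    Finite (MvPolynomial (Fin e) 𝒪 ⧸ prN 𝒪 e) := by
  have h0 : ∀ a ∈ maximalIdeal 𝒪, ((Ideal.Quotient.mk (prN 𝒪 e)).comp
      (MvPolynomial.C : 𝒪 →+* MvPolynomial (Fin e) 𝒪)) a = 0 := by
    intro a ha
    rw [RingHom.comp_apply, Ideal.Quotient.eq_zero_iff_mem]
    exact le_sup_right (a := Ideal.span (Set.range MvPolynomial.X))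
      (Ideal.mem_map_of_mem _ ha)
  let F : ResidueField 𝒪 →+* MvPolynomial (Fin e) 𝒪 ⧸ prN 𝒪 e :=
    Ideal.Quotient.lift (maximalIdeal 𝒪) _ h0
  refine Finite.of_surjective F ?_
  intro y
  obtain ⟨p, rfl⟩ := Ideal.Quotient.mk_surjective y
  induction p using MvPolynomial.induction_on with
  | C a => exact ⟨residue 𝒪 a, rfl⟩
  | add p q hp hq =>
    obtain ⟨a, ha⟩ := hp
    obtain ⟨b, hb⟩ := hq
    exact ⟨a + b, by rw [map_add, map_add, ha, hb]⟩
  | mul_X p i _ =>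
    refine ⟨0, ?_⟩
    rw [map_zero, eq_comm, Ideal.Quotient.eq_zero_iff_mem]
    refine Ideal.mul_mem_left _ _ ?_
    exact le_sup_left (b := (maximalIdeal 𝒪).map (MvPolynomial.C : 𝒪 →+* MvPolynomial (Fin e) 𝒪))
      (Ideal.subset_span ⟨i, rfl⟩)

theorem pr_finite_quot_prN_pow [IsNoetherianRing 𝒪] [Finite (ResidueField 𝒪)] (e n : ℕ) :
    Finite (MvPolynomial (Fin e) 𝒪 ⧸ prN 𝒪 e ^ n) := by
  have := pr_finite_quot_prN (𝒪 := 𝒪) e
  exact Ideal.finite_quotient_pow (IsNoetherian.noetherian _) n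

theorem pr_card_le_of_surjective {S A : Type*} [CommRing S] [CommRing A] (ψ : S →+* A)
    (hψ : Function.Surjective ψ) (I : Ideal S) [Finite (S ⧸ I)] (h : I.map ψ = ⊥) :
    Nat.card A ≤ Nat.card (S ⧸ I) := by
  have h0 : ∀ a ∈ I, ψ a = 0 := by
    intro a ha
    have := Ideal.mem_map_of_mem ψ ha
    rwa [h] at this
  refine Nat.card_le_card_of_surjective (Ideal.Quotient.lift I ψ h0) ?_
  exact Ideal.Quotient.lift_surjective_of_surjective I h0 hψ

end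




theorem pr_exists_family {S : Type*} [CommRing S] (K₁ : Ideal S) [Finite (S ⧸ K₁)] (M : Ideal S) :
    ∃ (e : ℕ) (x : Fin e → S), (∀ i, x i ∈ M) ∧ ∀ m ∈ M, ∃ i, m - x i ∈ K₁ := by
  classical
  let T : Set (S ⧸ K₁) := (Ideal.Quotient.mk K₁) '' (M : Set S)
  obtain ⟨e, ⟨eq⟩⟩ := Finite.exists_equiv_fin T
  have hT : ∀ t : T, ∃ m, m ∈ M ∧ Ideal.Quotient.mk K₁ m = t := fun t => t.2
  choose rep hrep1 hrep2 using hT
  refine ⟨e, fun i => rep (eq.symm i), fun i => hrep1 _, fun m hm => ?_⟩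
  have hmT : Ideal.Quotient.mk K₁ m ∈ T := ⟨m, hm, rfl⟩
  refine ⟨eq ⟨Ideal.Quotient.mk K₁ m, hmT⟩, ?_⟩
  rw [← Ideal.Quotient.eq]
  show _ = Ideal.Quotient.mk K₁ (rep (eq.symm (eq ⟨Ideal.Quotient.mk K₁ m, hmT⟩)))
  rw [Equiv.symm_apply_apply, hrep2]

theorem pr_exists_min {S : Type*} [CommRing S] (G : Ideal S → Prop) (hne : ∃ K, G K)
    (hinf : ∀ K K', G K → G K' → G (K ⊓ K')) (hfin : ∀ K, G K → Finite (S ⧸ K)) (B : ℕ)
    (hB : ∀ K, G K → Nat.card (S ⧸ K) ≤ B) : ∃ K, G K ∧ ∀ K', G K' → K ≤ K' := by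
  let s : Set ℕ := {c | ∃ K, G K ∧ Nat.card (S ⧸ K) = c}
  have hs1 : s.Nonempty := by
    obtain ⟨K, hK⟩ := hne
    exact ⟨_, K, hK, rfl⟩
  have hs2 : BddAbove s := ⟨B, by rintro _ ⟨K, hK, rfl⟩; exact hB K hK⟩
  obtain ⟨K, hK, hKc⟩ := Nat.sSup_mem hs1 hs2
  refine ⟨K, hK, fun K' hK' => ?_⟩
  have h1 : G (K ⊓ K') := hinf K K' hK hK'
  have h2 : Nat.card (S ⧸ (K ⊓ K')) ≤ Nat.card (S ⧸ K) := by
    rw [hKc]
    exact le_csSup hs2 ⟨_, h1, rfl⟩
  have := hfin _ h1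
  have h3 : Function.Surjective (Ideal.Quotient.factor (inf_le_left : K ⊓ K' ≤ K)) :=
    Ideal.Quotient.factor_surjective _
  have h4 := (h3.bijective_of_nat_card_le h2).1
  intro a ha
  have h5 : Ideal.Quotient.mk (K ⊓ K') a = 0 := by
    apply h4
    rw [Ideal.Quotient.factor_mk, map_zero, Ideal.Quotient.eq_zero_iff_mem]
    exact ha
  exact ((Ideal.Quotient.eq_zero_iff_mem).mp h5).2




theorem pr_map_maximalIdeal {R Fr : Type*} [CommRing R] [IsLocalRing R] [CommRing Fr]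
    (M K : Ideal Fr) [hM : M.IsMaximal] (hKM : K ≤ M) (g : R →+* Fr ⧸ K)
    (hg : Function.Surjective g) :
    (maximalIdeal R).map g = M.map (Ideal.Quotient.mk K) := by
  have h1 : (M.map (Ideal.Quotient.mk K)).IsMaximal := by
    refine (Ideal.map_eq_top_or_isMaximal_of_surjective _ Ideal.Quotient.mk_surjective
      hM).resolve_left ?_
    intro h
    have h2 := congrArg (Ideal.comap (Ideal.Quotient.mk K)) h
    rw [Ideal.comap_map_of_surjective _ Ideal.Quotient.mk_surjective, Ideal.comap_top,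
      ← RingHom.ker_eq_comap_bot, Ideal.mk_ker, sup_eq_left.mpr hKM] at h2
    exact hM.ne_top h2
  have h2 : ((M.map (Ideal.Quotient.mk K)).comap g).IsMaximal :=
    Ideal.comap_isMaximal_of_surjective g hg
  rw [← IsLocalRing.eq_maximalIdeal h2, Ideal.map_comap_of_surjective g hg]


theorem pr_limit
    {𝒪 P Fr : Type} [CommRing 𝒪] [IsLocalRing 𝒪] [CommRing P] [Algebra 𝒪 P] [IsLocalRing P]
    [IsNoetherianRing P] [IsAdicComplete (maximalIdeal P) P] [IsLocalHom (algebraMap 𝒪 P)]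
    (hres : Function.Surjective (residue P ∘ algebraMap 𝒪 P))
    [CommRing Fr] [Algebra 𝒪 Fr] (M : Ideal Fr) [hM : M.IsMaximal] (Kn : ℕ → Ideal Fr)
    (hKM : ∀ n, Kn n ≤ M) (hpow : ∀ n, M ^ (n + 1) ≤ Kn n) (hanti : Antitone Kn)
    (hstep : ∀ n, Kn n ≤ Kn (n + 1) ⊔ M ^ (n + 1))
    (π : ∀ n, P →ₐ[𝒪] Fr ⧸ Kn n) (hπ : ∀ n, Function.Surjective (π n))
    (hcomp : ∀ m n (h : m ≤ n) p, Ideal.Quotient.factor (hanti h) (π n p) = π m p) :
    ∃ (R : Type) (_ : CommRing R) (_ : IsLocalRing R) (_ : IsNoetherianRing R)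
      (_ : IsAdicComplete (maximalIdeal R) R) (_ : Algebra 𝒪 R)
      (_ : IsLocalHom (algebraMap 𝒪 R)) (πb : ∀ n, R →ₐ[𝒪] Fr ⧸ Kn n),
      Function.Surjective (residue R ∘ algebraMap 𝒪 R) ∧ (∀ n, Function.Surjective (πb n)) ∧
      (∀ m n (h : m ≤ n) y, Ideal.Quotient.factor (hanti h) (πb n y) = πb m y) ∧
      (∀ n, RingHom.ker (πb n) = maximalIdeal R ^ (n + 1)) := by
  let J : Ideal P := ⨅ n, RingHom.ker (π n)
  have hJ : ∀ n, ∀ a ∈ J, π n a = 0 := fun n a ha => (Ideal.mem_iInf.mp ha n)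
  have hnt : Nontrivial (P ⧸ J) := by
    rw [Ideal.Quotient.nontrivial_iff, Ideal.ne_top_iff_one]
    intro h1
    have h2 := hJ 0 1 h1
    rw [map_one] at h2
    have : Nontrivial (Fr ⧸ Kn 0) := by
      rw [Ideal.Quotient.nontrivial_iff]
      exact fun h => hM.ne_top (top_le_iff.mp (h ▸ hKM 0))
    exact one_ne_zero h2
  have hloc : IsLocalRing (P ⧸ J) :=
    IsLocalRing.of_surjective' (Ideal.Quotient.mk J) Ideal.Quotient.mk_surjective
  have hlh : IsLocalHom (algebraMap P (P ⧸ J)) :=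
    IsLocalHom.of_surjective (Ideal.Quotient.mk J) Ideal.Quotient.mk_surjective
  have hcompl : IsAdicComplete (maximalIdeal (P ⧸ J)) (P ⧸ J) :=
    IsLocalRing.isAdicComplete_of_module_finite (𝒪 := P) (T := P ⧸ J)
  have hlh2 : IsLocalHom (algebraMap 𝒪 (P ⧸ J)) := by
    rw [IsScalarTower.algebraMap_eq 𝒪 P (P ⧸ J)]
    exact RingHom.isLocalHom_comp _ _
  let πb : ∀ n, (P ⧸ J) →ₐ[𝒪] Fr ⧸ Kn n := fun n => Ideal.Quotient.liftₐ J (π n) (hJ n)
  have hπb : ∀ n p, πb n (Ideal.Quotient.mk J p) = π n p := fun n p => rfl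
  have hsurj : ∀ n, Function.Surjective (πb n) := by
    intro n y
    obtain ⟨p, rfl⟩ := hπ n y
    exact ⟨Ideal.Quotient.mk J p, rfl⟩
  have hcompat : ∀ m n (h : m ≤ n) y, Ideal.Quotient.factor (hanti h) (πb n y) = πb m y := by
    intro m n h y
    obtain ⟨p, rfl⟩ := Ideal.Quotient.mk_surjective y
    exact hcomp m n h p
  have hmap : ∀ n, (maximalIdeal (P ⧸ J)).map (πb n).toRingHom =
      M.map (Ideal.Quotient.mk (Kn n)) := fun n =>
    pr_map_maximalIdeal M (Kn n) (hKM n) (πb n).toRingHom (hsurj n)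
  have hmappow : ∀ n k, (maximalIdeal (P ⧸ J) ^ k).map (πb n).toRingHom =
      (M ^ k).map (Ideal.Quotient.mk (Kn n)) := fun n k => by
    rw [Ideal.map_pow, hmap, Ideal.map_pow]
  have hge : ∀ n, maximalIdeal (P ⧸ J) ^ (n + 1) ≤ RingHom.ker (πb n) := by
    intro n y hy
    have h1 := Ideal.mem_map_of_mem (πb n).toRingHom hy
    have h2 : (M ^ (n + 1)).map (Ideal.Quotient.mk (Kn n)) = ⊥ := by
      rw [Ideal.map_eq_bot_iff_le_ker, Ideal.mk_ker]; exact hpow n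
    rw [hmappow, h2] at h1
    exact h1
  refine ⟨P ⧸ J, inferInstance, hloc, inferInstance, hcompl, inferInstance, hlh2, πb, ?_, hsurj,
    hcompat, fun n => le_antisymm ?_ (hge n)⟩
  · intro y
    obtain ⟨r, rfl⟩ := residue_surjective y
    obtain ⟨p, rfl⟩ := Ideal.Quotient.mk_surjective r
    obtain ⟨c, hc⟩ := hres (residue P p)
    refine ⟨c, ?_⟩
    have h1 : algebraMap 𝒪 P c - p ∈ maximalIdeal P := by
      rw [← residue_eq_zero_iff, map_sub, sub_eq_zero]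
      exact hc
    have h2 : algebraMap P (P ⧸ J) (algebraMap 𝒪 P c - p) ∈ maximalIdeal (P ⧸ J) :=
      map_nonunit _ _ h1
    rw [← residue_eq_zero_iff, map_sub, map_sub, sub_eq_zero,
      ← IsScalarTower.algebraMap_apply] at h2
    exact h2
  · refine le_pow_of_chain (fun n => RingHom.ker (πb n)) ?_ ?_ hge ?_ n
    · intro m n h y hy
      rw [RingHom.mem_ker] at hy ⊢
      rw [← hcompat m n h, hy, map_zero]
    · rw [eq_bot_iff]
      intro y hy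
      obtain ⟨p, rfl⟩ := Ideal.Quotient.mk_surjective y
      rw [Ideal.mem_bot, Ideal.Quotient.eq_zero_iff_mem]
      exact Ideal.mem_iInf.mpr fun n => Ideal.mem_iInf.mp hy n
    · intro n y hy
      obtain ⟨f, hf⟩ := Ideal.Quotient.mk_surjective (πb (n + 1) y)
      have h1 : f ∈ Kn n := by
        rw [← Ideal.Quotient.eq_zero_iff_mem, ← Ideal.Quotient.factor_mk (hanti (Nat.le_succ n)),
          hf, hcompat n (n + 1) (Nat.le_succ n)]
        exact hy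
      obtain ⟨κ, hκ, μ, hμ, rfl⟩ := Submodule.mem_sup.mp (hstep n h1)
      have h2 : Ideal.Quotient.mk (Kn (n + 1)) μ ∈
          (maximalIdeal (P ⧸ J) ^ (n + 1)).map (πb (n + 1)).toRingHom := by
        rw [hmappow]
        exact Ideal.mem_map_of_mem _ hμ
      obtain ⟨w, hw, hw2⟩ := (Ideal.mem_map_iff_of_surjective _ (hsurj (n + 1))).mp h2
      have h3 : y = (y - w) + w := by ring
      rw [h3]
      refine Submodule.add_mem_sup ?_ hw
      rw [RingHom.mem_ker, map_sub, ← hf, map_add, Ideal.Quotient.eq_zero_iff_mem.mpr hκ, zero_add,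
        sub_eq_zero]
      exact hw2.symm




theorem pr_exists_u {𝒪 R : Type} [CommRing 𝒪] [CommRing R] [IsLocalRing R]
    [IsAdicComplete (maximalIdeal R) R] [Algebra 𝒪 R] {ι : Type}
    (Kn : ℕ → Ideal (MvPolynomial ι 𝒪)) (hanti : Antitone Kn)
    (πb : ∀ n, R →ₐ[𝒪] MvPolynomial ι 𝒪 ⧸ Kn n) (hsurj : ∀ n, Function.Surjective (πb n))
    (hcompat : ∀ m n (h : m ≤ n) y, Ideal.Quotient.factor (hanti h) (πb n y) = πb m y)
    (hker : ∀ n, RingHom.ker (πb n) = maximalIdeal R ^ (n + 1)) :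
    ∃ u : MvPolynomial ι 𝒪 →ₐ[𝒪] R, ∀ n f, πb n (u f) = Ideal.Quotient.mk (Kn n) f := by
  have key : ∀ v : ι, ∃ ξ : R, ∀ n, πb n ξ = Ideal.Quotient.mk (Kn n) (MvPolynomial.X v) := by
    intro v
    choose y hy using fun n => hsurj n (Ideal.Quotient.mk (Kn n) (MvPolynomial.X v))
    have hc : ∀ {m n}, m ≤ n → y m ≡ y n [SMOD (maximalIdeal R ^ m • ⊤ : Submodule R R)] := by
      intro m n h
      rw [SModEq.sub_mem, smul_eq_mul, Ideal.mul_top]
      have h1 : y m - y n ∈ RingHom.ker (πb m) := by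
        rw [RingHom.mem_ker, map_sub, hy, ← hcompat m n h, hy, Ideal.Quotient.factor_mk, sub_self]
      rw [hker] at h1
      exact Ideal.pow_le_pow_right (Nat.le_succ m) h1
    obtain ⟨ξ, hξ⟩ := IsPrecomplete.prec inferInstance hc
    refine ⟨ξ, fun n => ?_⟩
    have h1 := hξ (n + 1)
    rw [SModEq.sub_mem, smul_eq_mul, Ideal.mul_top, ← hker, RingHom.mem_ker, map_sub,
      sub_eq_zero] at h1
    rw [← h1, ← hcompat n (n + 1) (Nat.le_succ n), hy, Ideal.Quotient.factor_mk]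
  choose ξ hξ using key
  refine ⟨MvPolynomial.aeval ξ, fun n f => ?_⟩
  have h1 : (πb n).comp (MvPolynomial.aeval ξ) = Ideal.Quotient.mkₐ 𝒪 (Kn n) :=
    MvPolynomial.algHom_ext (fun v => by simp [hξ])
  exact DFunLike.congr_fun h1 f


theorem pr_levels
    (𝒪 : Type) [CommRing 𝒪] [IsLocalRing 𝒪] [IsNoetherianRing 𝒪] [Finite (ResidueField 𝒪)]
    (ι : Type) (ev : MvPolynomial ι 𝒪 →ₐ[𝒪] ResidueField 𝒪)
    (Good : Ideal (MvPolynomial ι 𝒪) → Prop)
    (h0 : Good (RingHom.ker ev))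
    (h1 : ∀ K, Good K → K ≤ RingHom.ker ev ∧ (∃ n, RingHom.ker ev ^ n ≤ K) ∧
      Finite (MvPolynomial ι 𝒪 ⧸ K))
    (h2 : ∀ K₁ K₂, Good K₁ → Good K₂ → Good (K₁ ⊓ K₂))
    (h3 : ∀ K K', Good K → K ≤ K' → K' ≤ RingHom.ker ev → Good K')
    (h4 : ∃ K₁, Good K₁ ∧ ∀ K, Good K → RingHom.ker ev ^ 2 ≤ K →
      (maximalIdeal 𝒪).map (MvPolynomial.C : 𝒪 →+* MvPolynomial ι 𝒪) ≤ K → K₁ ≤ K) :
    ∃ (e : ℕ) (x : Fin e → MvPolynomial ι 𝒪) (Kn : ℕ → Ideal (MvPolynomial ι 𝒪)),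
      (∀ i, x i ∈ RingHom.ker ev) ∧ (∀ K, Good K → Function.Surjective (prPsi K x)) ∧
      (∀ n, Good (Kn n)) ∧ (∀ n, RingHom.ker ev ^ (n + 1) ≤ Kn n) ∧
      (∀ n K, Good K → RingHom.ker ev ^ (n + 1) ≤ K → Kn n ≤ K) := by
  obtain ⟨K₁, hK₁, hmin⟩ := h4
  have := (h1 K₁ hK₁).2.2
  obtain ⟨e, x, hx, hxs⟩ := pr_exists_family K₁ (RingHom.ker ev)
  have hsurj : ∀ K, Good K → Function.Surjective (prPsi K x) := by
    intro K hK
    obtain ⟨hKM, ⟨n, hn⟩, _⟩ := h1 K hK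
    refine pr_aeval_surjective ev K n hn x hx ?_
    have hK' : Good (K ⊔ RingHom.ker ev ^ 2 ⊔
        (maximalIdeal 𝒪).map (MvPolynomial.C : 𝒪 →+* MvPolynomial ι 𝒪)) :=
      h3 K _ hK (le_sup_of_le_left le_sup_left)
        (sup_le (sup_le hKM (Ideal.pow_le_self two_ne_zero)) (pr_map_C_le ev))
    have h5 := hmin _ hK' (le_sup_of_le_left le_sup_right) le_sup_right
    intro m hm
    obtain ⟨i, hi⟩ := hxs m hm
    have h6 : m = x i + (m - x i) := by ring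
    rw [h6]
    refine Ideal.add_mem _ ?_ ?_
    · have h7 : x i ∈ Ideal.span (Set.range x) := Ideal.subset_span ⟨i, rfl⟩
      exact Ideal.mem_sup_left (Ideal.mem_sup_left (Ideal.mem_sup_left h7))
    · refine (sup_le (sup_le ?_ ?_) ?_ : K ⊔ RingHom.ker ev ^ 2 ⊔
        (maximalIdeal 𝒪).map (MvPolynomial.C : 𝒪 →+* MvPolynomial ι 𝒪) ≤ _) (h5 hi)
      · exact le_sup_of_le_left le_sup_right
      · exact le_sup_right
      · exact le_sup_of_le_left (le_sup_of_le_left le_sup_right)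
  have hlev : ∀ n : ℕ, ∃ K, (Good K ∧ RingHom.ker ev ^ (n + 1) ≤ K) ∧
      ∀ K', (Good K' ∧ RingHom.ker ev ^ (n + 1) ≤ K') → K ≤ K' := by
    intro n
    have hfin := pr_finite_quot_prN_pow (𝒪 := 𝒪) e (n + 1)
    refine pr_exists_min (fun K => Good K ∧ RingHom.ker ev ^ (n + 1) ≤ K)
      ⟨_, h0, Ideal.pow_le_self (Nat.succ_ne_zero n)⟩ ?_ (fun K hK => (h1 K hK.1).2.2)
      (Nat.card (MvPolynomial (Fin e) 𝒪 ⧸ prN 𝒪 e ^ (n + 1))) ?_
    · intro K K' hK hK'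
      exact ⟨h2 K K' hK.1 hK'.1, le_inf hK.2 hK'.2⟩
    · intro K hK
      refine pr_card_le_of_surjective (prPsi K x).toRingHom (hsurj K hK.1) _ ?_
      rw [Ideal.map_pow]
      exact pr_map_prN_pow_eq_bot ev K (n + 1) hK.2 x hx
  choose Kn hKn1 hKn2 using hlev
  exact ⟨e, x, Kn, hx, hsurj, fun n => (hKn1 n).1, fun n => (hKn1 n).2,
    fun n K hK hK' => hKn2 n K ⟨hK, hK'⟩⟩

theorem pr_isLocalHom_C (𝒪 : Type) [CommRing 𝒪] (e : ℕ) :
    IsLocalHom (algebraMap 𝒪 (MvPowerSeries (Fin e) 𝒪)) := by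
  refine ⟨fun c hc => ?_⟩
  have := hc.map (MvPowerSeries.constantCoeff (σ := Fin e) (R := 𝒪))
  rwa [MvPowerSeries.algebraMap_apply, Algebra.algebraMap_self, RingHom.id_apply,
    MvPowerSeries.constantCoeff_C] at this

theorem pr_residue_surjective (𝒪 : Type) [CommRing 𝒪] [IsLocalRing 𝒪] (e : ℕ) :
    Function.Surjective (residue (MvPowerSeries (Fin e) 𝒪) ∘
      algebraMap 𝒪 (MvPowerSeries (Fin e) 𝒪)) := by
  intro y
  obtain ⟨p, rfl⟩ := residue_surjective y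
  refine ⟨MvPowerSeries.constantCoeff p, ?_⟩
  rw [Function.comp_apply, ← sub_eq_zero, ← map_sub, residue_eq_zero_iff, mem_maximalIdeal,
    mem_nonunits_iff, MvPowerSeries.isUnit_iff_constantCoeff, map_sub,
    MvPowerSeries.algebraMap_apply, Algebra.algebraMap_self, RingHom.id_apply,
    MvPowerSeries.constantCoeff_C, sub_self]
  exact not_isUnit_zero

/-- Part I (pure commutative algebra): pro-representability from a directed family of
"good" ideals of a polynomial ring with finite tangent space. -/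
theorem exists_proRep
    (𝒪 : Type) [CommRing 𝒪] [IsLocalRing 𝒪] [IsNoetherianRing 𝒪]
    [IsAdicComplete (maximalIdeal 𝒪) 𝒪] [Finite (ResidueField 𝒪)]
    (ι : Type) (ev : MvPolynomial ι 𝒪 →ₐ[𝒪] ResidueField 𝒪)
    (Good : Ideal (MvPolynomial ι 𝒪) → Prop)
    (h0 : Good (RingHom.ker ev))
    (h1 : ∀ K, Good K → K ≤ RingHom.ker ev ∧ (∃ n, RingHom.ker ev ^ n ≤ K) ∧
      Finite (MvPolynomial ι 𝒪 ⧸ K))
    (h2 : ∀ K₁ K₂, Good K₁ → Good K₂ → Good (K₁ ⊓ K₂))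
    (h3 : ∀ K K', Good K → K ≤ K' → K' ≤ RingHom.ker ev → Good K')
    (h4 : ∃ K₁, Good K₁ ∧ ∀ K, Good K → RingHom.ker ev ^ 2 ≤ K →
      (maximalIdeal 𝒪).map (MvPolynomial.C : 𝒪 →+* MvPolynomial ι 𝒪) ≤ K → K₁ ≤ K) :
    ∃ (R : Type) (_ : CommRing R) (_ : IsLocalRing R) (_ : IsNoetherianRing R)
      (_ : IsAdicComplete (maximalIdeal R) R) (_ : Algebra 𝒪 R)
      (_ : IsLocalHom (algebraMap 𝒪 R)) (u : MvPolynomial ι 𝒪 →ₐ[𝒪] R),
      Function.Surjective (residue R ∘ algebraMap 𝒪 R) ∧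
      (∀ (n : ℕ) (x : R), ∃ f : MvPolynomial ι 𝒪, x - u f ∈ maximalIdeal R ^ n) ∧
      (∀ n : ℕ, Good ((maximalIdeal R ^ (n + 1)).comap (u : MvPolynomial ι 𝒪 →+* R))) ∧
      (∀ (n : ℕ) (K : Ideal (MvPolynomial ι 𝒪)), Good K → RingHom.ker ev ^ (n + 1) ≤ K →
        (maximalIdeal R ^ (n + 1)).comap (u : MvPolynomial ι 𝒪 →+* R) ≤ K) := by
  obtain ⟨e, x, Kn, hx, hsurj, hGood, hpow, hmin⟩ := pr_levels 𝒪 ι ev Good h0 h1 h2 h3 h4
  have hKM : ∀ n, Kn n ≤ RingHom.ker ev := fun n => (h1 _ (hGood n)).1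
  have hanti : Antitone Kn := antitone_nat_of_succ_le fun n =>
    hmin (n + 1) (Kn n) (hGood n) ((Ideal.pow_le_pow_right (Nat.le_succ _)).trans (hpow n))
  have hstep : ∀ n, Kn n ≤ Kn (n + 1) ⊔ RingHom.ker ev ^ (n + 1) := fun n =>
    hmin n _ (h3 (Kn (n + 1)) _ (hGood (n + 1)) le_sup_left
      (sup_le (hKM (n + 1)) (Ideal.pow_le_self (Nat.succ_ne_zero n)))) le_sup_right
  have hevs : Function.Surjective ev := by
    intro y
    obtain ⟨c, rfl⟩ := residue_surjective y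
    exact ⟨MvPolynomial.C c, pr_ev_C ev c⟩
  have hMmax : (RingHom.ker ev).IsMaximal := RingHom.ker_isMaximal_of_surjective ev hevs
  have hnil : ∀ n, Ideal.span (Set.range fun i => Ideal.Quotient.mk (Kn n) (x i)) ^ (n + 1) =
      ⊥ := by
    intro n
    have h5 : Ideal.span (Set.range fun i => Ideal.Quotient.mk (Kn n) (x i)) =
        (Ideal.span (Set.range x)).map (Ideal.Quotient.mk (Kn n)) := by
      rw [Ideal.map_span, ← Set.range_comp]
      rfl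
    rw [h5, ← Ideal.map_pow, Ideal.map_eq_bot_iff_le_ker, Ideal.mk_ker]
    refine (Ideal.pow_right_mono ?_ _).trans (hpow n)
    exact le_sup_left.trans (pr_span_sup_le ev x hx)
  have hπ := fun n => exists_algHom_mvPowerSeries (𝒪 := 𝒪)
    (fun i => Ideal.Quotient.mk (Kn n) (x i)) (n + 1) (hnil n)
  choose π hπ using hπ
  have hπX : ∀ n i, π n (MvPowerSeries.X i) = Ideal.Quotient.mk (Kn n) (x i) := by
    intro n i
    rw [← MvPolynomial.coe_X, hπ, MvPolynomial.aeval_X]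
  have hπs : ∀ n, Function.Surjective (π n) := by
    intro n y
    obtain ⟨p, rfl⟩ := hsurj (Kn n) (hGood n) y
    exact ⟨p, hπ n p⟩
  have hcomp : ∀ m n (h : m ≤ n) p, Ideal.Quotient.factor (hanti h) (π n p) = π m p := by
    intro m n h p
    have h5 : π m = (Ideal.Quotient.factorₐ 𝒪 (hanti h)).comp (π n) := by
      refine algHom_mvPowerSeries_ext _ _ (m + 1) ?_ ?_
      · simp only [hπX]
        exact hnil m
      · intro i
        rw [AlgHom.comp_apply, hπX, hπX]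
        rfl
    rw [h5]
    rfl
  have := isAdicComplete_mvPowerSeries 𝒪 e
  have := pr_isLocalHom_C 𝒪 e
  obtain ⟨R, i1, i2, i3, i4, i5, i6, πb, hres, hs, hc, hk⟩ :=
    pr_limit (pr_residue_surjective 𝒪 e) (RingHom.ker ev) Kn hKM hpow hanti hstep π hπs hcomp
  obtain ⟨u, hu⟩ := pr_exists_u Kn hanti πb hs hc hk
  have hcomap : ∀ n, (maximalIdeal R ^ (n + 1)).comap (u : MvPolynomial ι 𝒪 →+* R) = Kn n := by
    intro n
    ext f
    rw [Ideal.mem_comap, ← hk, RingHom.mem_ker, RingHom.coe_coe, hu,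
      Ideal.Quotient.eq_zero_iff_mem]
  refine ⟨R, i1, i2, i3, i4, i5, i6, u, hres, ?_, ?_, ?_⟩
  · intro n y
    obtain ⟨f, hf⟩ := Ideal.Quotient.mk_surjective (πb n y)
    refine ⟨f, ?_⟩
    have h5 : y - u f ∈ RingHom.ker (πb n) := by
      rw [RingHom.mem_ker, map_sub, hu, hf, sub_self]
    rw [hk] at h5
    exact Ideal.pow_le_pow_right (Nat.le_succ n) h5
  · intro n
    rw [hcomap]
    exact hGood n
  · intro n K hK hKp
    rw [hcomap]
    exact hmin n K hK hKp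

end Fermat.Agent.S53
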