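import Mathlib

set_option autoImplicit false

namespace Fermat.Agent.S53

open IsLocalRing

variable {Γ : Type} [Monoid Γ] {𝒪 A : Type} [CommRing 𝒪] [CommRing A] [Algebra 𝒪 A]

/-- The value of a matrix representation on an element of the monoid algebra. -/
noncomputable def evalAt (a : Γ →₀ 𝒪) (r : Γ →* Matrix (Fin 2) (Fin 2) A) :
    Matrix (Fin 2) (Fin 2) A :=
  a.sum fun g c => algebraMap 𝒪 A c • r g

/-- Normal form. -/
structure IsNF (g₀ : Γ) (a : Γ →₀ 𝒪) (r : Γ →* Matrix (Fin 2) (Fin 2) A) : Prop where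
  h00 : r g₀ 0 0 = 0
  h10 : r g₀ 1 0 = 1
  ha : evalAt a r 1 0 = 0

/-- The residual shape needed for the normal form. -/
structure IsNearNF [IsLocalRing A] (g₀ : Γ) (a : Γ →₀ 𝒪) (r : Γ →* Matrix (Fin 2) (Fin 2) A) :
    Prop where
  h00 : r g₀ 0 0 ∈ maximalIdeal A
  h10 : r g₀ 1 0 - 1 ∈ maximalIdeal A
  a00 : evalAt a r 0 0 - 1 ∈ maximalIdeal A
  a10 : evalAt a r 1 0 ∈ maximalIdeal A
  a11 : evalAt a r 1 1 ∈ maximalIdeal A

/-- Conjugation of a matrix representation by an invertible matrix. -/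
def conjBy (U : (Matrix (Fin 2) (Fin 2) A)ˣ) (r : Γ →* Matrix (Fin 2) (Fin 2) A) :
    Γ →* Matrix (Fin 2) (Fin 2) A where
  toFun g := (↑U⁻¹ : Matrix (Fin 2) (Fin 2) A) * r g * (↑U : Matrix (Fin 2) (Fin 2) A)
  map_one' := by simp
  map_mul' g h := by
    simp only [map_mul]
    calc (↑U⁻¹ : Matrix (Fin 2) (Fin 2) A) * (r g * r h) * ↑U
        = ↑U⁻¹ * r g * ((↑U : Matrix (Fin 2) (Fin 2) A) * ↑U⁻¹) * r h * ↑U := by
          rw [Units.mul_inv]; simp only [mul_one, mul_assoc]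
      _ = _ := by simp only [mul_assoc]

theorem nf_mul_evalAt (a : Γ →₀ 𝒪) (r : Γ →* Matrix (Fin 2) (Fin 2) A)
    (U : Matrix (Fin 2) (Fin 2) A) :
    U * evalAt a r = a.sum fun g c => algebraMap 𝒪 A c • (U * r g) := by
  unfold evalAt Finsupp.sum
  rw [Finset.mul_sum]
  refine Finset.sum_congr rfl fun g _ => ?_
  rw [Matrix.mul_smul]

theorem nf_evalAt_mul (a : Γ →₀ 𝒪) (r : Γ →* Matrix (Fin 2) (Fin 2) A)
    (U : Matrix (Fin 2) (Fin 2) A) :
    evalAt a r * U = a.sum fun g c => algebraMap 𝒪 A c • (r g * U) := by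
  unfold evalAt Finsupp.sum
  rw [Finset.sum_mul]
  refine Finset.sum_congr rfl fun g _ => ?_
  rw [Matrix.smul_mul]

theorem nf_evalAt_conjBy (a : Γ →₀ 𝒪) (r : Γ →* Matrix (Fin 2) (Fin 2) A)
    (U : (Matrix (Fin 2) (Fin 2) A)ˣ) :
    evalAt a (conjBy U r) =
      (↑U⁻¹ : Matrix (Fin 2) (Fin 2) A) * evalAt a r * (↑U : Matrix (Fin 2) (Fin 2) A) := by
  rw [nf_mul_evalAt]
  unfold evalAt Finsupp.sum
  rw [Finset.sum_mul]
  refine Finset.sum_congr rfl fun g _ => ?_
  rw [Matrix.smul_mul]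
  rfl

theorem nf_conj_col {W : (Matrix (Fin 2) (Fin 2) A)ˣ} {X : Matrix (Fin 2) (Fin 2) A}
    {u : Fin 2 → A}
    (h : X.mulVec ((W : Matrix (Fin 2) (Fin 2) A).mulVec (Pi.single 0 1)) =
      (W : Matrix (Fin 2) (Fin 2) A).mulVec u) (i : Fin 2) :
    ((↑W⁻¹ : Matrix (Fin 2) (Fin 2) A) * X * (W : Matrix (Fin 2) (Fin 2) A)) i 0 = u i := by
  have h1 : ((↑W⁻¹ : Matrix (Fin 2) (Fin 2) A) * X *
      (W : Matrix (Fin 2) (Fin 2) A)).mulVec (Pi.single 0 1) = u := by
    rw [← Matrix.mulVec_mulVec, ← Matrix.mulVec_mulVec, h, Matrix.mulVec_mulVec, Units.inv_mul,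
      Matrix.one_mulVec]
  rw [← h1, Matrix.mulVec_single_one]
  rfl

/-- D7a: existence of the normal form over a henselian local ring. -/
theorem exists_conj_isNF [IsLocalRing A]
    (hens : ∀ t d : A, 1 - t + d ∈ maximalIdeal A → IsUnit (2 - t) →
      ∃ l : A, l ^ 2 - t * l + d = 0 ∧ l - 1 ∈ maximalIdeal A)
    (g₀ : Γ) (a : Γ →₀ 𝒪) (r : Γ →* Matrix (Fin 2) (Fin 2) A) (h : IsNearNF g₀ a r) :
    ∃ U : (Matrix (Fin 2) (Fin 2) A)ˣ,
      (∀ i j, ((U : Matrix (Fin 2) (Fin 2) A) - 1) i j ∈ maximalIdeal A) ∧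
        IsNF g₀ a (conjBy U r) := by
  classical
  set T := evalAt a r with hT
  set a' := T 0 0 with ha
  set b := T 0 1 with hb
  set c := T 1 0 with hc
  set d := T 1 1 with hd
  have hcm : c ∈ maximalIdeal A := h.a10
  have ham : a' - 1 ∈ maximalIdeal A := h.a00
  have hdm : d ∈ maximalIdeal A := h.a11
  have hone : (1 : A) ∉ maximalIdeal A :=
    (Ideal.ne_top_iff_one _).mp (maximalIdeal.isMaximal A).ne_top
  have h1 : 1 - (a' + d) + (a' * d - b * c) ∈ maximalIdeal A := by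
    have := Ideal.sub_mem _ (Ideal.mul_mem_left _ (d - 1) ham) (Ideal.mul_mem_left _ b hcm)
    convert this using 1
    ring
  have h2 : IsUnit (2 - (a' + d)) := by
    by_contra hcon
    have h3 : 2 - (a' + d) ∈ maximalIdeal A := (mem_maximalIdeal _).mpr hcon
    apply hone
    have := Ideal.add_mem _ (Ideal.add_mem _ h3 ham) hdm
    convert this using 1
    ring
  obtain ⟨α, hroot, hα1⟩ := hens (a' + d) (a' * d - b * c) h1 h2
  have hδ : IsUnit (d - α) := by
    by_contra hcon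
    have h3 : d - α ∈ maximalIdeal A := (mem_maximalIdeal _).mpr hcon
    apply hone
    have := Ideal.sub_mem _ (Ideal.sub_mem _ hdm h3) hα1
    convert this using 1
    ring
  obtain ⟨δ', hδ'⟩ := hδ.exists_right_inv
  set s := -c * δ' with hs
  have hsm : s ∈ maximalIdeal A := Ideal.mul_mem_right _ _ (Ideal.neg_mem_iff _ |>.mpr hcm)
  set M := r g₀ with hM
  set w0 := M 0 0 + M 0 1 * s with hw0
  set w1 := M 1 0 + M 1 1 * s with hw1
  have hM00 : M 0 0 ∈ maximalIdeal A := h.h00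
  have hM10 : M 1 0 - 1 ∈ maximalIdeal A := h.h10
  have hw0m : w0 ∈ maximalIdeal A := Ideal.add_mem _ hM00 (Ideal.mul_mem_left _ _ hsm)
  have hw1m : w1 - 1 ∈ maximalIdeal A := by
    have := Ideal.add_mem _ hM10 (Ideal.mul_mem_left _ (M 1 1) hsm)
    convert this using 1
    ring
  let W : Matrix (Fin 2) (Fin 2) A := !![1, w0; s, w1]
  have hdet : IsUnit W.det := by
    rw [Matrix.det_fin_two_of]
    by_contra hcon
    have h1 : 1 * w1 - w0 * s ∈ maximalIdeal A := (mem_maximalIdeal _).mpr hcon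
    apply hone
    have := Ideal.sub_mem _ (Ideal.add_mem _ h1 (Ideal.mul_mem_left _ w0 hsm)) hw1m
    convert this using 1
    ring
  obtain ⟨Wu, hWu⟩ := (Matrix.isUnit_iff_isUnit_det W).mpr hdet
  refine ⟨Wu, ?_, ?_, ?_, ?_⟩
  · intro i j
    rw [hWu]
    fin_cases i <;> fin_cases j
    · simp [W]
    · simpa [W] using hw0m
    · simpa [W] using hsm
    · simpa [W] using hw1m
  · show ((↑Wu⁻¹ : Matrix (Fin 2) (Fin 2) A) * r g₀ * (Wu : Matrix (Fin 2) (Fin 2) A)) 0 0 = 0
    rw [nf_conj_col (u := Pi.single 1 1)]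
    · simp
    · rw [hWu]
      ext i
      fin_cases i <;>
        simp [W, Matrix.mulVec, dotProduct, Fin.sum_univ_two, hw0, hw1, hM]
  · show ((↑Wu⁻¹ : Matrix (Fin 2) (Fin 2) A) * r g₀ * (Wu : Matrix (Fin 2) (Fin 2) A)) 1 0 = 1
    rw [nf_conj_col (u := Pi.single 1 1)]
    · simp
    · rw [hWu]
      ext i
      fin_cases i <;>
        simp [W, Matrix.mulVec, dotProduct, Fin.sum_univ_two, hw0, hw1, hM]
  · rw [nf_evalAt_conjBy, nf_conj_col (u := α • Pi.single 0 1)]
    · simp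
    · rw [hWu]
      have e1 : a' + b * s = α := by
        have : (a' + b * s - α) = δ' * (α ^ 2 - (a' + d) * α + (a' * d - b * c)) +
            (a' - α) * (1 - (d - α) * δ') := by
          rw [hs]; ring
        rw [hroot, hδ'] at this
        linear_combination this
      have e2 : c + d * s = s * α := by
        have : c + d * s - s * α = c * (1 - (d - α) * δ') := by rw [hs]; ring
        rw [hδ'] at this
        linear_combination this
      ext i
      fin_cases i
      · simp [W, Matrix.mulVec, dotProduct, Fin.sum_univ_two]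
        exact e1
      · simp [W, Matrix.mulVec, dotProduct, Fin.sum_univ_two]
        exact e2

/-- D7b: uniqueness of the normal form. -/
theorem eq_of_isNF_of_conj [IsLocalRing A]
    (g₀ : Γ) (a : Γ →₀ 𝒪) (r r' : Γ →* Matrix (Fin 2) (Fin 2) A)
    (h : IsNearNF g₀ a r) (h' : IsNearNF g₀ a r') (hr : IsNF g₀ a r) (hr' : IsNF g₀ a r')
    (M : Matrix (Fin 2) (Fin 2) A) (hM : IsUnit M) (hc : ∀ g, M * r g = r' g * M) : r = r' := by
  obtain ⟨n1, n2, n3⟩ := hr
  obtain ⟨n1', n2', n3'⟩ := hr'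
  have hone : (1 : A) ∉ maximalIdeal A :=
    (Ideal.ne_top_iff_one _).mp (maximalIdeal.isMaximal A).ne_top
  have hT : M * evalAt a r = evalAt a r' * M := by
    rw [nf_mul_evalAt, nf_evalAt_mul]
    congr 1
    funext σ c
    rw [hc σ]
  have hu : IsUnit (evalAt a r 0 0 - evalAt a r' 1 1) := by
    by_contra hcon
    have h3 : evalAt a r 0 0 - evalAt a r' 1 1 ∈ maximalIdeal A := (mem_maximalIdeal _).mpr hcon
    apply hone
    have := Ideal.sub_mem _ (Ideal.add_mem _ h3 h'.a11) h.a00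
    convert this using 1
    ring
  have e10 : M 1 0 = 0 := by
    have := congrFun (congrFun hT 1) 0
    simp only [Matrix.mul_apply, Fin.sum_univ_two, n3, n3', mul_zero, zero_mul, add_zero,
      zero_add] at this
    have h0 : (evalAt a r 0 0 - evalAt a r' 1 1) * M 1 0 = 0 := by linear_combination this
    exact (hu.mul_right_eq_zero).mp h0
  have hg := hc g₀
  have e01 : M 0 1 = 0 := by
    have := congrFun (congrFun hg 0) 0
    simp only [Matrix.mul_apply, Fin.sum_univ_two, n1, n2, n1', n2', e10, mul_zero, zero_mul,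
      add_zero, zero_add, mul_one] at this
    exact this
  have e11 : M 1 1 = M 0 0 := by
    have := congrFun (congrFun hg 1) 0
    simp only [Matrix.mul_apply, Fin.sum_univ_two, n1, n2, n1', n2', e10, mul_zero, zero_mul,
      add_zero, zero_add, mul_one, one_mul] at this
    exact this
  have hscal : M = M 0 0 • (1 : Matrix (Fin 2) (Fin 2) A) := by
    ext i j
    fin_cases i <;> fin_cases j <;> simp [e10, e01, e11]
  have hunit : IsUnit (M 0 0) := by
    obtain ⟨N, hN⟩ := hM.exists_right_inv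
    have := congrFun (congrFun hN 0) 0
    simp only [Matrix.mul_apply, Fin.sum_univ_two, e01, zero_mul, add_zero, Matrix.one_apply_eq]
      at this
    exact IsUnit.of_mul_eq_one _ this
  ext σ i j
  have h4 := hc σ
  rw [hscal, Matrix.smul_mul, Matrix.mul_smul, one_mul, mul_one] at h4
  have := congrFun (congrFun h4 i) j
  simp only [Matrix.smul_apply, smul_eq_mul] at this
  exact hunit.mul_left_cancel this

end Fermat.Agent.S53
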