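import Mathlib
import Fermat.Prelude.Def_GaloisRep_DeformationRingData
import Fermat.Prelude.Def_GaloisRep_DeformationCondition
import Fermat.Agent.S53.NormalForm

set_option autoImplicit false

namespace Fermat.Agent.S53

open IsLocalRing

noncomputable section

abbrev GQ := AlgebraicClosure ℚ ≃ₐ[ℚ] AlgebraicClosure ℚ

abbrev M2 (A : Type) := Matrix (Fin 2) (Fin 2) A

section
variable {A : Type} [CommRing A] [IsLocalRing A]

def IsCont (r : GQ →* M2 A) : Prop :=
  ∀ n : ℕ, ∃ L : IntermediateField ℚ (AlgebraicClosure ℚ), FiniteDimensional ℚ L ∧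
    ∀ σ : GQ, (∀ x ∈ L, σ x = x) → ∀ i j, (r σ - 1) i j ∈ maximalIdeal A ^ n

omit [IsLocalRing A] in
lemma mem_smul_top_of_forall_mem (I : Ideal A) (w : Fin 2 → A) (hw : ∀ i, w i ∈ I) :
    w ∈ I • (⊤ : Submodule A (Fin 2 → A)) := by
  have : w = ∑ i, w i • (Pi.single i (1 : A) : Fin 2 → A) := by
    ext j
    simp [Finset.sum_apply, Pi.single_apply]
  rw [this]
  exact Submodule.sum_mem _ fun i _ => Submodule.smul_mem_smul (hw i) Submodule.mem_top

def toRep (r : GQ →* M2 A) (h : IsCont r) : GaloisRepAdic A where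
  V := Fin 2 → A
  finrank_eq := by simp
  ρ := (Matrix.toLinAlgEquiv' : M2 A ≃ₐ[A] _).toAlgHom.toRingHom.toMonoidHom.comp r
  isAdicContinuous := by
    intro n
    obtain ⟨L, hL, h1⟩ := h n
    refine ⟨L, hL, fun σ hσ v => ?_⟩
    apply mem_smul_top_of_forall_mem
    intro i
    have : ((Matrix.toLinAlgEquiv' : M2 A ≃ₐ[A] _).toAlgHom.toRingHom.toMonoidHom.comp r) σ v - v
        = (r σ - 1).mulVec v := by
      simp [Matrix.sub_mulVec]
    rw [this]
    simp only [Matrix.mulVec, dotProduct]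
    exact Ideal.sum_mem _ fun j _ => Ideal.mul_mem_right _ _ (h1 σ hσ i j)

@[simp] lemma toRep_ρ_apply (r : GQ →* M2 A) (h : IsCont r) (σ : GQ) (v : Fin 2 → A) :
    (toRep r h).ρ σ v = (r σ).mulVec v := rfl

def matOf (ρ : GaloisRepAdic A) (b : Module.Basis (Fin 2) A ρ.V) : GQ →* M2 A :=
  (LinearMap.toMatrixAlgEquiv b).toAlgHom.toRingHom.toMonoidHom.comp ρ.ρ

lemma matOf_apply (ρ : GaloisRepAdic A) (b : Module.Basis (Fin 2) A ρ.V) (σ : GQ) :
    matOf ρ b σ = LinearMap.toMatrix b b (ρ.ρ σ) := rfl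


omit [IsLocalRing A] in
lemma repr_mem_of_mem_smul_top {V : Type} [AddCommGroup V] [Module A V]
    (b : Module.Basis (Fin 2) A V) (I : Ideal A) {x : V}
    (hx : x ∈ I • (⊤ : Submodule A V)) (i : Fin 2) : b.repr x i ∈ I := by
  refine Submodule.smul_induction_on (p := fun x => b.repr x i ∈ I) hx ?_ ?_
  · intro a ha w _
    simp only [map_smul, Finsupp.smul_apply, smul_eq_mul]
    exact Ideal.mul_mem_right _ _ ha
  · intro x y hx hy
    simp only [map_add, Finsupp.add_apply]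
    exact Ideal.add_mem _ hx hy

lemma isCont_matOf (ρ : GaloisRepAdic A) (b : Module.Basis (Fin 2) A ρ.V) :
    IsCont (matOf ρ b) := by
  intro n
  obtain ⟨L, hL, h1⟩ := ρ.isAdicContinuous n
  refine ⟨L, hL, fun σ hσ i j => ?_⟩
  have := repr_mem_of_mem_smul_top b _ (h1 σ hσ (b j)) i
  simpa [matOf_apply, LinearMap.toMatrix_apply, Matrix.one_apply, Finsupp.single_apply,
    eq_comm] using this

lemma isEquiv_of_matOf_eq {ρ ρ' : GaloisRepAdic A} (b : Module.Basis (Fin 2) A ρ.V)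
    (b' : Module.Basis (Fin 2) A ρ'.V) (h : matOf ρ b = matOf ρ' b') : ρ.IsEquiv ρ' := by
  refine ⟨⟨b.equiv b' (Equiv.refl _), fun σ x => ?_⟩⟩
  have key : ((b.equiv b' (Equiv.refl _)).toLinearMap ∘ₗ ρ.ρ σ) =
      (ρ'.ρ σ ∘ₗ (b.equiv b' (Equiv.refl _)).toLinearMap) := by
    apply b.ext
    intro j
    have h1 : ρ.ρ σ (b j) = ∑ i, (matOf ρ b σ) i j • b i := by
      simp [matOf_apply, LinearMap.toMatrix_apply, b.sum_repr]
    have h2 : ρ'.ρ σ (b' j) = ∑ i, (matOf ρ' b' σ) i j • b' i := by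
      simp [matOf_apply, LinearMap.toMatrix_apply, b'.sum_repr]
    simp only [LinearMap.comp_apply, LinearEquiv.coe_coe, Module.Basis.equiv_apply,
      Equiv.refl_apply]
    rw [h1, h2, map_sum, h]
    simp
  exact congrArg (fun f => f x) key

lemma matOf_toRep (r : GQ →* M2 A) (h : IsCont r) :
    matOf (toRep r h) (Pi.basisFun A (Fin 2)) = r := by
  apply MonoidHom.ext
  intro σ
  show LinearMap.toMatrix (Pi.basisFun A (Fin 2)) (Pi.basisFun A (Fin 2))
    (Matrix.toLin' (r σ)) = r σ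
  rw [LinearMap.toMatrix_eq_toMatrix', LinearMap.toMatrix'_toLin']

lemma toRep_matOf_isEquiv (ρ : GaloisRepAdic A) (b : Module.Basis (Fin 2) A ρ.V) :
    (toRep (matOf ρ b) (isCont_matOf ρ b)).IsEquiv ρ :=
  isEquiv_of_matOf_eq (Pi.basisFun A (Fin 2)) b (matOf_toRep _ _)

end

section
variable {A B : Type} [CommRing A] [IsLocalRing A] [CommRing B] [IsLocalRing B]

def mapHom (φ : A →+* B) (r : GQ →* M2 A) : GQ →* M2 B :=
  φ.mapMatrix.toMonoidHom.comp r

omit [IsLocalRing A] [IsLocalRing B] in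
@[simp] lemma mapHom_apply (φ : A →+* B) (r : GQ →* M2 A) (σ : GQ) (i j : Fin 2) :
    mapHom φ r σ i j = φ (r σ i j) := rfl

lemma matOf_baseChangeAlong (φ : A →+* B) (hφ : IsLocalHom φ) (ρ : GaloisRepAdic A)
    (b : Module.Basis (Fin 2) A ρ.V) :
    ∃ b' : Module.Basis (Fin 2) B (ρ.baseChangeAlong φ hφ).V,
      matOf (ρ.baseChangeAlong φ hφ) b' = mapHom φ (matOf ρ b) := by
  let _ : Algebra A B := φ.toAlgebra
  refine ⟨Algebra.TensorProduct.basis B b, ?_⟩
  apply MonoidHom.ext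
  intro σ
  exact LinearMap.toMatrix_baseChange B (ρ.ρ σ) b b

lemma IsCont.mapHom {r : GQ →* M2 A} (h : IsCont r) (φ : A →+* B) (hφ : IsLocalHom φ) :
    IsCont (mapHom φ r) := by
  intro n
  obtain ⟨L, hL, h1⟩ := h n
  refine ⟨L, hL, fun σ hσ i j => ?_⟩
  have hmap : (maximalIdeal A ^ n).map φ ≤ maximalIdeal B ^ n := by
    rw [Ideal.map_pow]
    exact Ideal.pow_right_mono (Ideal.map_le_iff_le_comap.mpr fun a ha =>
      Ideal.mem_comap.mpr (haveI := hφ; map_nonunit φ a ha)) n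
  have h2 := hmap (Ideal.mem_map_of_mem φ (h1 σ hσ i j))
  have h3 : (Fermat.Agent.S53.mapHom φ r σ - 1) i j = φ ((r σ - 1) i j) := by
    simp only [Matrix.sub_apply, mapHom_apply, map_sub, Matrix.one_apply]
    split_ifs <;> simp
  rw [h3]
  exact h2

lemma baseChangeAlong_toRep_isEquiv (φ : A →+* B) (hφ : IsLocalHom φ) (r : GQ →* M2 A)
    (h : IsCont r) (h' : IsCont (mapHom φ r)) :
    ((toRep r h).baseChangeAlong φ hφ).IsEquiv (toRep (mapHom φ r) h') := by
  obtain ⟨b', hb'⟩ := matOf_baseChangeAlong φ hφ (toRep r h) (Pi.basisFun A (Fin 2))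
  refine isEquiv_of_matOf_eq b' (Pi.basisFun B (Fin 2)) ?_
  rw [hb', matOf_toRep, matOf_toRep]

end

section
variable {A : Type} [CommRing A] [IsLocalRing A]

lemma exists_matrix_of_isEquiv {r r' : GQ →* M2 A} {h : IsCont r} {h' : IsCont r'}
    (e : (toRep r h).IsEquiv (toRep r' h')) :
    ∃ M : M2 A, IsUnit M ∧ ∀ g, M * r g = r' g * M := by
  obtain ⟨e⟩ := e
  let f : (Fin 2 → A) ≃ₗ[A] (Fin 2 → A) := e.toLinearEquiv
  refine ⟨LinearMap.toMatrix' f.toLinearMap, ?_, fun g => ?_⟩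
  · refine ⟨⟨LinearMap.toMatrix' f.toLinearMap, LinearMap.toMatrix' f.symm.toLinearMap, ?_, ?_⟩,
      rfl⟩
    · rw [← LinearMap.toMatrix'_comp]; simp
    · rw [← LinearMap.toMatrix'_comp]; simp
  · have h1 : f.toLinearMap ∘ₗ Matrix.toLin' (r g) = Matrix.toLin' (r' g) ∘ₗ f.toLinearMap := by
      apply LinearMap.ext
      intro x
      exact e.map_apply g x
    have h2 := congrArg LinearMap.toMatrix' h1
    rwa [LinearMap.toMatrix'_comp, LinearMap.toMatrix'_comp, LinearMap.toMatrix'_toLin',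
      LinearMap.toMatrix'_toLin'] at h2

lemma IsCont.conjBy {r : GQ →* M2 A} (h : IsCont r) (U : (M2 A)ˣ) :
    IsCont (conjBy U r) := by
  intro n
  obtain ⟨L, hL, h1⟩ := h n
  refine ⟨L, hL, fun σ hσ i j => ?_⟩
  have h2 : Fermat.Agent.S53.conjBy U r σ - 1 =
      (↑U⁻¹ : M2 A) * (r σ - 1) * (↑U : M2 A) := by
    show (↑U⁻¹ : M2 A) * r σ * (↑U : M2 A) - 1 = _
    rw [mul_sub, sub_mul, mul_one, Units.inv_mul]
  rw [h2]
  simp only [Matrix.mul_apply]
  refine Ideal.sum_mem _ fun k _ => Ideal.mul_mem_right _ _ ?_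
  exact Ideal.sum_mem _ fun l _ => Ideal.mul_mem_left _ _ (h1 σ hσ l k)

lemma toRep_conjBy_isEquiv (r : GQ →* M2 A) (h : IsCont r) (U : (M2 A)ˣ)
    (h' : IsCont (conjBy U r)) : (toRep (conjBy U r) h').IsEquiv (toRep r h) := by
  let f : (Fin 2 → A) ≃ₗ[A] (Fin 2 → A) :=
    LinearEquiv.ofLinearMap (Matrix.toLin' (↑U : M2 A)) (Matrix.toLin' (↑U⁻¹ : M2 A))
      (by rw [← Matrix.toLin'_mul, Units.mul_inv, Matrix.toLin'_one])
      (by rw [← Matrix.toLin'_mul, Units.inv_mul, Matrix.toLin'_one])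
  have key : ∀ (σ : GQ) (x : Fin 2 → A),
      (↑U : M2 A).mulVec (((↑U⁻¹ : M2 A) * r σ * (↑U : M2 A)).mulVec x) =
        (r σ).mulVec ((↑U : M2 A).mulVec x) := by
    intro σ x
    rw [Matrix.mulVec_mulVec, Matrix.mulVec_mulVec, ← mul_assoc, ← mul_assoc, Units.mul_inv,
      one_mul]
  exact ⟨⟨f, fun σ x => key σ x⟩⟩

end

section Residual
open TensorProduct

def resMatOf {k : Type} [Field k] (ρ : ResidualGaloisRep k) (c : Module.Basis (Fin 2) k ρ.V) :
    GQ →* M2 k :=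
  (LinearMap.toMatrixAlgEquiv c).toAlgHom.toRingHom.toMonoidHom.comp ρ.ρ

lemma resMatOf_apply {k : Type} [Field k] (ρ : ResidualGaloisRep k)
    (c : Module.Basis (Fin 2) k ρ.V) (σ : GQ) :
    resMatOf ρ c σ = LinearMap.toMatrix c c (ρ.ρ σ) := rfl

lemma res_isEquiv_of_resMatOf_eq {k : Type} [Field k] {ρ ρ' : ResidualGaloisRep k}
    (b : Module.Basis (Fin 2) k ρ.V)
    (b' : Module.Basis (Fin 2) k ρ'.V) (h : resMatOf ρ b = resMatOf ρ' b') : ρ.IsEquiv ρ' := by
  refine ⟨⟨b.equiv b' (Equiv.refl _), fun σ x => ?_⟩⟩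
  have key : ((b.equiv b' (Equiv.refl _)).toLinearMap ∘ₗ ρ.ρ σ) =
      (ρ'.ρ σ ∘ₗ (b.equiv b' (Equiv.refl _)).toLinearMap) := by
    apply b.ext
    intro j
    have h1 : ρ.ρ σ (b j) = ∑ i, (resMatOf ρ b σ) i j • b i := by
      simp [resMatOf_apply, LinearMap.toMatrix_apply, b.sum_repr]
    have h2 : ρ'.ρ σ (b' j) = ∑ i, (resMatOf ρ' b' σ) i j • b' i := by
      simp [resMatOf_apply, LinearMap.toMatrix_apply, b'.sum_repr]
    simp only [LinearMap.comp_apply, LinearEquiv.coe_coe, Module.Basis.equiv_apply,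
      Equiv.refl_apply]
    rw [h1, h2, map_sum, h]
    simp
  exact congrArg (fun f => f x) key

lemma resMatOf_map_equiv {k : Type} [Field k] {ρ ρ' : ResidualGaloisRep k}
    (e : ResidualGaloisRep.Equiv ρ ρ') (b : Module.Basis (Fin 2) k ρ.V) :
    resMatOf ρ' (b.map e.toLinearEquiv) = resMatOf ρ b := by
  apply MonoidHom.ext
  intro σ
  ext i j
  simp only [resMatOf_apply, LinearMap.toMatrix_apply, Module.Basis.map_apply,
    Module.Basis.map_repr, LinearEquiv.trans_apply]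
  rw [← e.map_apply, LinearEquiv.symm_apply_apply]

lemma resMatOf_baseChangeAlong {k k' : Type} [Field k] [Field k'] (ι : k →+* k')
    (ρ : ResidualGaloisRep k) (b : Module.Basis (Fin 2) k ρ.V) :
    ∃ b' : Module.Basis (Fin 2) k' (ρ.baseChangeAlong ι).V,
      ∀ σ i j, resMatOf (ρ.baseChangeAlong ι) b' σ i j = ι (resMatOf ρ b σ i j) := by
  let _ : Algebra k k' := ι.toAlgebra
  refine ⟨Algebra.TensorProduct.basis k' b, fun σ i j => ?_⟩
  exact congrFun (congrFun (LinearMap.toMatrix_baseChange k' (ρ.ρ σ) b b) i) j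

variable {A : Type} [CommRing A] [IsLocalRing A]

lemma resMatOf_residual (ρ : GaloisRepAdic A) (b : Module.Basis (Fin 2) A ρ.V) (σ : GQ)
    (i j : Fin 2) :
    resMatOf ρ.residual (Algebra.TensorProduct.basis (ResidueField A) b) σ i j =
      residue A (matOf ρ b σ i j) :=
  congrFun (congrFun (LinearMap.toMatrix_baseChange (ResidueField A) (ρ.ρ σ) b b) i) j

lemma exists_basis_lift {V : Type} [AddCommGroup V] [Module A V] [Module.Free A V]
    [Module.Finite A V] (c : Module.Basis (Fin 2) (ResidueField A) (ResidueField A ⊗[A] V)) :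
    ∃ b : Module.Basis (Fin 2) A V, Algebra.TensorProduct.basis (ResidueField A) b = c := by
  have hsurj : Function.Surjective (TensorProduct.mk A (ResidueField A) V 1) := by
    intro x
    induction x using TensorProduct.induction_on with
    | zero => exact ⟨0, by simp⟩
    | tmul a v =>
      obtain ⟨a, rfl⟩ := residue_surjective a
      refine ⟨a • v, ?_⟩
      simp only [TensorProduct.mk_apply, TensorProduct.tmul_smul]
      rw [TensorProduct.smul_tmul', Algebra.smul_def, mul_one]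
      rfl
    | add x y hx hy =>
      obtain ⟨x, rfl⟩ := hx
      obtain ⟨y, rfl⟩ := hy
      exact ⟨x + y, by rw [map_add]⟩
  choose v hv using fun i => hsurj (c i)
  have hv' : (TensorProduct.mk A (ResidueField A) V 1 ∘ v) = c := funext hv
  have hli : LinearIndependent A v := by
    apply Module.IsLocalRing.linearIndependent_of_flat
    rw [hv']
    exact c.linearIndependent
  have hsp : Submodule.span A (Set.range v) = ⊤ :=
    IsLocalRing.span_eq_top_of_tmul_eq_basis v c hv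
  refine ⟨Module.Basis.mk hli hsp.ge, ?_⟩
  apply Module.Basis.eq_of_apply_eq
  intro i
  simp only [Algebra.TensorProduct.basis_apply, Module.Basis.mk_apply]
  exact hv i

/-- (9a) -/
lemma residual_isEquiv_of_matOf {k : Type} [Field k] (ρbar : ResidualGaloisRep k)
    (bbar : Module.Basis (Fin 2) k ρbar.V) (ι : k →+* ResidueField A)
    (ρ : GaloisRepAdic A) (b : Module.Basis (Fin 2) A ρ.V)
    (h : ∀ σ i j, residue A (matOf ρ b σ i j) = ι (resMatOf ρbar bbar σ i j)) :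
    ρ.residual.IsEquiv (ρbar.baseChangeAlong ι) := by
  obtain ⟨b', hb'⟩ := resMatOf_baseChangeAlong ι ρbar bbar
  refine res_isEquiv_of_resMatOf_eq (Algebra.TensorProduct.basis (ResidueField A) b) b' ?_
  apply MonoidHom.ext
  intro σ
  ext i j
  rw [resMatOf_residual, hb', h]

/-- (9b) -/
lemma exists_basis_of_residual_isEquiv {k : Type} [Field k] (ρbar : ResidualGaloisRep k)
    (bbar : Module.Basis (Fin 2) k ρbar.V) (ι : k →+* ResidueField A)
    (ρ : GaloisRepAdic A) (h : ρ.residual.IsEquiv (ρbar.baseChangeAlong ι)) :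
    ∃ b : Module.Basis (Fin 2) A ρ.V,
      ∀ σ i j, residue A (matOf ρ b σ i j) = ι (resMatOf ρbar bbar σ i j) := by
  obtain ⟨e⟩ := h
  obtain ⟨b', hb'⟩ := resMatOf_baseChangeAlong ι ρbar bbar
  let c : Module.Basis (Fin 2) (ResidueField A) ρ.residual.V := b'.map e.symm.toLinearEquiv
  obtain ⟨b, hb⟩ := exists_basis_lift (V := ρ.V) c
  refine ⟨b, fun σ i j => ?_⟩
  have h1 : resMatOf ρ.residual c = _ := resMatOf_map_equiv e.symm b'
  rw [← resMatOf_residual, ← hb', ← h1]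
  exact congrArg (fun c => resMatOf ρ.residual c σ i j) hb

end Residual

end

end Fermat.Agent.S53
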