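import Mathlib
import Fermat.Prelude.Def_GaloisRep_DeformationCondition

set_option autoImplicit false

namespace Fermat.Agent.S53

open IsLocalRing GaloisRep

section
variable {𝒪 : Type} [CommRing 𝒪] [IsLocalRing 𝒪] {ι : Type}
  (evb : MvPolynomial ι 𝒪 →ₐ[𝒪] ResidueField 𝒪)

structure IsThick (K : Ideal (MvPolynomial ι 𝒪)) : Prop where
  le : K ≤ RingHom.ker evb
  pow : ∃ n, RingHom.ker evb ^ n ≤ K
  fin : Finite (MvPolynomial ι 𝒪 ⧸ K)

variable {evb} {K : Ideal (MvPolynomial ι 𝒪)}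

lemma evb_surjective : Function.Surjective evb := by
  intro y
  obtain ⟨c, rfl⟩ := residue_surjective y
  exact ⟨MvPolynomial.C c, by
    rw [← MvPolynomial.algebraMap_eq, AlgHom.commutes]; rfl⟩

lemma IsThick.isNilpotent_mk (h : IsThick evb K) {f : MvPolynomial ι 𝒪} (hf : evb f = 0) :
    IsNilpotent (Ideal.Quotient.mk K f) := by
  obtain ⟨n, hn⟩ := h.pow
  refine ⟨n, ?_⟩
  rw [← map_pow, Ideal.Quotient.eq_zero_iff_mem]
  exact hn (Ideal.pow_mem_pow (RingHom.mem_ker.mpr hf) n)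

lemma IsThick.nontrivial (h : IsThick evb K) : Nontrivial (MvPolynomial ι 𝒪 ⧸ K) := by
  apply Ideal.Quotient.nontrivial_iff.mpr
  intro htop
  have : (1 : MvPolynomial ι 𝒪) ∈ RingHom.ker evb := h.le (htop ▸ Submodule.mem_top)
  rw [RingHom.mem_ker, map_one] at this
  exact one_ne_zero this

lemma IsThick.isUnit_mk (h : IsThick evb K) {f : MvPolynomial ι 𝒪} (hf : evb f ≠ 0) :
    IsUnit (Ideal.Quotient.mk K f) := by
  obtain ⟨g, hg⟩ := evb_surjective (evb := evb) (evb f)⁻¹
  have h1 : evb (f * g - 1) = 0 := by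
    rw [map_sub, map_mul, hg, map_one, mul_inv_cancel₀ hf, sub_self]
  have h2 := (h.isNilpotent_mk h1).isUnit_add_one
  rw [← map_one (Ideal.Quotient.mk K), ← map_add, sub_add_cancel, map_mul] at h2
  exact isUnit_of_mul_isUnit_left h2

lemma IsThick.isLocalRing (h : IsThick evb K) : IsLocalRing (MvPolynomial ι 𝒪 ⧸ K) := by
  haveI := h.nontrivial
  refine IsLocalRing.of_isUnit_or_isUnit_one_sub_self fun x => ?_
  obtain ⟨f, rfl⟩ := Ideal.Quotient.mk_surjective x
  by_cases hf : evb f = 0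
  · right
    rw [← map_one (Ideal.Quotient.mk K), ← map_sub]
    apply h.isUnit_mk
    rw [map_sub, map_one, hf, sub_zero]
    exact one_ne_zero
  · left
    exact h.isUnit_mk hf

lemma IsThick.mk_mem_maximalIdeal_iff [IsLocalRing (MvPolynomial ι 𝒪 ⧸ K)] (h : IsThick evb K)
    (f : MvPolynomial ι 𝒪) :
    Ideal.Quotient.mk K f ∈ maximalIdeal (MvPolynomial ι 𝒪 ⧸ K) ↔ evb f = 0 := by
  rw [mem_maximalIdeal, mem_nonunits_iff]
  constructor
  · intro hu
    by_contra hf
    exact hu (h.isUnit_mk hf)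
  · intro hf hu
    exact (h.isNilpotent_mk hf).not_isUnit hu

lemma IsThick.isArtinianTestAlgebra [IsLocalRing (MvPolynomial ι 𝒪 ⧸ K)] (h : IsThick evb K) :
    IsArtinianTestAlgebra 𝒪 (MvPolynomial ι 𝒪 ⧸ K) where
  isLocalHom := by
    refine ⟨fun c hc => ?_⟩
    by_contra hnu
    have h1 : evb (MvPolynomial.C c) = 0 := by
      rw [← MvPolynomial.algebraMap_eq, AlgHom.commutes]
      exact (residue_eq_zero_iff c).mpr hnu
    exact (h.isNilpotent_mk h1).not_isUnit hc
  residue_surjective := by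
    intro y
    obtain ⟨x, rfl⟩ := residue_surjective y
    obtain ⟨f, rfl⟩ := Ideal.Quotient.mk_surjective x
    obtain ⟨c, hc⟩ := residue_surjective (evb f)
    refine ⟨c, ?_⟩
    simp only [Function.comp_apply]
    rw [← sub_eq_zero, ← map_sub, residue_eq_zero_iff]
    have : algebraMap 𝒪 (MvPolynomial ι 𝒪 ⧸ K) c - Ideal.Quotient.mk K f =
        Ideal.Quotient.mk K (MvPolynomial.C c - f) := by
      rw [map_sub]; rfl
    rw [this, h.mk_mem_maximalIdeal_iff, map_sub, ← MvPolynomial.algebraMap_eq, AlgHom.commutes,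
      ← hc]
    exact sub_self _
  isArtinian := haveI := h.fin; inferInstance

lemma IsThick.mono (h : IsThick evb K) {K' : Ideal (MvPolynomial ι 𝒪)} (h1 : K ≤ K')
    (h2 : K' ≤ RingHom.ker evb) : IsThick evb K' where
  le := h2
  pow := by
    obtain ⟨n, hn⟩ := h.pow
    exact ⟨n, hn.trans h1⟩
  fin := haveI := h.fin
    Finite.of_surjective _ (Ideal.Quotient.factor_surjective h1)

lemma IsThick.inf (h : IsThick evb K) {K' : Ideal (MvPolynomial ι 𝒪)} (h' : IsThick evb K') :
    IsThick evb (K ⊓ K') where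
  le := inf_le_left.trans h.le
  pow := by
    obtain ⟨n, hn⟩ := h.pow
    obtain ⟨n', hn'⟩ := h'.pow
    exact ⟨max n n', le_inf ((Ideal.pow_le_pow_right (le_max_left _ _)).trans hn)
      ((Ideal.pow_le_pow_right (le_max_right _ _)).trans hn')⟩
  fin := by
    haveI := h.fin
    haveI := h'.fin
    refine Finite.of_injective (fun x : MvPolynomial ι 𝒪 ⧸ (K ⊓ K') =>
      (Ideal.Quotient.factor inf_le_left x, Ideal.Quotient.factor inf_le_right x) :
      _ → (MvPolynomial ι 𝒪 ⧸ K) × (MvPolynomial ι 𝒪 ⧸ K')) ?_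
    intro x y hxy
    obtain ⟨f, rfl⟩ := Ideal.Quotient.mk_surjective x
    obtain ⟨g, rfl⟩ := Ideal.Quotient.mk_surjective y
    simp only [Ideal.Quotient.factor_mk, Prod.mk.injEq] at hxy
    rw [Ideal.Quotient.eq] at hxy ⊢
    rw [Ideal.Quotient.eq] at hxy
    exact ⟨hxy.1, hxy.2⟩

end

/-- a ring hom out of an artinian local ring into a nontrivial ring is local -/
lemma isLocalHom_of_isArtinianRing {A B : Type} [CommRing A] [IsLocalRing A] [IsArtinianRing A]
    [CommRing B] [Nontrivial B] (φ : A →+* B) : IsLocalHom φ := by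
  refine ⟨fun a ha => ?_⟩
  by_contra hnu
  have h1 : a ∈ maximalIdeal A := hnu
  have h2 : IsNilpotent a := by
    obtain ⟨n, hn⟩ := (isArtinianRing_iff_isNilpotent_maximalIdeal A).mp inferInstance
    refine ⟨n, ?_⟩
    have := Ideal.pow_mem_pow h1 n
    rw [hn] at this
    simpa using this
  exact (h2.map φ).not_isUnit ha

end Fermat.Agent.S53
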