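import Mathlib
import Fermat.Agent.S53.Rep
import Fermat.Agent.S53.Thick

set_option autoImplicit false
set_option linter.style.haveILetI false
set_option linter.unusedSectionVars false

namespace Fermat.Agent.S53

open IsLocalRing GaloisRep

noncomputable section

/-- The fixed residual data. -/
structure Setup (𝒪 : Type) [CommRing 𝒪] [IsLocalRing 𝒪] where
  rb : GQ →* M2 (ResidueField 𝒪)
  g₀ : GQ
  a : GQ →₀ 𝒪
  h00 : rb g₀ 0 0 = 0
  h10 : rb g₀ 1 0 = 1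
  t00 : evalAt a rb 0 0 = 1
  t10 : evalAt a rb 1 0 = 0
  t11 : evalAt a rb 1 1 = 0

section
variable {𝒪 : Type} [CommRing 𝒪] [IsLocalRing 𝒪]

omit [IsLocalRing 𝒪] in
lemma evalAt_apply {A : Type} [CommRing A] [Algebra 𝒪 A] (a : GQ →₀ 𝒪) (r : GQ →* M2 A)
    (i j : Fin 2) : evalAt a r i j = a.sum fun g c => algebraMap 𝒪 A c * r g i j := by
  unfold evalAt Finsupp.sum
  rw [Matrix.sum_apply]
  rfl

omit [IsLocalRing 𝒪] in
lemma evalAt_mapHom {A B : Type} [CommRing A] [Algebra 𝒪 A] [CommRing B] [Algebra 𝒪 B]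
    (φ : A →ₐ[𝒪] B) (a : GQ →₀ 𝒪) (r : GQ →* M2 A) (i j : Fin 2) :
    evalAt a (mapHom (φ : A →+* B) r) i j = φ (evalAt a r i j) := by
  rw [evalAt_apply, evalAt_apply]
  unfold Finsupp.sum
  rw [map_sum]
  refine Finset.sum_congr rfl fun g _ => ?_
  rw [map_mul, AlgHom.commutes]
  rfl

omit [IsLocalRing 𝒪] in
lemma IsNF.mapHom {A B : Type} [CommRing A] [Algebra 𝒪 A] [CommRing B] [Algebra 𝒪 B]
    (φ : A →ₐ[𝒪] B) {g₀ : GQ} {a : GQ →₀ 𝒪} {r : GQ →* M2 A} (h : IsNF g₀ a r) :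
    IsNF g₀ a (mapHom (φ : A →+* B) r) where
  h00 := by rw [mapHom_apply, h.h00]; exact map_zero φ
  h10 := by rw [mapHom_apply, h.h10]; exact map_one φ
  ha := by rw [evalAt_mapHom, h.ha, map_zero]

variable (S : Setup 𝒪)

/-- `r` lifts the residual representation. -/
def IsLift {A : Type} [CommRing A] [IsLocalRing A] [Algebra 𝒪 A] [IsLocalHom (algebraMap 𝒪 A)]
    (r : GQ →* M2 A) : Prop :=
  ∀ g i j, residue A (r g i j) = ResidueField.map (algebraMap 𝒪 A) (S.rb g i j)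

variable {S}

lemma IsLift.residue_evalAt {A : Type} [CommRing A] [IsLocalRing A] [Algebra 𝒪 A]
    [IsLocalHom (algebraMap 𝒪 A)] {r : GQ →* M2 A} (h : IsLift S r) (i j : Fin 2) :
    residue A (evalAt S.a r i j) = ResidueField.map (algebraMap 𝒪 A) (evalAt S.a S.rb i j) := by
  rw [evalAt_apply, evalAt_apply]
  unfold Finsupp.sum
  rw [map_sum, map_sum]
  refine Finset.sum_congr rfl fun g _ => ?_
  rw [map_mul, map_mul, h g i j]
  rfl

lemma IsLift.isNearNF {A : Type} [CommRing A] [IsLocalRing A] [Algebra 𝒪 A]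
    [IsLocalHom (algebraMap 𝒪 A)] {r : GQ →* M2 A} (h : IsLift S r) :
    IsNearNF S.g₀ S.a r where
  h00 := by rw [← residue_eq_zero_iff, h, S.h00, map_zero]
  h10 := by rw [← residue_eq_zero_iff, map_sub, h, S.h10, map_one, map_one, sub_self]
  a00 := by rw [← residue_eq_zero_iff, map_sub, h.residue_evalAt, S.t00, map_one, map_one, sub_self]
  a10 := by rw [← residue_eq_zero_iff, h.residue_evalAt, S.t10, map_zero]
  a11 := by rw [← residue_eq_zero_iff, h.residue_evalAt, S.t11, map_zero]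

lemma IsLift.mapHom {A B : Type} [CommRing A] [IsLocalRing A] [Algebra 𝒪 A]
    [IsLocalHom (algebraMap 𝒪 A)] [CommRing B] [IsLocalRing B] [Algebra 𝒪 B]
    [IsLocalHom (algebraMap 𝒪 B)] (φ : A →ₐ[𝒪] B) [IsLocalHom (φ : A →+* B)]
    {r : GQ →* M2 A} (h : IsLift S r) : IsLift S (mapHom (φ : A →+* B) r) := by
  intro g i j
  rw [mapHom_apply]
  have h1 : residue B ((φ : A →+* B) (r g i j)) =
      ResidueField.map (φ : A →+* B) (residue A (r g i j)) := rfl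
  rw [h1, h g i j]
  obtain ⟨c, hc⟩ := residue_surjective (S.rb g i j)
  rw [← hc]
  simp only [ResidueField.map_residue]
  congr 1
  exact φ.commutes c

end

section
variable {𝒪 : Type} [CommRing 𝒪] [IsLocalRing 𝒪] (S : Setup 𝒪)
  (𝒟 : ∀ ⦃A : Type⦄ [CommRing A] [IsLocalRing A] [Algebra 𝒪 A], GaloisRepAdic A → Prop)

/-- objects: normalised lifts of type `𝒟` -/
structure IsObj {A : Type} [CommRing A] [IsLocalRing A] [Algebra 𝒪 A]
    [IsLocalHom (algebraMap 𝒪 A)] (r : GQ →* M2 A) : Prop where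
  lift : IsLift S r
  cont : IsCont r
  nf : IsNF S.g₀ S.a r
  type : 𝒟 (toRep r cont)

variable {S 𝒟}

lemma type_push (h𝒟 : IsDeformationCondition 𝒪 𝒟) {A B : Type} [CommRing A] [IsLocalRing A]
    [Algebra 𝒪 A] [CommRing B] [IsLocalRing B] [Algebra 𝒪 B]
    (hA : IsArtinianTestAlgebra 𝒪 A) (hB : IsArtinianTestAlgebra 𝒪 B) (φ : A →ₐ[𝒪] B)
    (hφ : IsLocalHom (φ : A →+* B)) {r : GQ →* M2 A} (hc : IsCont r)
    (hc' : IsCont (mapHom (φ : A →+* B) r)) (h : 𝒟 (toRep r hc)) :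
    𝒟 (toRep (mapHom (φ : A →+* B) r) hc') :=
  h𝒟.of_isEquiv hB (baseChangeAlong_toRep_isEquiv (φ : A →+* B) hφ r hc hc')
    (h𝒟.baseChangeAlong hA hB φ hφ h)

lemma isEquiv_symm {A : Type} [CommRing A] [IsLocalRing A] {ρ ρ' : GaloisRepAdic A}
    (h : ρ.IsEquiv ρ') : ρ'.IsEquiv ρ := by
  obtain ⟨e⟩ := h
  exact ⟨e.symm⟩

lemma isEquiv_trans {A : Type} [CommRing A] [IsLocalRing A] {ρ ρ' ρ'' : GaloisRepAdic A}
    (h : ρ.IsEquiv ρ') (h' : ρ'.IsEquiv ρ'') : ρ.IsEquiv ρ'' := by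
  obtain ⟨e⟩ := h
  obtain ⟨e'⟩ := h'
  exact ⟨e.trans e'⟩

lemma type_descend (h𝒟 : IsDeformationCondition 𝒪 𝒟) {A B : Type} [CommRing A] [IsLocalRing A]
    [Algebra 𝒪 A] [CommRing B] [IsLocalRing B] [Algebra 𝒪 B]
    (hA : IsArtinianTestAlgebra 𝒪 A) (hB : IsArtinianTestAlgebra 𝒪 B) (φ : A →ₐ[𝒪] B)
    (hφ : IsLocalHom (φ : A →+* B)) (hinj : Function.Injective φ) {r : GQ →* M2 A} (hc : IsCont r)
    (hc' : IsCont (mapHom (φ : A →+* B) r)) (h : 𝒟 (toRep (mapHom (φ : A →+* B) r) hc')) :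
    𝒟 (toRep r hc) :=
  h𝒟.of_baseChangeAlong_injective hA hB φ hφ hinj
    (h𝒟.of_isEquiv hB (isEquiv_symm (baseChangeAlong_toRep_isEquiv (φ : A →+* B) hφ r hc hc')) h)

lemma IsObj.push (h𝒟 : IsDeformationCondition 𝒪 𝒟) {A B : Type} [CommRing A] [IsLocalRing A]
    [Algebra 𝒪 A] [IsLocalHom (algebraMap 𝒪 A)] [CommRing B] [IsLocalRing B] [Algebra 𝒪 B]
    [IsLocalHom (algebraMap 𝒪 B)]
    (hA : IsArtinianTestAlgebra 𝒪 A) (hB : IsArtinianTestAlgebra 𝒪 B) (φ : A →ₐ[𝒪] B)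
    {r : GQ →* M2 A} (h : IsObj S 𝒟 r) : IsObj S 𝒟 (mapHom (φ : A →+* B) r) := by
  haveI := hA.isArtinian
  haveI hφ : IsLocalHom (φ : A →+* B) := isLocalHom_of_isArtinianRing _
  exact
  { lift := h.lift.mapHom φ
    cont := h.cont.mapHom _ hφ
    nf := h.nf.mapHom φ
    type := type_push h𝒟 hA hB φ hφ h.cont _ h.type }

/-- uniqueness of normalised lifts in an equivalence class -/
lemma eq_of_isEquiv {A : Type} [CommRing A] [IsLocalRing A] [Algebra 𝒪 A]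
    [IsLocalHom (algebraMap 𝒪 A)] {r r' : GQ →* M2 A} (hl : IsLift S r) (hl' : IsLift S r')
    (hn : IsNF S.g₀ S.a r) (hn' : IsNF S.g₀ S.a r') {hc : IsCont r} {hc' : IsCont r'}
    (e : (toRep r hc).IsEquiv (toRep r' hc')) : r = r' := by
  obtain ⟨M, hM, hMc⟩ := exists_matrix_of_isEquiv e
  exact eq_of_isNF_of_conj S.g₀ S.a r r' hl.isNearNF hl'.isNearNF hn hn' M hM hMc

end

section
variable (𝒪 : Type) [CommRing 𝒪]

abbrev Idx := GQ × Fin 2 × Fin 2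

abbrev Fr := MvPolynomial Idx 𝒪

variable {𝒪}

/-- evaluation of the free algebra at a matrix representation -/
def ev {A : Type} [CommRing A] [Algebra 𝒪 A] (r : GQ →* M2 A) : Fr 𝒪 →ₐ[𝒪] A :=
  MvPolynomial.aeval fun v : Idx => r v.1 v.2.1 v.2.2

@[simp] lemma ev_X {A : Type} [CommRing A] [Algebra 𝒪 A] (r : GQ →* M2 A) (g : GQ) (i j : Fin 2) :
    ev r (MvPolynomial.X (g, i, j) : Fr 𝒪) = r g i j := by
  simp [ev]

variable (𝒪) in
/-- the generic matrix -/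
def XMat (g : GQ) : M2 (Fr 𝒪) := Matrix.of fun i j => MvPolynomial.X (g, i, j)

lemma ev_XMat {A : Type} [CommRing A] [Algebra 𝒪 A] (r : GQ →* M2 A) (g : GQ) :
    (XMat 𝒪 g).map (ev r) = r g := by
  ext i j
  simp [XMat]

lemma ev_mapHom {A B : Type} [CommRing A] [Algebra 𝒪 A] [CommRing B] [Algebra 𝒪 B]
    (φ : A →ₐ[𝒪] B) (r : GQ →* M2 A) : ev (mapHom (φ : A →+* B) r) = φ.comp (ev r) := by
  apply MvPolynomial.algHom_ext
  rintro ⟨g, i, j⟩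
  simp

/-- the polynomial whose value is the (1,0) entry of `evalAt a r`. -/
def nfPoly (a : GQ →₀ 𝒪) : Fr 𝒪 :=
  a.sum fun g c => MvPolynomial.C c * MvPolynomial.X (g, 1, 0)

lemma ev_nfPoly {A : Type} [CommRing A] [Algebra 𝒪 A] (r : GQ →* M2 A) (a : GQ →₀ 𝒪) :
    ev r (nfPoly a) = evalAt a r 1 0 := by
  rw [evalAt_apply]
  unfold nfPoly Finsupp.sum
  rw [map_sum]
  refine Finset.sum_congr rfl fun g _ => ?_
  rw [map_mul, ev_X, ← MvPolynomial.algebraMap_eq, AlgHom.commutes]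

/-- the relations that make the tautological matrices a normalised continuous representation. -/
structure IsTaut (g₀ : GQ) (a : GQ →₀ 𝒪) (K : Ideal (Fr 𝒪)) : Prop where
  one : ∀ i j, (XMat 𝒪 1 - 1) i j ∈ K
  mul : ∀ g h i j, (XMat 𝒪 (g * h) - XMat 𝒪 g * XMat 𝒪 h) i j ∈ K
  nf00 : (MvPolynomial.X (g₀, 0, 0) : Fr 𝒪) ∈ K
  nf10 : (MvPolynomial.X (g₀, 1, 0) - 1 : Fr 𝒪) ∈ K
  nfa : nfPoly a ∈ K
  cont : ∃ L : IntermediateField ℚ (AlgebraicClosure ℚ), FiniteDimensional ℚ L ∧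
    ∀ σ : GQ, (∀ x ∈ L, σ x = x) → ∀ i j, (XMat 𝒪 σ - 1) i j ∈ K

lemma IsTaut.mono {g₀ : GQ} {a : GQ →₀ 𝒪} {K K' : Ideal (Fr 𝒪)} (h : IsTaut g₀ a K)
    (hK : K ≤ K') : IsTaut g₀ a K' where
  one i j := hK (h.one i j)
  mul g g' i j := hK (h.mul g g' i j)
  nf00 := hK h.nf00
  nf10 := hK h.nf10
  nfa := hK h.nfa
  cont := by
    obtain ⟨L, hL, h1⟩ := h.cont
    exact ⟨L, hL, fun σ hσ i j => hK (h1 σ hσ i j)⟩

lemma IsTaut.inf {g₀ : GQ} {a : GQ →₀ 𝒪} {K K' : Ideal (Fr 𝒪)} (h : IsTaut g₀ a K)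
    (h' : IsTaut g₀ a K') : IsTaut g₀ a (K ⊓ K') where
  one i j := ⟨h.one i j, h'.one i j⟩
  mul g g' i j := ⟨h.mul g g' i j, h'.mul g g' i j⟩
  nf00 := ⟨h.nf00, h'.nf00⟩
  nf10 := ⟨h.nf10, h'.nf10⟩
  nfa := ⟨h.nfa, h'.nfa⟩
  cont := by
    obtain ⟨L, hL, h1⟩ := h.cont
    obtain ⟨L', hL', h1'⟩ := h'.cont
    haveI := hL
    haveI := hL'
    refine ⟨L ⊔ L', IntermediateField.finiteDimensional_sup L L', fun σ hσ i j => ?_⟩
    exact ⟨h1 σ (fun x hx => hσ x ((le_sup_left : L ≤ L ⊔ L') hx)) i j,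
      h1' σ (fun x hx => hσ x ((le_sup_right : L' ≤ L ⊔ L') hx)) i j⟩

/-- The tautological representation on `Fr ⧸ K`. -/
def tautHom {g₀ : GQ} {a : GQ →₀ 𝒪} (K : Ideal (Fr 𝒪)) (h : IsTaut g₀ a K) :
    GQ →* M2 (Fr 𝒪 ⧸ K) where
  toFun g := (XMat 𝒪 g).map (Ideal.Quotient.mk K)
  map_one' := by
    ext i j
    have := h.one i j
    rw [← Ideal.Quotient.eq_zero_iff_mem, Matrix.sub_apply, map_sub, sub_eq_zero] at this
    rw [Matrix.map_apply, this, Matrix.one_apply, Matrix.one_apply]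
    split_ifs <;> simp
  map_mul' g g' := by
    ext i j
    have := h.mul g g' i j
    rw [← Ideal.Quotient.eq_zero_iff_mem, Matrix.sub_apply, map_sub, sub_eq_zero] at this
    rw [Matrix.map_apply, this, ← Matrix.map_apply (f := Ideal.Quotient.mk K), Matrix.map_mul]

@[simp] lemma tautHom_apply {g₀ : GQ} {a : GQ →₀ 𝒪} (K : Ideal (Fr 𝒪)) (h : IsTaut g₀ a K)
    (g : GQ) (i j : Fin 2) :
    tautHom K h g i j = Ideal.Quotient.mk K (MvPolynomial.X (g, i, j)) := rfl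

lemma ev_tautHom {g₀ : GQ} {a : GQ →₀ 𝒪} (K : Ideal (Fr 𝒪)) (h : IsTaut g₀ a K) :
    ev (tautHom K h) = Ideal.Quotient.mkₐ 𝒪 K := by
  apply MvPolynomial.algHom_ext
  rintro ⟨g, i, j⟩
  simp

end

end

end Fermat.Agent.S53
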