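import Mathlib
import Fermat.Agent.S53.Obj
import Fermat.Agent.S53.Burnside

set_option autoImplicit false
set_option linter.style.haveILetI false
set_option linter.unusedSectionVars false

namespace Fermat.Agent.S53

open IsLocalRing GaloisRep

noncomputable section

/-- there is a group element moving a given nonzero vector out of its line -/
lemma exists_not_mem_span {k : Type} [Field k] (ρ : ResidualGaloisRep k)
    (h : Submodule.span k (Set.range ρ.ρ) = ⊤) (v : ρ.V) (hv : v ≠ 0) :
    ∃ g : GQ, ρ.ρ g v ∉ Submodule.span k {v} := by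
  by_contra hcon
  push Not at hcon
  -- every endomorphism preserves the line
  have h1 : ∀ f : Module.End k ρ.V, f v ∈ Submodule.span k {v} := by
    intro f
    have hf : f ∈ Submodule.span k (Set.range ρ.ρ) := h ▸ Submodule.mem_top
    induction hf using Submodule.span_induction with
    | mem x hx =>
      obtain ⟨g, rfl⟩ := hx
      exact hcon g
    | zero => simp
    | add x y _ _ hx hy => exact Submodule.add_mem _ hx hy
    | smul c x _ hx => exact Submodule.smul_mem _ c hx
  obtain ⟨φ, hφ⟩ : ∃ φ : Module.Dual k ρ.V, φ v ≠ 0 := by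
    by_contra hcon
    push Not at hcon
    exact hv ((Module.forall_dual_apply_eq_zero_iff k v).mp hcon)
  have h2 : (⊤ : Submodule k ρ.V) ≤ Submodule.span k {v} := by
    intro w _
    have := h1 (φ.smulRight w)
    rw [LinearMap.smulRight_apply] at this
    have h3 := Submodule.smul_mem _ (φ v)⁻¹ this
    rwa [smul_smul, inv_mul_cancel₀ hφ, one_smul] at h3
  have h3 : Module.finrank k ρ.V ≤ 1 := by
    rw [← finrank_top k ρ.V]
    exact (Submodule.finrank_mono h2).trans (finrank_span_le_card ({v} : Set ρ.V) |>.trans (by simp))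
  rw [ρ.finrank_eq] at h3
  omega

theorem exists_setup (𝒪 : Type) [CommRing 𝒪] [IsLocalRing 𝒪]
    (ρbar : ResidualGaloisRep (ResidueField 𝒪)) (habs : ρbar.IsAbsolutelyIrreducible) :
    ∃ (bbar : Module.Basis (Fin 2) (ResidueField 𝒪) ρbar.V) (S : Setup 𝒪),
      S.rb = resMatOf ρbar bbar := by
  classical
  have hspan := span_range_eq_top ρbar habs
  haveI : Nontrivial ρbar.V :=
    Module.nontrivial_of_finrank_pos (R := ResidueField 𝒪) (by rw [ρbar.finrank_eq]; norm_num)
  obtain ⟨v, hv⟩ := exists_ne (0 : ρbar.V)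
  obtain ⟨g₀, hg₀⟩ := exists_not_mem_span ρbar hspan v hv
  have hli : LinearIndependent (ResidueField 𝒪) ![v, ρbar.ρ g₀ v] := by
    rw [LinearIndependent.pair_iff' hv]
    intro a ha
    exact hg₀ (ha ▸ Submodule.smul_mem _ a (Submodule.mem_span_singleton_self v))
  let bbar : Module.Basis (Fin 2) (ResidueField 𝒪) ρbar.V :=
    basisOfLinearIndependentOfCardEqFinrank hli (by rw [ρbar.finrank_eq]; simp)
  have hb0 : bbar 0 = v := by simp [bbar]
  have hb1 : bbar 1 = ρbar.ρ g₀ v := by simp [bbar]
  -- the idempotent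
  let E : M2 (ResidueField 𝒪) := Matrix.of ![![1, 0], ![0, 0]]
  have hE : Matrix.toLin bbar bbar E ∈ Submodule.span (ResidueField 𝒪) (Set.range ρbar.ρ) :=
    hspan ▸ Submodule.mem_top
  rw [Finsupp.mem_span_range_iff_exists_finsupp] at hE
  obtain ⟨c, hc⟩ := hE
  let s : ResidueField 𝒪 → 𝒪 := fun x => if x = 0 then 0 else Function.surjInv residue_surjective x
  have hs0 : s 0 = 0 := by simp [s]
  have hs : ∀ x, algebraMap 𝒪 (ResidueField 𝒪) (s x) = x := by
    intro x
    by_cases hx : x = 0
    · simp [s, hx]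
    · simp only [s, hx, if_false]
      exact Function.surjInv_eq residue_surjective x
  let a : GQ →₀ 𝒪 := c.mapRange s hs0
  have hev : ∀ i j, evalAt a (resMatOf ρbar bbar) i j = E i j := by
    intro i j
    rw [evalAt_apply, Finsupp.sum_mapRange_index (by intro g; simp)]
    have h1 : E = LinearMap.toMatrix bbar bbar (c.sum fun g x => x • ρbar.ρ g) := by
      rw [hc, LinearMap.toMatrix_toLin]
    rw [h1]
    unfold Finsupp.sum
    rw [map_sum, Matrix.sum_apply]
    refine Finset.sum_congr rfl fun g _ => ?_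
    show algebraMap 𝒪 (ResidueField 𝒪) (s (c g)) * resMatOf ρbar bbar g i j =
      LinearMap.toMatrix bbar bbar (c g • ρbar.ρ g) i j
    rw [hs, map_smul, Matrix.smul_apply, smul_eq_mul, resMatOf_apply]
  refine ⟨bbar, ⟨resMatOf ρbar bbar, g₀, a, ?_, ?_, ?_, ?_, ?_⟩, rfl⟩
  · rw [resMatOf_apply, LinearMap.toMatrix_apply, hb0, ← hb1]
    simp
  · rw [resMatOf_apply, LinearMap.toMatrix_apply, hb0, ← hb1]
    simp
  · rw [hev]; rfl
  · rw [hev]; rfl
  · rw [hev]; rfl

end

end Fermat.Agent.S53
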