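import Mathlib

set_option autoImplicit false
set_option linter.style.haveILetI false

namespace Fermat.Agent.S53

open IsLocalRing

/-- D5: homomorphisms to the dual numbers separate the points of a first order thickening. -/
theorem exists_algHom_dualNumber_ne_zero
    {𝒪 : Type} [CommRing 𝒪] [IsLocalRing 𝒪] {A : Type} [CommRing A] [Algebra 𝒪 A]
    (p : A →ₐ[𝒪] ResidueField 𝒪)
    (hsq : ∀ x y, p x = 0 → p y = 0 → x * y = 0)
    (hϖ : ∀ c ∈ maximalIdeal 𝒪, algebraMap 𝒪 A c = 0)
    (x : A) (hx : x ≠ 0) :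
    letI : Algebra 𝒪 (DualNumber (ResidueField 𝒪)) :=
      ((algebraMap (ResidueField 𝒪) (DualNumber (ResidueField 𝒪))).comp
        (algebraMap 𝒪 (ResidueField 𝒪))).toAlgebra
    ∃ θ : A →ₐ[𝒪] DualNumber (ResidueField 𝒪), θ x ≠ 0 ∧ ∀ y, TrivSqZeroExt.fst (θ y) = p y := by
  letI inst : Algebra 𝒪 (DualNumber (ResidueField 𝒪)) :=
      ((algebraMap (ResidueField 𝒪) (DualNumber (ResidueField 𝒪))).comp
        (algebraMap 𝒪 (ResidueField 𝒪))).toAlgebra
  -- the section `k → A`
  let s : ResidueField 𝒪 →+* A := Ideal.Quotient.lift (maximalIdeal 𝒪) (algebraMap 𝒪 A) hϖ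
  have hs : ∀ c : 𝒪, s (residue 𝒪 c) = algebraMap 𝒪 A c := fun c => rfl
  have hps : ∀ c : ResidueField 𝒪, p (s c) = c := by
    intro c
    obtain ⟨c, rfl⟩ := residue_surjective c
    rw [hs, p.commutes]
    rfl
  letI : Module (ResidueField 𝒪) A := Module.compHom A s
  have hsmul : ∀ (c : ResidueField 𝒪) (y : A), c • y = s c * y := fun _ _ => rfl
  obtain ⟨φ, hφ⟩ : ∃ φ : Module.Dual (ResidueField 𝒪) A, φ x ≠ 0 := by
    by_contra hcon
    push Not at hcon
    exact hx ((Module.forall_dual_apply_eq_zero_iff (ResidueField 𝒪) x).mp hcon)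
  let δ : A → ResidueField 𝒪 := fun y => φ (y - s (p y))
  have hδadd : ∀ y z, δ (y + z) = δ y + δ z := by
    intro y z
    show φ _ = φ _ + φ _
    rw [← map_add]
    congr 1
    rw [map_add, map_add]
    ring
  have hδmul : ∀ y z, δ (y * z) = p y * δ z + p z * δ y := by
    intro y z
    show φ _ = p y * φ _ + p z * φ _
    have h0 : (y - s (p y)) * (z - s (p z)) = 0 :=
      hsq _ _ (by rw [map_sub, hps, sub_self]) (by rw [map_sub, hps, sub_self])
    have h1 : y * z - s (p (y * z)) = p y • (z - s (p z)) + p z • (y - s (p y)) := by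
      rw [hsmul, hsmul, map_mul, map_mul]
      linear_combination h0
    rw [h1, map_add, map_smul, map_smul, smul_eq_mul, smul_eq_mul]
  have hδalg : ∀ c : 𝒪, δ (algebraMap 𝒪 A c) = 0 := by
    intro c
    show φ _ = 0
    rw [p.commutes, ← hs]
    have : algebraMap 𝒪 (ResidueField 𝒪) c = residue 𝒪 c := rfl
    rw [this, sub_self, map_zero]
  let θ : A →ₐ[𝒪] DualNumber (ResidueField 𝒪) :=
    { toFun := fun y => TrivSqZeroExt.inl (p y) + TrivSqZeroExt.inr (δ y)
      map_one' := by
        have h1 : δ 1 = 0 := by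
          have := hδalg 1
          rwa [map_one] at this
        rw [h1, map_one]
        simp
      map_mul' := fun y z => by
        apply TrivSqZeroExt.ext
        · simp
        · simp [hδmul]
          ring
      map_zero' := by
        have h1 : δ 0 = 0 := by
          have := hδalg 0
          rwa [map_zero] at this
        rw [h1, map_zero]
        simp
      map_add' := fun y z => by
        apply TrivSqZeroExt.ext
        · simp
        · simp [hδadd]
      commutes' := fun c => by
        rw [hδalg, p.commutes]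
        simp
        rfl }
  by_cases hpx : p x = 0
  · refine ⟨θ, ?_, fun y => by simp [θ]⟩
    intro h
    have h2 : TrivSqZeroExt.snd (θ x) = 0 := by rw [h]; rfl
    have h3 : δ x = 0 := by simpa [θ] using h2
    apply hφ
    have h4 : δ x = φ x := by
      show φ _ = φ x
      rw [hpx, map_zero, sub_zero]
    rw [← h4, h3]
  · refine ⟨θ, ?_, fun y => by simp [θ]⟩
    intro h
    have h2 : TrivSqZeroExt.fst (θ x) = 0 := by rw [h]; rfl
    apply hpx
    simpa [θ] using h2

end Fermat.Agent.S53
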