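import Mathlib
import Fermat.Agent.S53.Obj

set_option autoImplicit false
set_option linter.style.haveILetI false
set_option linter.unusedSectionVars false

namespace Fermat.Agent.S53

open IsLocalRing GaloisRep

noncomputable section

section
variable {𝒪 : Type} [CommRing 𝒪] [IsLocalRing 𝒪]

lemma residueFieldMap_surjective {A : Type} [CommRing A] [IsLocalRing A] [Algebra 𝒪 A]
    [IsLocalHom (algebraMap 𝒪 A)] (h : Function.Surjective (residue A ∘ algebraMap 𝒪 A)) :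
    Function.Surjective (ResidueField.map (algebraMap 𝒪 A)) := by
  intro y
  obtain ⟨c, hc⟩ := h y
  exact ⟨residue 𝒪 c, hc⟩

lemma finite_of_test [Finite (ResidueField 𝒪)] {A : Type} [CommRing A]
    [IsLocalRing A] [Algebra 𝒪 A] (hA : IsArtinianTestAlgebra 𝒪 A) : Finite A := by
  haveI := hA.isLocalHom
  haveI := hA.isArtinian
  haveI : Finite (A ⧸ maximalIdeal A) :=
    Finite.of_surjective _ (residueFieldMap_surjective hA.residue_surjective)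
  obtain ⟨n, hn⟩ := (isArtinianRing_iff_isNilpotent_maximalIdeal A).mp inferInstance
  have h1 : Finite (A ⧸ maximalIdeal A ^ n) :=
    Ideal.finite_quotient_pow (IsNoetherian.noetherian _) n
  rw [hn] at h1
  exact Finite.of_equiv _ (RingEquiv.quotientBot A).toEquiv

variable (S : Setup 𝒪)
  (𝒟 : ∀ ⦃A : Type⦄ [CommRing A] [IsLocalRing A] [Algebra 𝒪 A], GaloisRepAdic A → Prop)

lemma residue_ev {A : Type} [CommRing A] [IsLocalRing A] [Algebra 𝒪 A]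
    [IsLocalHom (algebraMap 𝒪 A)] {r : GQ →* M2 A} (h : IsLift S r) (f : Fr 𝒪) :
    residue A (ev r f) = ResidueField.map (algebraMap 𝒪 A) (ev S.rb f) := by
  have : (residue A).comp ((ev r : Fr 𝒪 →ₐ[𝒪] A) : Fr 𝒪 →+* A) =
      (ResidueField.map (algebraMap 𝒪 A)).comp
        ((ev S.rb : Fr 𝒪 →ₐ[𝒪] ResidueField 𝒪) : Fr 𝒪 →+* ResidueField 𝒪) := by
    apply MvPolynomial.ringHom_ext
    · intro c
      simp only [RingHom.comp_apply, RingHom.coe_coe]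
      rw [← MvPolynomial.algebraMap_eq, AlgHom.commutes, AlgHom.commutes]
      rfl
    · rintro ⟨g, i, j⟩
      simp only [RingHom.comp_apply, RingHom.coe_coe, ev_X]
      exact h g i j
  exact congrArg (fun φ => φ f) this

lemma ev_mem_maximalIdeal_iff {A : Type} [CommRing A] [IsLocalRing A] [Algebra 𝒪 A]
    [IsLocalHom (algebraMap 𝒪 A)] {r : GQ →* M2 A} (h : IsLift S r) (f : Fr 𝒪) :
    ev r f ∈ maximalIdeal A ↔ ev S.rb f = 0 := by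
  rw [← residue_eq_zero_iff, residue_ev S h, map_eq_zero]

section taut
variable {S} {K : Ideal (Fr 𝒪)} [IsLocalRing (Fr 𝒪 ⧸ K)]

lemma tautHom_isCont (hR : IsTaut S.g₀ S.a K) : IsCont (tautHom K hR) := by
  intro n
  obtain ⟨L, hL, h1⟩ := hR.cont
  refine ⟨L, hL, fun σ hσ i j => ?_⟩
  have h2 := h1 σ hσ i j
  rw [← Ideal.Quotient.eq_zero_iff_mem, Matrix.sub_apply, map_sub] at h2
  have h3 : (tautHom K hR σ - 1) i j = 0 := by
    rw [Matrix.sub_apply, tautHom_apply, ← h2]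
    congr 1
    rw [Matrix.one_apply, Matrix.one_apply]
    split_ifs <;> simp
  rw [h3]
  exact zero_mem _

lemma tautHom_isLift [IsLocalHom (algebraMap 𝒪 (Fr 𝒪 ⧸ K))] (hT : IsThick (ev S.rb) K)
    (hR : IsTaut S.g₀ S.a K) : IsLift S (tautHom K hR) := by
  intro g i j
  obtain ⟨c, hc⟩ := residue_surjective (S.rb g i j)
  rw [← hc, ResidueField.map_residue, ← sub_eq_zero, ← map_sub, residue_eq_zero_iff, tautHom_apply]
  have : Ideal.Quotient.mk K (MvPolynomial.X (g, i, j)) - algebraMap 𝒪 (Fr 𝒪 ⧸ K) c =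
      Ideal.Quotient.mk K (MvPolynomial.X (g, i, j) - MvPolynomial.C c) := by
    rw [map_sub]; rfl
  rw [this, hT.mk_mem_maximalIdeal_iff, map_sub, ev_X, ← MvPolynomial.algebraMap_eq,
    AlgHom.commutes, ← hc]
  exact sub_self _

omit [IsLocalRing (Fr 𝒪 ⧸ K)] in
lemma tautHom_isNF (hR : IsTaut S.g₀ S.a K) : IsNF S.g₀ S.a (tautHom K hR) where
  h00 := by rw [tautHom_apply]; exact Ideal.Quotient.eq_zero_iff_mem.mpr hR.nf00
  h10 := by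
    rw [tautHom_apply, ← sub_eq_zero, ← map_one (Ideal.Quotient.mk K), ← map_sub]
    exact Ideal.Quotient.eq_zero_iff_mem.mpr hR.nf10
  ha := by
    rw [← ev_nfPoly, ev_tautHom]
    exact Ideal.Quotient.eq_zero_iff_mem.mpr hR.nfa

end taut

/-- good ideals -/
def Good (K : Ideal (Fr 𝒪)) : Prop :=
  ∃ (hT : IsThick (ev S.rb) K) (hR : IsTaut S.g₀ S.a K),
    haveI := hT.isLocalRing
    𝒟 (toRep (tautHom K hR) (tautHom_isCont hR))

variable {S 𝒟}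

lemma Good.isThick {K : Ideal (Fr 𝒪)} (h : Good S 𝒟 K) : IsThick (ev S.rb) K := h.1

lemma Good.isTaut {K : Ideal (Fr 𝒪)} (h : Good S 𝒟 K) : IsTaut S.g₀ S.a K := h.2.1

lemma Good.isObj {K : Ideal (Fr 𝒪)} [IsLocalRing (Fr 𝒪 ⧸ K)]
    [IsLocalHom (algebraMap 𝒪 (Fr 𝒪 ⧸ K))] (h : Good S 𝒟 K) :
    IsObj S 𝒟 (tautHom K h.isTaut) where
  lift := tautHom_isLift h.isThick h.isTaut
  cont := tautHom_isCont h.isTaut
  nf := tautHom_isNF h.isTaut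
  type := h.2.2

lemma isTaut_ker_ev {A : Type} [CommRing A] [IsLocalRing A] [Algebra 𝒪 A] [IsArtinianRing A]
    {r : GQ →* M2 A} (hc : IsCont r) (hn : IsNF S.g₀ S.a r) :
    IsTaut S.g₀ S.a (RingHom.ker (ev r : Fr 𝒪 →ₐ[𝒪] A)) where
  one i j := by
    rw [RingHom.mem_ker, Matrix.sub_apply, map_sub, ← Matrix.map_apply (f := ev r), ev_XMat,
      map_one, Matrix.one_apply, Matrix.one_apply]
    split_ifs <;> simp
  mul g h i j := by
    rw [RingHom.mem_ker, Matrix.sub_apply, map_sub, ← Matrix.map_apply (f := ev r),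
      ← Matrix.map_apply (f := ev r) (M := XMat 𝒪 g * XMat 𝒪 h), Matrix.map_mul, ev_XMat, ev_XMat,
      ev_XMat, map_mul, sub_self]
  nf00 := by rw [RingHom.mem_ker, ev_X, hn.h00]
  nf10 := by rw [RingHom.mem_ker, map_sub, ev_X, hn.h10, map_one, sub_self]
  nfa := by rw [RingHom.mem_ker, ev_nfPoly, hn.ha]
  cont := by
    obtain ⟨n, hn⟩ := (isArtinianRing_iff_isNilpotent_maximalIdeal A).mp inferInstance
    obtain ⟨L, hL, h1⟩ := hc n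
    refine ⟨L, hL, fun σ hσ i j => ?_⟩
    have h2 := h1 σ hσ i j
    rw [hn] at h2
    have h3 : (r σ - 1) i j = 0 := by simpa using h2
    rw [RingHom.mem_ker, Matrix.sub_apply, map_sub, ← Matrix.map_apply (f := ev r), ev_XMat]
    rw [Matrix.sub_apply] at h3
    rw [← h3]
    congr 1
    rw [Matrix.one_apply, Matrix.one_apply]
    split_ifs <;> simp

lemma isThick_ker_ev [Finite (ResidueField 𝒪)] {A : Type} [CommRing A] [IsLocalRing A]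
    [Algebra 𝒪 A] [IsLocalHom (algebraMap 𝒪 A)] (hA : IsArtinianTestAlgebra 𝒪 A)
    {r : GQ →* M2 A} (hl : IsLift S r) :
    IsThick (ev S.rb) (RingHom.ker (ev r : Fr 𝒪 →ₐ[𝒪] A)) where
  le := by
    intro f hf
    rw [RingHom.mem_ker] at hf ⊢
    rw [← ev_mem_maximalIdeal_iff S hl, hf]
    exact zero_mem _
  pow := by
    haveI := hA.isArtinian
    obtain ⟨n, hn⟩ := (isArtinianRing_iff_isNilpotent_maximalIdeal A).mp inferInstance
    refine ⟨n, ?_⟩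
    have h1 : RingHom.ker (ev S.rb : Fr 𝒪 →ₐ[𝒪] ResidueField 𝒪) ≤
        (maximalIdeal A).comap (ev r : Fr 𝒪 →ₐ[𝒪] A) := by
      intro f hf
      rw [Ideal.mem_comap, ev_mem_maximalIdeal_iff S hl]
      exact hf
    calc _ ≤ ((maximalIdeal A).comap (ev r : Fr 𝒪 →ₐ[𝒪] A)) ^ n := Ideal.pow_right_mono h1 n
      _ ≤ (maximalIdeal A ^ n).comap (ev r : Fr 𝒪 →ₐ[𝒪] A) := Ideal.le_comap_pow _ n
      _ = _ := by rw [hn]; rfl
  fin := by
    haveI := finite_of_test hA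
    exact Finite.of_injective _ (RingHom.kerLift_injective ((ev r : Fr 𝒪 →ₐ[𝒪] A) : Fr 𝒪 →+* A))

lemma good_of_obj [Finite (ResidueField 𝒪)] (h𝒟 : IsDeformationCondition 𝒪 𝒟)
    {A : Type} [CommRing A] [IsLocalRing A]
    [Algebra 𝒪 A] [IsLocalHom (algebraMap 𝒪 A)] (hA : IsArtinianTestAlgebra 𝒪 A)
    {r : GQ →* M2 A} (h : IsObj S 𝒟 r) : Good S 𝒟 (RingHom.ker (ev r : Fr 𝒪 →ₐ[𝒪] A)) := by
  haveI := hA.isArtinian
  have hT := isThick_ker_ev hA h.lift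
  have hR := isTaut_ker_ev h.cont h.nf
  refine ⟨hT, hR, ?_⟩
  haveI := hT.isLocalRing
  have hB := hT.isArtinianTestAlgebra
  haveI := hB.isArtinian
  let φ : (Fr 𝒪 ⧸ RingHom.ker (ev r : Fr 𝒪 →ₐ[𝒪] A)) →ₐ[𝒪] A := Ideal.kerLiftAlg (ev r)
  have hφ : IsLocalHom (φ : (Fr 𝒪 ⧸ RingHom.ker (ev r : Fr 𝒪 →ₐ[𝒪] A)) →+* A) :=
    isLocalHom_of_isArtinianRing _
  have hr : mapHom (φ : (Fr 𝒪 ⧸ RingHom.ker (ev r : Fr 𝒪 →ₐ[𝒪] A)) →+* A) (tautHom _ hR) = r := by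
    apply MonoidHom.ext
    intro g
    ext i j
    rw [mapHom_apply, tautHom_apply]
    exact ev_X r g i j
  have hc' : IsCont (mapHom (φ : (Fr 𝒪 ⧸ RingHom.ker (ev r : Fr 𝒪 →ₐ[𝒪] A)) →+* A)
      (tautHom _ hR)) := by rw [hr]; exact h.cont
  refine type_descend h𝒟 hB hA φ hφ (Ideal.kerLiftAlg_injective _) _ hc' ?_
  have key : ∀ (r' : GQ →* M2 A) (hc'' : IsCont r'), r' = r → 𝒟 (toRep r' hc'') := by
    intro r' hc'' he
    subst he
    exact h.type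
  exact key _ _ hr


lemma type_congr {A : Type} [CommRing A] [IsLocalRing A] [Algebra 𝒪 A] {r r' : GQ →* M2 A}
    (he : r' = r) {hc : IsCont r} {hc' : IsCont r'} (h : 𝒟 (toRep r hc)) : 𝒟 (toRep r' hc') := by
  subst he
  exact h

lemma mapHom_factor_tautHom {K K' : Ideal (Fr 𝒪)} (hK : K ≤ K') (hR : IsTaut S.g₀ S.a K)
    (hR' : IsTaut S.g₀ S.a K') :
    mapHom ((Ideal.Quotient.factorₐ 𝒪 hK : (Fr 𝒪 ⧸ K) →ₐ[𝒪] (Fr 𝒪 ⧸ K')) :
      (Fr 𝒪 ⧸ K) →+* (Fr 𝒪 ⧸ K')) (tautHom K hR) = tautHom K' hR' := by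
  apply MonoidHom.ext
  intro g
  ext i j
  rfl

lemma good_mono (h𝒟 : IsDeformationCondition 𝒪 𝒟) {K K' : Ideal (Fr 𝒪)} (h : Good S 𝒟 K)
    (hK : K ≤ K') (hK' : K' ≤ RingHom.ker (ev S.rb : Fr 𝒪 →ₐ[𝒪] ResidueField 𝒪)) :
    Good S 𝒟 K' := by
  obtain ⟨hT, hR, htype⟩ := h
  have hT' := hT.mono hK hK'
  have hR' := hR.mono hK
  refine ⟨hT', hR', ?_⟩
  haveI := hT.isLocalRing
  haveI := hT'.isLocalRing
  have hA := hT.isArtinianTestAlgebra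
  have hB := hT'.isArtinianTestAlgebra
  haveI := hA.isArtinian
  have hφ : IsLocalHom ((Ideal.Quotient.factorₐ 𝒪 hK : (Fr 𝒪 ⧸ K) →ₐ[𝒪] (Fr 𝒪 ⧸ K')) :
      (Fr 𝒪 ⧸ K) →+* (Fr 𝒪 ⧸ K')) := isLocalHom_of_isArtinianRing _
  have h1 := type_push h𝒟 hA hB (Ideal.Quotient.factorₐ 𝒪 hK) hφ (tautHom_isCont hR)
    ((tautHom_isCont hR).mapHom _ hφ) htype
  exact type_congr (mapHom_factor_tautHom hK hR hR').symm h1

lemma good_inf (h𝒟 : IsDeformationCondition 𝒪 𝒟) {K₁ K₂ : Ideal (Fr 𝒪)} (h₁ : Good S 𝒟 K₁)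
    (h₂ : Good S 𝒟 K₂) : Good S 𝒟 (K₁ ⊓ K₂) := by
  obtain ⟨hT₁, hR₁, ht₁⟩ := h₁
  obtain ⟨hT₂, hR₂, ht₂⟩ := h₂
  have hT := hT₁.inf hT₂
  have hR := hR₁.inf hR₂
  have hTs : IsThick (ev S.rb) (K₁ ⊔ K₂) := hT₁.mono le_sup_left (sup_le hT₁.le hT₂.le)
  refine ⟨hT, hR, ?_⟩
  haveI := hT.isLocalRing
  haveI := hT₁.isLocalRing
  haveI := hT₂.isLocalRing
  haveI := hTs.isLocalRing
  have hP := hT.isArtinianTestAlgebra
  have hA := hT₁.isArtinianTestAlgebra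
  have hB := hT₂.isArtinianTestAlgebra
  have hC := hTs.isArtinianTestAlgebra
  haveI := hP.isArtinian
  let pA : (Fr 𝒪 ⧸ (K₁ ⊓ K₂)) →ₐ[𝒪] (Fr 𝒪 ⧸ K₁) := Ideal.Quotient.factorₐ 𝒪 inf_le_left
  let pB : (Fr 𝒪 ⧸ (K₁ ⊓ K₂)) →ₐ[𝒪] (Fr 𝒪 ⧸ K₂) := Ideal.Quotient.factorₐ 𝒪 inf_le_right
  let f : (Fr 𝒪 ⧸ K₁) →ₐ[𝒪] (Fr 𝒪 ⧸ (K₁ ⊔ K₂)) := Ideal.Quotient.factorₐ 𝒪 le_sup_left
  let g : (Fr 𝒪 ⧸ K₂) →ₐ[𝒪] (Fr 𝒪 ⧸ (K₁ ⊔ K₂)) := Ideal.Quotient.factorₐ 𝒪 le_sup_right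
  have hpA : IsLocalHom (pA : (Fr 𝒪 ⧸ (K₁ ⊓ K₂)) →+* (Fr 𝒪 ⧸ K₁)) :=
    isLocalHom_of_isArtinianRing _
  have hpB : IsLocalHom (pB : (Fr 𝒪 ⧸ (K₁ ⊓ K₂)) →+* (Fr 𝒪 ⧸ K₂)) :=
    isLocalHom_of_isArtinianRing _
  refine h𝒟.of_fibreProduct hA hB hC hP f g pA pB hpA hpB ?_ ?_ ?_ ?_ ?_
  · apply AlgHom.ext
    intro x
    obtain ⟨x, rfl⟩ := Ideal.Quotient.mk_surjective x
    rfl
  · intro x y hxy
    obtain ⟨x, rfl⟩ := Ideal.Quotient.mk_surjective x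
    obtain ⟨y, rfl⟩ := Ideal.Quotient.mk_surjective y
    have h1 : Ideal.Quotient.mk K₁ x = Ideal.Quotient.mk K₁ y := congrArg Prod.fst hxy
    have h2 : Ideal.Quotient.mk K₂ x = Ideal.Quotient.mk K₂ y := congrArg Prod.snd hxy
    rw [Ideal.Quotient.eq] at h1 h2 ⊢
    exact ⟨h1, h2⟩
  · intro a b hab
    obtain ⟨a, rfl⟩ := Ideal.Quotient.mk_surjective a
    obtain ⟨b, rfl⟩ := Ideal.Quotient.mk_surjective b
    have h1 : Ideal.Quotient.mk (K₁ ⊔ K₂) a = Ideal.Quotient.mk (K₁ ⊔ K₂) b := hab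
    rw [Ideal.Quotient.eq, Submodule.mem_sup] at h1
    obtain ⟨y, hy, z, hz, hyz⟩ := h1
    refine ⟨Ideal.Quotient.mk _ (a - y), ?_, ?_⟩
    · show Ideal.Quotient.mk K₁ (a - y) = Ideal.Quotient.mk K₁ a
      rw [Ideal.Quotient.eq]
      simpa using K₁.neg_mem hy
    · show Ideal.Quotient.mk K₂ (a - y) = Ideal.Quotient.mk K₂ b
      rw [Ideal.Quotient.eq]
      have : a - y - b = z := by linear_combination -hyz
      rw [this]
      exact hz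
  · refine h𝒟.of_isEquiv hA (isEquiv_symm (baseChangeAlong_toRep_isEquiv _ hpA _ _
      ((tautHom_isCont hR).mapHom _ hpA))) ?_
    exact type_congr (mapHom_factor_tautHom inf_le_left hR hR₁) ht₁
  · refine h𝒟.of_isEquiv hB (isEquiv_symm (baseChangeAlong_toRep_isEquiv _ hpB _ _
      ((tautHom_isCont hR).mapHom _ hpB))) ?_
    exact type_congr (mapHom_factor_tautHom inf_le_right hR hR₂) ht₂

end

end

end Fermat.Agent.S53
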