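import Mathlib
import Fermat.Agent.S53.Good
import Fermat.Agent.S53.DualNumberSep

set_option autoImplicit false
set_option linter.style.haveILetI false
set_option linter.unusedSectionVars false

namespace Fermat.Agent.S53

open IsLocalRing GaloisRep

noncomputable section

section
variable (𝒪 : Type) [CommRing 𝒪] [IsLocalRing 𝒪]

/-- the algebra structure on the dual numbers used in `TangentFinite` -/
@[reducible] def algD : Algebra 𝒪 (DualNumber (ResidueField 𝒪)) :=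
  ((algebraMap (ResidueField 𝒪) (DualNumber (ResidueField 𝒪))).comp
    (algebraMap 𝒪 (ResidueField 𝒪))).toAlgebra

attribute [local instance] algD

lemma algebraMap_D (c : 𝒪) : algebraMap 𝒪 (DualNumber (ResidueField 𝒪)) c =
    TrivSqZeroExt.inl (residue 𝒪 c) := rfl

lemma testD [Finite (ResidueField 𝒪)] :
    IsArtinianTestAlgebra 𝒪 (DualNumber (ResidueField 𝒪)) where
  isLocalHom := ⟨fun c hc => by
    rw [algebraMap_D, TrivSqZeroExt.isUnit_iff_isUnit_fst, TrivSqZeroExt.fst_inl] at hc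
    exact (isUnit_map_iff (residue 𝒪) c).mp hc⟩
  residue_surjective := by
    intro y
    obtain ⟨d, rfl⟩ := residue_surjective y
    obtain ⟨c, hc⟩ := residue_surjective d.fst
    refine ⟨c, ?_⟩
    show residue _ (algebraMap _ _ c) = residue _ d
    rw [← sub_eq_zero, ← map_sub, residue_eq_zero_iff, mem_maximalIdeal, mem_nonunits_iff,
      TrivSqZeroExt.isUnit_iff_isUnit_fst]
    simp [algebraMap_D, hc]
  isArtinian := by
    haveI : Finite (DualNumber (ResidueField 𝒪)) :=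
      inferInstanceAs (Finite (ResidueField 𝒪 × ResidueField 𝒪))
    infer_instance

lemma testK : IsArtinianTestAlgebra 𝒪 (ResidueField 𝒪) where
  isLocalHom := inferInstanceAs (IsLocalHom (residue 𝒪))
  residue_surjective := by
    intro y
    obtain ⟨d, rfl⟩ := residue_surjective y
    obtain ⟨c, rfl⟩ := residue_surjective d
    exact ⟨c, rfl⟩
  isArtinian := inferInstance

variable {𝒪}
variable {S : Setup 𝒪}
  {𝒟 : ∀ ⦃A : Type⦄ [CommRing A] [IsLocalRing A] [Algebra 𝒪 A], GaloisRepAdic A → Prop}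

lemma isObj_rb (h𝒟 : IsDeformationCondition 𝒪 𝒟) (ρbar : ResidualGaloisRep (ResidueField 𝒪))
    (bbar : Module.Basis (Fin 2) (ResidueField 𝒪) ρbar.V) (hS : S.rb = resMatOf ρbar bbar)
    (hbar : 𝒟 (GaloisRepAdic.ofResidualGaloisRep ρbar)) :
    haveI : IsLocalHom (algebraMap 𝒪 (ResidueField 𝒪)) := (testK 𝒪).isLocalHom
    IsObj S 𝒟 S.rb := by
  haveI : IsLocalHom (algebraMap 𝒪 (ResidueField 𝒪)) := (testK 𝒪).isLocalHom
  have hS' : S.rb = matOf (GaloisRepAdic.ofResidualGaloisRep ρbar) bbar := hS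
  have hc : IsCont S.rb := by rw [hS']; exact isCont_matOf _ _
  refine ⟨?_, hc, ⟨S.h00, S.h10, S.t10⟩, ?_⟩
  · intro g i j
    obtain ⟨c, hc⟩ := residue_surjective (S.rb g i j)
    rw [← hc]
    rfl
  · refine type_congr hS' (hc := isCont_matOf _ _) ?_
    have he := toRep_matOf_isEquiv (GaloisRepAdic.ofResidualGaloisRep ρbar) bbar
    exact h𝒟.of_isEquiv (testK 𝒪) (isEquiv_symm he) hbar

lemma good_ker_rb [Finite (ResidueField 𝒪)] (h𝒟 : IsDeformationCondition 𝒪 𝒟)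
    (ρbar : ResidualGaloisRep (ResidueField 𝒪))
    (bbar : Module.Basis (Fin 2) (ResidueField 𝒪) ρbar.V) (hS : S.rb = resMatOf ρbar bbar)
    (hbar : 𝒟 (GaloisRepAdic.ofResidualGaloisRep ρbar)) :
    Good S 𝒟 (RingHom.ker (ev S.rb : Fr 𝒪 →ₐ[𝒪] ResidueField 𝒪)) := by
  haveI : IsLocalHom (algebraMap 𝒪 (ResidueField 𝒪)) := (testK 𝒪).isLocalHom
  exact good_of_obj h𝒟 (testK 𝒪) (isObj_rb h𝒟 ρbar bbar hS hbar)

lemma good_inf_finset (h𝒟 : IsDeformationCondition 𝒪 𝒟) {ι : Type} (f : ι → Ideal (Fr 𝒪))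
    (hf : ∀ i, Good S 𝒟 (f i)) {M : Ideal (Fr 𝒪)} (h0 : Good S 𝒟 M) (s : Finset ι) :
    Good S 𝒟 (M ⊓ s.inf f) := by
  classical
  induction s using Finset.induction_on with
  | empty => simpa using h0
  | insert a s _ ih =>
    rw [Finset.inf_insert, inf_left_comm]
    exact good_inf h𝒟 (hf a) ih

lemma finite_obj_D [Finite (ResidueField 𝒪)] (ρbar : ResidualGaloisRep (ResidueField 𝒪))
    (bbar : Module.Basis (Fin 2) (ResidueField 𝒪) ρbar.V) (hS : S.rb = resMatOf ρbar bbar)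
    (hfin : TangentFinite 𝒪 ρbar 𝒟) :
    haveI : IsLocalHom (algebraMap 𝒪 (DualNumber (ResidueField 𝒪))) := (testD 𝒪).isLocalHom
    Finite {r : GQ →* M2 (DualNumber (ResidueField 𝒪)) // IsObj S 𝒟 r} := by
  haveI : IsLocalHom (algebraMap 𝒪 (DualNumber (ResidueField 𝒪))) := (testD 𝒪).isLocalHom
  let T := {ρ : GaloisRepAdic (DualNumber (ResidueField 𝒪)) // 𝒟 ρ ∧ ρ.residual.IsEquiv
    (ρbar.baseChangeAlong ((residue (DualNumber (ResidueField 𝒪))).comp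
          (algebraMap (ResidueField 𝒪) (DualNumber (ResidueField 𝒪)))))}
  let st : Setoid T := ⟨fun ρ ρ' => ρ.1.IsEquiv ρ'.1, ⟨fun ρ => ⟨GaloisRepAdic.Equiv.refl ρ.1⟩,
        fun ⟨e⟩ => ⟨e.symm⟩, fun ⟨e⟩ ⟨e'⟩ => ⟨e.trans e'⟩⟩⟩
  haveI hfin' : Finite (Quotient st) := hfin
  have hres : ∀ r : {r : GQ →* M2 (DualNumber (ResidueField 𝒪)) // IsObj S 𝒟 r},
      (toRep r.1 r.2.cont).residual.IsEquiv
        (ρbar.baseChangeAlong ((residue (DualNumber (ResidueField 𝒪))).comp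
          (algebraMap (ResidueField 𝒪) (DualNumber (ResidueField 𝒪))))) := by
    intro r
    refine residual_isEquiv_of_matOf ρbar bbar _ _ (Pi.basisFun _ (Fin 2)) ?_
    intro σ i j
    rw [matOf_toRep, r.2.lift σ i j, hS]
    obtain ⟨c, hc⟩ := residue_surjective (resMatOf ρbar bbar σ i j)
    rw [← hc]
    rfl
  refine Finite.of_injective (β := Quotient st)
    (fun r => Quotient.mk st ⟨toRep r.1 r.2.cont, r.2.type, hres r⟩) ?_
  intro r r' h
  have h1 : (toRep r.1 r.2.cont).IsEquiv (toRep r'.1 r'.2.cont) := Quotient.exact h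
  exact Subtype.ext (eq_of_isEquiv r.2.lift r'.2.lift r.2.nf r'.2.nf h1)

theorem good_tangent [Finite (ResidueField 𝒪)] (h𝒟 : IsDeformationCondition 𝒪 𝒟)
    (ρbar : ResidualGaloisRep (ResidueField 𝒪))
    (bbar : Module.Basis (Fin 2) (ResidueField 𝒪) ρbar.V) (hS : S.rb = resMatOf ρbar bbar)
    (hfin : TangentFinite 𝒪 ρbar 𝒟)
    (h0 : Good S 𝒟 (RingHom.ker (ev S.rb : Fr 𝒪 →ₐ[𝒪] ResidueField 𝒪))) :
    ∃ K₁, Good S 𝒟 K₁ ∧ ∀ K, Good S 𝒟 K →
      RingHom.ker (ev S.rb : Fr 𝒪 →ₐ[𝒪] ResidueField 𝒪) ^ 2 ≤ K →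
      (maximalIdeal 𝒪).map (MvPolynomial.C : 𝒪 →+* Fr 𝒪) ≤ K → K₁ ≤ K := by
  classical
  haveI : IsLocalHom (algebraMap 𝒪 (DualNumber (ResidueField 𝒪))) := (testD 𝒪).isLocalHom
  haveI := finite_obj_D ρbar bbar hS hfin
  letI := Fintype.ofFinite {r : GQ →* M2 (DualNumber (ResidueField 𝒪)) // IsObj S 𝒟 r}
  let F : {r : GQ →* M2 (DualNumber (ResidueField 𝒪)) // IsObj S 𝒟 r} → Ideal (Fr 𝒪) :=
    fun r => RingHom.ker (ev r.1 : Fr 𝒪 →ₐ[𝒪] DualNumber (ResidueField 𝒪))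
  refine ⟨_, good_inf_finset h𝒟 F (fun r => good_of_obj h𝒟 (testD 𝒪) r.2) h0 Finset.univ, ?_⟩
  intro K hK hsq hϖ f hf
  by_contra hfK
  have hT := hK.isThick
  haveI := hT.isLocalRing
  have hA := hT.isArtinianTestAlgebra
  haveI := hA.isLocalHom
  let p : (Fr 𝒪 ⧸ K) →ₐ[𝒪] ResidueField 𝒪 := Ideal.Quotient.liftₐ K (ev S.rb) hT.le
  have hx : Ideal.Quotient.mk K f ≠ 0 := fun h => hfK (Ideal.Quotient.eq_zero_iff_mem.mp h)
  have hsq' : ∀ x y, p x = 0 → p y = 0 → x * y = 0 := by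
    intro x y hx hy
    obtain ⟨x, rfl⟩ := Ideal.Quotient.mk_surjective x
    obtain ⟨y, rfl⟩ := Ideal.Quotient.mk_surjective y
    rw [← map_mul, Ideal.Quotient.eq_zero_iff_mem]
    apply hsq
    rw [pow_two]
    exact Ideal.mul_mem_mul hx hy
  have hϖ' : ∀ c ∈ maximalIdeal 𝒪, algebraMap 𝒪 (Fr 𝒪 ⧸ K) c = 0 := by
    intro c hc
    exact Ideal.Quotient.eq_zero_iff_mem.mpr (hϖ (Ideal.mem_map_of_mem _ hc))
  obtain ⟨θ, hθ, -⟩ := exists_algHom_dualNumber_ne_zero p hsq' hϖ' _ hx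
  have hobj := hK.isObj.push h𝒟 hA (testD 𝒪) θ
  have hle : Finset.univ.inf F ≤ F ⟨_, hobj⟩ := Finset.inf_le (Finset.mem_univ _)
  have h1 : f ∈ F ⟨_, hobj⟩ := hle hf.2
  apply hθ
  have h2 : ev (mapHom (θ : (Fr 𝒪 ⧸ K) →+* DualNumber (ResidueField 𝒪))
    (tautHom K hK.isTaut)) f = 0 := h1
  rw [ev_mapHom, ev_tautHom] at h2
  exact h2

end

end

end Fermat.Agent.S53
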