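import Mathlib

set_option autoImplicit false
set_option linter.style.haveILetI false
set_option linter.unusedSectionVars false

namespace Fermat.Agent.S53

open IsLocalRing

/-- extension of a homomorphism from a dense subalgebra, by continuity -/
theorem exists_algHom_of_dense {𝒪 F R A : Type} [CommRing 𝒪] [CommRing F] [Algebra 𝒪 F]
    [CommRing R] [Algebra 𝒪 R] [CommRing A] [Algebra 𝒪 A]
    (I : Ideal R) (J : Ideal A) [IsAdicComplete J A] (u : F →ₐ[𝒪] R) (v : F →ₐ[𝒪] A)
    (hdense : ∀ (n : ℕ) (x : R), ∃ f : F, x - u f ∈ I ^ n)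
    (hle : ∀ (n : ℕ) (f : F), u f ∈ I ^ n → v f ∈ J ^ n) :
    ∃ φ : R →ₐ[𝒪] A, φ.comp u = v ∧ ∀ (n : ℕ) (x : R), x ∈ I ^ n → φ x ∈ J ^ n := by
  choose c hc using hdense
  have key : ∀ (n : ℕ) (x : R) (f : F), x - u f ∈ I ^ n →
      Ideal.Quotient.mk (J ^ n) (v (c n x)) = Ideal.Quotient.mk (J ^ n) (v f) := by
    intro n x f hf
    rw [Ideal.Quotient.eq, ← map_sub]
    apply hle
    rw [map_sub]
    have := (I ^ n).sub_mem hf (hc n x)
    convert this using 1
    ring
  let γ : (n : ℕ) → R →ₐ[𝒪] A ⧸ J ^ n := fun n =>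
    { toFun := fun x => Ideal.Quotient.mk (J ^ n) (v (c n x))
      map_one' := by rw [key n 1 1 (by simp)]; simp
      map_mul' := fun x y => by
        rw [key n (x * y) (c n x * c n y) ?_, map_mul, map_mul]
        have h1 := (I ^ n).mul_mem_left x (hc n y)
        have h2 := (I ^ n).mul_mem_right (u (c n y)) (hc n x)
        have := (I ^ n).add_mem h1 h2
        convert this using 1
        rw [map_mul]
        ring
      map_zero' := by rw [key n 0 0 (by simp)]; simp
      map_add' := fun x y => by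
        rw [key n (x + y) (c n x + c n y) ?_, map_add, map_add]
        have := (I ^ n).add_mem (hc n x) (hc n y)
        convert this using 1
        rw [map_add]
        ring
      commutes' := fun r => by
        rw [key n _ (algebraMap 𝒪 F r) (by simp)]
        rw [AlgHom.commutes]
        rfl }
  have hγ : ∀ (n : ℕ) (x : R) (f : F), x - u f ∈ I ^ n →
      γ n x = Ideal.Quotient.mk (J ^ n) (v f) := key
  have hcompat : ∀ {m n : ℕ} (hmn : m ≤ n),
      (Ideal.Quotient.factorₐ 𝒪 (Ideal.pow_le_pow_right hmn)).comp (γ n) = γ m := by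
    intro m n hmn
    apply AlgHom.ext
    intro x
    rw [hγ m x (c n x) (Ideal.pow_le_pow_right hmn (hc n x))]
    rfl
  refine ⟨IsAdicComplete.liftAlgHom J γ hcompat, ?_, ?_⟩
  · apply IsAdicComplete.algHom_ext J
    intro n
    rw [← AlgHom.comp_assoc, IsAdicComplete.mkₐ_comp_liftAlgHom]
    apply AlgHom.ext
    intro f
    exact hγ n (u f) f (by simp)
  · intro n x hx
    rw [← Ideal.Quotient.eq_zero_iff_mem, IsAdicComplete.mk_liftAlgHom J γ hcompat n x,
      hγ n x 0 (by simpa using hx)]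
    simp

/-- uniqueness of continuous extensions from a dense subalgebra -/
theorem algHom_ext_of_dense {𝒪 F R A : Type} [CommRing 𝒪] [CommRing F] [Algebra 𝒪 F]
    [CommRing R] [Algebra 𝒪 R] [CommRing A] [Algebra 𝒪 A]
    (I : Ideal R) (J : Ideal A) [IsHausdorff J A] (u : F →ₐ[𝒪] R)
    (hdense : ∀ (n : ℕ) (x : R), ∃ f : F, x - u f ∈ I ^ n)
    (φ ψ : R →ₐ[𝒪] A) (hφ : ∀ x ∈ I, φ x ∈ J) (hψ : ∀ x ∈ I, ψ x ∈ J)
    (h : φ.comp u = ψ.comp u) : φ = ψ := by
  have hpow : ∀ (χ : R →ₐ[𝒪] A), (∀ x ∈ I, χ x ∈ J) → ∀ (n : ℕ) (x : R), x ∈ I ^ n →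
      χ x ∈ J ^ n := by
    intro χ hχ n x hx
    have h1 : I ≤ J.comap (χ : R →+* A) := hχ
    exact (Ideal.pow_right_mono h1 n |>.trans (Ideal.le_comap_pow _ n)) hx
  apply AlgHom.ext
  intro x
  rw [← sub_eq_zero]
  apply IsHausdorff.haus (I := J) inferInstance
  intro n
  rw [SModEq.zero, smul_eq_mul, Ideal.mul_top]
  obtain ⟨f, hf⟩ := hdense n x
  have h1 := hpow φ hφ n _ hf
  have h2 := hpow ψ hψ n _ hf
  have h3 : φ (u f) = ψ (u f) := congrArg (fun χ => χ f) h
  have := (J ^ n).sub_mem h1 h2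
  convert this using 1
  rw [map_sub, map_sub, h3]
  ring

end Fermat.Agent.S53
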