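import Mathlib
import Fermat.Agent.S53.Good

set_option autoImplicit false
set_option linter.style.haveILetI false
set_option linter.unusedSectionVars false

namespace Fermat.Agent.S53

open IsLocalRing GaloisRep

noncomputable section

section
variable {𝒪 : Type} [CommRing 𝒪] [IsLocalRing 𝒪] {A : Type} [CommRing A] [IsLocalRing A]

lemma quot_nontrivial (n : ℕ) : Nontrivial (A ⧸ maximalIdeal A ^ (n + 1)) :=
  Ideal.Quotient.nontrivial_iff.mpr (ne_top_of_le_ne_top (maximalIdeal.isMaximal A).ne_top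
    (Ideal.pow_le_self (by omega)))

lemma quot_isLocalRing (n : ℕ) : IsLocalRing (A ⧸ maximalIdeal A ^ (n + 1)) :=
  haveI := quot_nontrivial (A := A) n
  .of_surjective' _ Ideal.Quotient.mk_surjective

lemma quot_isLocalHom_mk (n : ℕ) : IsLocalHom (Ideal.Quotient.mk (maximalIdeal A ^ (n + 1))) := by
  apply isLocalHom_of_le_jacobson_bot
  rw [IsLocalRing.jacobson_eq_maximalIdeal ⊥ bot_ne_top]
  exact Ideal.pow_le_self (by omega)

lemma quot_maximalIdeal_le (n : ℕ) [IsLocalRing (A ⧸ maximalIdeal A ^ (n + 1))] :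
    maximalIdeal (A ⧸ maximalIdeal A ^ (n + 1)) ≤
      (maximalIdeal A).map (Ideal.Quotient.mk (maximalIdeal A ^ (n + 1))) := by
  intro y hy
  obtain ⟨a, rfl⟩ := Ideal.Quotient.mk_surjective y
  apply Ideal.mem_map_of_mem
  rw [mem_maximalIdeal, mem_nonunits_iff] at hy ⊢
  exact fun h => hy (h.map _)

lemma quot_test [IsNoetherianRing A] [Algebra 𝒪 A] [IsLocalHom (algebraMap 𝒪 A)]
    (hres : Function.Surjective (residue A ∘ algebraMap 𝒪 A)) (n : ℕ)
    [IsLocalRing (A ⧸ maximalIdeal A ^ (n + 1))] :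
    IsArtinianTestAlgebra 𝒪 (A ⧸ maximalIdeal A ^ (n + 1)) where
  isLocalHom := ⟨fun c hc => by
    haveI := quot_isLocalHom_mk (A := A) n
    have h1 : IsUnit (Ideal.Quotient.mk (maximalIdeal A ^ (n + 1)) (algebraMap 𝒪 A c)) := hc
    exact (isUnit_map_iff (algebraMap 𝒪 A) c).mp ((isUnit_map_iff _ _).mp h1)⟩
  residue_surjective := by
    intro y
    obtain ⟨y, rfl⟩ := residue_surjective y
    obtain ⟨a, rfl⟩ := Ideal.Quotient.mk_surjective y
    obtain ⟨c, hc⟩ := hres (residue A a)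
    refine ⟨c, ?_⟩
    show residue _ (Ideal.Quotient.mk (maximalIdeal A ^ (n + 1)) (algebraMap 𝒪 A c)) = _
    have h1 : algebraMap 𝒪 A c - a ∈ maximalIdeal A := by
      rw [← residue_eq_zero_iff, map_sub, sub_eq_zero]
      exact hc
    rw [← sub_eq_zero, ← map_sub, ← map_sub, residue_eq_zero_iff]
    rw [mem_maximalIdeal, mem_nonunits_iff] at h1 ⊢
    haveI := quot_isLocalHom_mk (A := A) n
    exact fun h => h1 ((isUnit_map_iff _ _).mp h)
  isArtinian := by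
    rw [isArtinianRing_iff_isNilpotent_maximalIdeal]
    refine ⟨n + 1, ?_⟩
    rw [Ideal.zero_eq_bot, eq_bot_iff]
    calc _ ≤ ((maximalIdeal A).map (Ideal.Quotient.mk (maximalIdeal A ^ (n + 1)))) ^ (n + 1) :=
          Ideal.pow_right_mono (quot_maximalIdeal_le n) _
      _ = ⊥ := by rw [← Ideal.map_pow, Ideal.map_quotient_self]

lemma hens_of_complete [IsAdicComplete (maximalIdeal A) A] (t d : A)
    (h1 : 1 - t + d ∈ maximalIdeal A) (h2 : IsUnit (2 - t)) :
    ∃ l : A, l ^ 2 - t * l + d = 0 ∧ l - 1 ∈ maximalIdeal A := by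
  haveI := IsAdicComplete.henselianRing A (maximalIdeal A)
  obtain ⟨l, hl, hl1⟩ := HenselianRing.is_henselian (I := maximalIdeal A)
    (Polynomial.X ^ 2 - Polynomial.C t * Polynomial.X + Polynomial.C d : Polynomial A)
    (by monicity!) 1 (by simpa using h1) (by
      have : Polynomial.eval 1 (Polynomial.derivative
        (Polynomial.X ^ 2 - Polynomial.C t * Polynomial.X + Polynomial.C d : Polynomial A)) =
          2 - t := by simp; norm_num
      rw [this]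
      exact h2.map _)
  refine ⟨l, ?_, hl1⟩
  simpa [Polynomial.IsRoot] using hl

end

section
variable {𝒪 : Type} [CommRing 𝒪] [IsLocalRing 𝒪] {S : Setup 𝒪}
  {𝒟 : ∀ ⦃A : Type⦄ [CommRing A] [IsLocalRing A] [Algebra 𝒪 A], GaloisRepAdic A → Prop}

lemma IsLift.conjBy {A : Type} [CommRing A] [IsLocalRing A] [Algebra 𝒪 A]
    [IsLocalHom (algebraMap 𝒪 A)] {r : GQ →* M2 A} (h : IsLift S r) (U : (M2 A)ˣ)
    (hU : ∀ i j, ((U : M2 A) - 1) i j ∈ maximalIdeal A) : IsLift S (conjBy U r) := by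
  let π : M2 A →+* M2 (ResidueField A) := (residue A).mapMatrix
  have h1 : π (U : M2 A) = 1 := by
    rw [← sub_eq_zero, ← map_one π, ← map_sub]
    ext i j
    exact (residue_eq_zero_iff _).mpr (hU i j)
  have h2 : π (↑U⁻¹ : M2 A) = 1 := by
    have : π (↑U⁻¹ : M2 A) * π (U : M2 A) = 1 := by rw [← map_mul, Units.inv_mul, map_one]
    rwa [h1, mul_one] at this
  intro g i j
  rw [← h g i j]
  have h3 : π (Fermat.Agent.S53.conjBy U r g) = π (r g) := by
    show π ((↑U⁻¹ : M2 A) * r g * (U : M2 A)) = _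
    rw [map_mul, map_mul, h1, h2, one_mul, mul_one]
  exact congrFun (congrFun h3 i) j

lemma toRep_congr {A : Type} [CommRing A] [IsLocalRing A] {r r' : GQ →* M2 A} (he : r = r')
    (hc : IsCont r) (hc' : IsCont r') : (toRep r hc).IsEquiv (toRep r' hc') := by
  subst he
  exact ⟨GaloisRepAdic.Equiv.refl _⟩

lemma type_of_good_ker (h𝒟 : IsDeformationCondition 𝒪 𝒟) {B : Type} [CommRing B] [IsLocalRing B]
    [Algebra 𝒪 B] (hB : IsArtinianTestAlgebra 𝒪 B) {r : GQ →* M2 B} (hc : IsCont r)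
    (hg : Good S 𝒟 (RingHom.ker (ev r : Fr 𝒪 →ₐ[𝒪] B))) : 𝒟 (toRep r hc) := by
  obtain ⟨hT, hR, ht⟩ := hg
  haveI := hT.isLocalRing
  have hA := hT.isArtinianTestAlgebra
  haveI := hA.isArtinian
  let φ : (Fr 𝒪 ⧸ RingHom.ker (ev r : Fr 𝒪 →ₐ[𝒪] B)) →ₐ[𝒪] B := Ideal.kerLiftAlg (ev r)
  have hφ : IsLocalHom (φ : (Fr 𝒪 ⧸ RingHom.ker (ev r : Fr 𝒪 →ₐ[𝒪] B)) →+* B) :=
    isLocalHom_of_isArtinianRing _
  have hr : mapHom (φ : (Fr 𝒪 ⧸ RingHom.ker (ev r : Fr 𝒪 →ₐ[𝒪] B)) →+* B) (tautHom _ hR) = r := by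
    apply MonoidHom.ext
    intro g
    ext i j
    rw [mapHom_apply, tautHom_apply]
    exact ev_X r g i j
  exact type_congr hr.symm (type_push h𝒟 hA hB φ hφ (tautHom_isCont hR)
    ((tautHom_isCont hR).mapHom _ hφ) ht)

lemma type_of_isEquiv_complete (h𝒟 : IsDeformationCondition 𝒪 𝒟) {A : Type} [CommRing A]
    [IsLocalRing A] [IsNoetherianRing A] [IsAdicComplete (maximalIdeal A) A] [Algebra 𝒪 A]
    (hloc : IsLocalHom (algebraMap 𝒪 A))
    (hres : Function.Surjective (residue A ∘ algebraMap 𝒪 A)) {ρ ρ' : GaloisRepAdic A}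
    (e : ρ.IsEquiv ρ') (h : 𝒟 ρ) : 𝒟 ρ' := by
  rw [h𝒟.iff_forall_surjective hloc hres] at h ⊢
  intro B _ _ _ hB q hq hqs
  obtain ⟨e⟩ := e
  exact h𝒟.of_isEquiv hB ⟨e.baseChangeAlong _ hq⟩ (h hB q hq hqs)

lemma exists_normalised {A : Type} [CommRing A]
    [IsLocalRing A] [IsAdicComplete (maximalIdeal A) A] [Algebra 𝒪 A]
    [IsLocalHom (algebraMap 𝒪 A)] (ρbar : ResidualGaloisRep (ResidueField 𝒪))
    (bbar : Module.Basis (Fin 2) (ResidueField 𝒪) ρbar.V) (hS : S.rb = resMatOf ρbar bbar)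
    (ρA : GaloisRepAdic A)
    (he : ρA.residual.IsEquiv (ρbar.baseChangeAlong (ResidueField.map (algebraMap 𝒪 A)))) :
    ∃ (r : GQ →* M2 A) (hc : IsCont r), IsLift S r ∧ IsNF S.g₀ S.a r ∧
      (toRep r hc).IsEquiv ρA := by
  obtain ⟨b, hb⟩ := exists_basis_of_residual_isEquiv ρbar bbar _ ρA he
  have hl : IsLift S (matOf ρA b) := by
    intro g i j
    rw [hb, hS]
  obtain ⟨U, hU, hnf⟩ := exists_conj_isNF hens_of_complete S.g₀ S.a (matOf ρA b) hl.isNearNF
  have hc := isCont_matOf ρA b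
  refine ⟨conjBy U (matOf ρA b), hc.conjBy U, hl.conjBy U hU, hnf, ?_⟩
  exact isEquiv_trans (toRep_conjBy_isEquiv _ hc U _) (toRep_matOf_isEquiv ρA b)

end

end

end Fermat.Agent.S53
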