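import Mathlib
import Fermat.Agent.S53.Quot
import Fermat.Agent.S53.Dense

set_option autoImplicit false
set_option linter.style.haveILetI false
set_option linter.unusedSectionVars false

namespace Fermat.Agent.S53

open IsLocalRing GaloisRep

noncomputable section

section
variable {𝒪 : Type} [CommRing 𝒪]

/-- a matrix representation from a point of the free algebra satisfying the relations -/
def homOfRel {A : Type} [CommRing A] [Algebra 𝒪 A] (u : Fr 𝒪 →ₐ[𝒪] A)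
    (h1 : ∀ i j, u ((XMat 𝒪 1 - 1) i j) = 0)
    (hm : ∀ g h i j, u ((XMat 𝒪 (g * h) - XMat 𝒪 g * XMat 𝒪 h) i j) = 0) : GQ →* M2 A where
  toFun g := (XMat 𝒪 g).map u
  map_one' := by
    ext i j
    have := h1 i j
    rw [Matrix.sub_apply, map_sub, sub_eq_zero] at this
    rw [Matrix.map_apply, this, Matrix.one_apply, Matrix.one_apply]
    split_ifs <;> simp
  map_mul' g g' := by
    ext i j
    have := hm g g' i j
    rw [Matrix.sub_apply, map_sub, sub_eq_zero] at this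
    rw [Matrix.map_apply, this, ← Matrix.map_apply (f := u), Matrix.map_mul]

end

section
variable {𝒪 : Type} [CommRing 𝒪] [IsLocalRing 𝒪] (S : Setup 𝒪)
  (𝒟 : ∀ ⦃A : Type⦄ [CommRing A] [IsLocalRing A] [Algebra 𝒪 A], GaloisRepAdic A → Prop)

/-- the output of the pro-representability theorem -/
structure IsProRep {R : Type} [CommRing R] [IsLocalRing R] [Algebra 𝒪 R] (u : Fr 𝒪 →ₐ[𝒪] R) :
    Prop where
  dense : ∀ (n : ℕ) (x : R), ∃ f : Fr 𝒪, x - u f ∈ maximalIdeal R ^ n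
  good : ∀ n : ℕ, Good S 𝒟 ((maximalIdeal R ^ (n + 1)).comap (u : Fr 𝒪 →+* R))
  min : ∀ (n : ℕ) (K : Ideal (Fr 𝒪)), Good S 𝒟 K →
    RingHom.ker (ev S.rb : Fr 𝒪 →ₐ[𝒪] ResidueField 𝒪) ^ (n + 1) ≤ K →
      (maximalIdeal R ^ (n + 1)).comap (u : Fr 𝒪 →+* R) ≤ K

variable {S 𝒟}
variable {R : Type} [CommRing R] [IsLocalRing R] [IsNoetherianRing R] [Algebra 𝒪 R]
  {u : Fr 𝒪 →ₐ[𝒪] R}

lemma IsProRep.eq_zero (hu : IsProRep S 𝒟 u) {f : Fr 𝒪}
    (h : ∀ n : ℕ, f ∈ (maximalIdeal R ^ (n + 1)).comap (u : Fr 𝒪 →+* R)) : u f = 0 := by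
  have h1 : u f ∈ (⨅ i : ℕ, maximalIdeal R ^ i : Ideal R) := by
    rw [Submodule.mem_iInf]
    intro i
    exact Ideal.pow_le_pow_right (Nat.le_succ i) (h i)
  rw [Ideal.iInf_pow_eq_bot_of_isLocalRing _ (maximalIdeal.isMaximal R).ne_top] at h1
  exact h1

/-- the universal matrix representation -/
def IsProRep.hom (hu : IsProRep S 𝒟 u) : GQ →* M2 R :=
  homOfRel u (fun i j => hu.eq_zero fun n => (hu.good n).isTaut.one i j)
    (fun g h i j => hu.eq_zero fun n => (hu.good n).isTaut.mul g h i j)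

lemma IsProRep.hom_apply (hu : IsProRep S 𝒟 u) (g : GQ) (i j : Fin 2) :
    hu.hom g i j = u (MvPolynomial.X (g, i, j)) := rfl

lemma IsProRep.ev_hom (hu : IsProRep S 𝒟 u) : ev hu.hom = u := by
  apply MvPolynomial.algHom_ext
  rintro ⟨g, i, j⟩
  rw [ev_X, hu.hom_apply]

lemma IsProRep.hom_sub_one (hu : IsProRep S 𝒟 u) (g : GQ) (i j : Fin 2) :
    (hu.hom g - 1) i j = u ((XMat 𝒪 g - 1) i j) := by
  rw [Matrix.sub_apply, Matrix.sub_apply, map_sub]
  congr 1
  rw [Matrix.one_apply, Matrix.one_apply]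
  split_ifs <;> simp

lemma IsProRep.isCont_hom (hu : IsProRep S 𝒟 u) : IsCont hu.hom := by
  intro n
  cases n with
  | zero =>
    refine ⟨⊥, inferInstance, fun σ _ i j => ?_⟩
    rw [pow_zero, Ideal.one_eq_top]
    exact Submodule.mem_top
  | succ n =>
    obtain ⟨L, hL, h1⟩ := (hu.good n).isTaut.cont
    refine ⟨L, hL, fun σ hσ i j => ?_⟩
    rw [hu.hom_sub_one]
    exact h1 σ hσ i j

lemma IsProRep.ker_le (hu : IsProRep S 𝒟 u) :
    RingHom.ker (ev S.rb : Fr 𝒪 →ₐ[𝒪] ResidueField 𝒪) ≤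
      (maximalIdeal R).comap (u : Fr 𝒪 →+* R) := by
  obtain ⟨n, hn⟩ := (hu.good 0).isThick.pow
  rw [zero_add, pow_one] at hn
  exact Ideal.IsPrime.le_of_pow_le hn

lemma IsProRep.isLift_hom [IsLocalHom (algebraMap 𝒪 R)] (hu : IsProRep S 𝒟 u) :
    IsLift S hu.hom := by
  intro g i j
  obtain ⟨c, hc⟩ := residue_surjective (S.rb g i j)
  rw [← hc, ResidueField.map_residue, ← sub_eq_zero, ← map_sub, residue_eq_zero_iff, hu.hom_apply]
  have h1 : u (MvPolynomial.X (g, i, j)) - algebraMap 𝒪 R c =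
      u (MvPolynomial.X (g, i, j) - MvPolynomial.C c) := by
    rw [map_sub, ← MvPolynomial.algebraMap_eq, AlgHom.commutes]
  rw [h1]
  apply hu.ker_le
  rw [RingHom.mem_ker, map_sub, ev_X, ← MvPolynomial.algebraMap_eq, AlgHom.commutes, ← hc]
  exact sub_self _

lemma IsProRep.isNF_hom (hu : IsProRep S 𝒟 u) : IsNF S.g₀ S.a hu.hom where
  h00 := hu.eq_zero fun n => (hu.good n).isTaut.nf00
  h10 := by
    have := hu.eq_zero fun n => (hu.good n).isTaut.nf10
    rw [map_sub, map_one, sub_eq_zero] at this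
    exact this
  ha := by
    rw [← ev_nfPoly, hu.ev_hom]
    exact hu.eq_zero fun n => (hu.good n).isTaut.nfa

lemma map_pow_mem {A B : Type} [CommRing A] [IsLocalRing A] [CommRing B] [IsLocalRing B]
    (q : A →+* B) [IsLocalHom q] (n : ℕ) {x : A} (hx : x ∈ maximalIdeal A ^ n) :
    q x ∈ maximalIdeal B ^ n := by
  have h1 : maximalIdeal A ≤ (maximalIdeal B).comap q := fun a ha => map_nonunit q a ha
  exact (Ideal.pow_right_mono h1 n |>.trans (Ideal.le_comap_pow _ n)) hx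

lemma IsProRep.type_hom [Finite (ResidueField 𝒪)] [IsLocalHom (algebraMap 𝒪 R)]
    [IsAdicComplete (maximalIdeal R) R]
    (hu : IsProRep S 𝒟 u) (h𝒟 : IsDeformationCondition 𝒪 𝒟)
    (hres : Function.Surjective (residue R ∘ algebraMap 𝒪 R)) :
    𝒟 (toRep hu.hom hu.isCont_hom) := by
  rw [h𝒟.iff_forall_surjective inferInstance hres]
  intro B _ _ _ hB q hq hqs
  haveI := hB.isLocalHom
  haveI := hB.isArtinian
  haveI := hq
  have hc' : IsCont (mapHom (q : R →+* B) hu.hom) := hu.isCont_hom.mapHom _ hq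
  refine h𝒟.of_isEquiv hB (isEquiv_symm (baseChangeAlong_toRep_isEquiv _ hq _ _ hc')) ?_
  apply type_of_good_ker h𝒟 hB
  obtain ⟨n, hn⟩ := (isArtinianRing_iff_isNilpotent_maximalIdeal B).mp inferInstance
  have hl : IsLift S (mapHom (q : R →+* B) hu.hom) := hu.isLift_hom.mapHom q
  refine good_mono h𝒟 (hu.good n) ?_ (isThick_ker_ev hB hl).le
  intro f hf
  rw [RingHom.mem_ker, ev_mapHom, hu.ev_hom]
  have h1 : (q : R →+* B) (u f) ∈ maximalIdeal B ^ (n + 1) := map_pow_mem _ _ hf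
  rw [pow_succ, hn, Ideal.zero_eq_bot, Ideal.bot_mul] at h1
  exact h1

lemma IsProRep.le_of_lift [Finite (ResidueField 𝒪)] (hu : IsProRep S 𝒟 u)
    (h𝒟 : IsDeformationCondition 𝒪 𝒟) {A : Type} [CommRing A]
    [IsLocalRing A] [IsNoetherianRing A] [IsAdicComplete (maximalIdeal A) A] [Algebra 𝒪 A]
    [IsLocalHom (algebraMap 𝒪 A)] (hres : Function.Surjective (residue A ∘ algebraMap 𝒪 A))
    {r : GQ →* M2 A} (hc : IsCont r) (hl : IsLift S r) (hn : IsNF S.g₀ S.a r)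
    (ht : 𝒟 (toRep r hc)) (n : ℕ) (f : Fr 𝒪) (hf : u f ∈ maximalIdeal R ^ n) :
    ev r f ∈ maximalIdeal A ^ n := by
  cases n with
  | zero =>
    rw [pow_zero, Ideal.one_eq_top]
    exact Submodule.mem_top
  | succ n =>
    haveI := quot_isLocalRing (A := A) n
    have hB := quot_test (𝒪 := 𝒪) (A := A) hres n
    haveI := hB.isLocalHom
    let q : A →ₐ[𝒪] (A ⧸ maximalIdeal A ^ (n + 1)) := Ideal.Quotient.mkₐ 𝒪 _
    haveI hq : IsLocalHom (q : A →+* (A ⧸ maximalIdeal A ^ (n + 1))) := quot_isLocalHom_mk n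
    have hobj : IsObj S 𝒟 (mapHom (q : A →+* (A ⧸ maximalIdeal A ^ (n + 1))) r) :=
      { lift := hl.mapHom q
        cont := hc.mapHom _ hq
        nf := hn.mapHom q
        type := h𝒟.of_isEquiv hB (baseChangeAlong_toRep_isEquiv _ hq _ _ _)
          ((h𝒟.iff_forall_surjective inferInstance hres _).mp ht hB q hq
            Ideal.Quotient.mk_surjective) }
    have hg := good_of_obj h𝒟 hB hobj
    have hle : RingHom.ker (ev S.rb : Fr 𝒪 →ₐ[𝒪] ResidueField 𝒪) ^ (n + 1) ≤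
        RingHom.ker (ev (mapHom (q : A →+* (A ⧸ maximalIdeal A ^ (n + 1))) r) :
          Fr 𝒪 →ₐ[𝒪] (A ⧸ maximalIdeal A ^ (n + 1))) := by
      have h1 : RingHom.ker (ev S.rb : Fr 𝒪 →ₐ[𝒪] ResidueField 𝒪) ≤
          (maximalIdeal A).comap (ev r : Fr 𝒪 →ₐ[𝒪] A) := by
        intro f hf
        rw [Ideal.mem_comap, ev_mem_maximalIdeal_iff S hl]
        exact hf
      intro f hf
      have h2 := (Ideal.pow_right_mono h1 (n + 1) |>.trans (Ideal.le_comap_pow _ (n + 1))) hf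
      rw [RingHom.mem_ker, ev_mapHom]
      exact Ideal.Quotient.eq_zero_iff_mem.mpr h2
    have h3 := hu.min n _ hg hle hf
    rw [RingHom.mem_ker, ev_mapHom] at h3
    exact Ideal.Quotient.eq_zero_iff_mem.mp h3

theorem IsProRep.universal [Finite (ResidueField 𝒪)] [IsLocalHom (algebraMap 𝒪 R)]
    (hu : IsProRep S 𝒟 u)
    (h𝒟 : IsDeformationCondition 𝒪 𝒟) (ρbar : ResidualGaloisRep (ResidueField 𝒪))
    (bbar : Module.Basis (Fin 2) (ResidueField 𝒪) ρbar.V) (hS : S.rb = resMatOf ρbar bbar)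
    (A : Type) [CommRing A]
    [IsLocalRing A] [IsNoetherianRing A] [IsAdicComplete (maximalIdeal A) A] [Algebra 𝒪 A]
    [IsLocalHom (algebraMap 𝒪 A)] (hres : Function.Surjective (residue A ∘ algebraMap 𝒪 A))
    (ρA : GaloisRepAdic A) (hρA : 𝒟 ρA)
    (he : ρA.residual.IsEquiv (ρbar.baseChangeAlong (ResidueField.map (algebraMap 𝒪 A)))) :
    ∃! φ : R →ₐ[𝒪] A, ∃ hφ : IsLocalHom (φ : R →+* A),
      ((toRep hu.hom hu.isCont_hom).baseChangeAlong (φ : R →+* A) hφ).IsEquiv ρA := by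
  obtain ⟨r, hc, hl, hn, e⟩ := exists_normalised (S := S) ρbar bbar hS ρA he
  have ht : 𝒟 (toRep r hc) := type_of_isEquiv_complete h𝒟 inferInstance hres (isEquiv_symm e) hρA
  obtain ⟨φ, hφu, hφpow⟩ := exists_algHom_of_dense (maximalIdeal R) (maximalIdeal A) u (ev r)
    hu.dense (hu.le_of_lift h𝒟 hres hc hl hn ht)
  have hφloc : IsLocalHom (φ : R →+* A) := ⟨fun x hx => by
    by_contra hnu
    have h1 := hφpow 1 x (by rw [pow_one]; exact hnu)
    rw [pow_one] at h1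
    exact h1 hx⟩
  refine ⟨φ, ⟨hφloc, ?_⟩, ?_⟩
  · have hr : mapHom (φ : R →+* A) hu.hom = r := by
      apply MonoidHom.ext
      intro g
      ext i j
      rw [mapHom_apply, hu.hom_apply]
      have := congrArg (fun χ => χ (MvPolynomial.X (g, i, j))) hφu
      simpa using this
    exact isEquiv_trans (baseChangeAlong_toRep_isEquiv _ hφloc _ _ (hu.isCont_hom.mapHom _ hφloc))
      (isEquiv_trans (toRep_congr hr _ hc) e)
  · rintro ψ ⟨hψloc, eψ⟩
    haveI := hψloc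
    haveI := hφloc
    have hcψ := hu.isCont_hom.mapHom _ hψloc
    have e1 : (toRep (mapHom (ψ : R →+* A) hu.hom) hcψ).IsEquiv (toRep r hc) :=
      isEquiv_trans (isEquiv_symm (baseChangeAlong_toRep_isEquiv _ hψloc _ _ hcψ))
        (isEquiv_trans eψ (isEquiv_symm e))
    have hr : mapHom (ψ : R →+* A) hu.hom = r :=
      eq_of_isEquiv (hu.isLift_hom.mapHom ψ) hl (hu.isNF_hom.mapHom ψ) hn e1
    refine algHom_ext_of_dense (maximalIdeal R) (maximalIdeal A) u hu.dense ψ φ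
      (fun x hx => map_nonunit (ψ : R →+* A) x hx) (fun x hx => map_nonunit (φ : R →+* A) x hx) ?_
    rw [hφu, ← hr, ev_mapHom, hu.ev_hom]

lemma IsProRep.residual_isEquiv [IsLocalHom (algebraMap 𝒪 R)] (hu : IsProRep S 𝒟 u)
    (ρbar : ResidualGaloisRep (ResidueField 𝒪))
    (bbar : Module.Basis (Fin 2) (ResidueField 𝒪) ρbar.V) (hS : S.rb = resMatOf ρbar bbar) :
    (toRep hu.hom hu.isCont_hom).residual.IsEquiv
      (ρbar.baseChangeAlong (ResidueField.map (algebraMap 𝒪 R))) := by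
  refine residual_isEquiv_of_matOf ρbar bbar _ _ (Pi.basisFun _ (Fin 2)) ?_
  intro σ i j
  rw [matOf_toRep, hu.isLift_hom σ i j, hS]

end

end

end Fermat.Agent.S53
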