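import Mathlib

set_option autoImplicit false

namespace Fermat.Agent.S53

open IsLocalRing

/-- Extension by continuity of an algebra homomorphism defined on a dense subalgebra. -/
theorem exists_algHom_of_dense {𝒪 Fr R A : Type} [CommRing 𝒪] [CommRing Fr] [Algebra 𝒪 Fr]
    [CommRing R] [IsLocalRing R] [Algebra 𝒪 R]
    [CommRing A] [IsLocalRing A] [IsAdicComplete (maximalIdeal A) A] [Algebra 𝒪 A]
    (u : Fr →ₐ[𝒪] R) (v : Fr →ₐ[𝒪] A)
    (hdense : ∀ (n : ℕ) (x : R), ∃ f : Fr, x - u f ∈ maximalIdeal R ^ n)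
    (hle : ∀ n : ℕ, (maximalIdeal R ^ (n + 1)).comap (u : Fr →+* R) ≤
      (maximalIdeal A ^ (n + 1)).comap (v : Fr →+* A)) :
    ∃ φ : R →ₐ[𝒪] A, IsLocalHom (φ : R →+* A) ∧ φ.comp u = v ∧
      ∀ φ' : R →ₐ[𝒪] A, IsLocalHom (φ' : R →+* A) → φ'.comp u = v → φ' = φ := by
  have hle' : ∀ n : ℕ, ∀ f : Fr, u f ∈ maximalIdeal R ^ n → v f ∈ maximalIdeal A ^ n := by
    intro n f hf
    cases n with
    | zero => simp
    | succ n => exact hle n hf
  -- the maps at finite level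
  let ub : ∀ n, Fr →ₐ[𝒪] R ⧸ maximalIdeal R ^ n := fun n =>
    (Ideal.Quotient.mkₐ 𝒪 (maximalIdeal R ^ n)).comp u
  let vb : ∀ n, Fr →ₐ[𝒪] A ⧸ maximalIdeal A ^ n := fun n =>
    (Ideal.Quotient.mkₐ 𝒪 (maximalIdeal A ^ n)).comp v
  have hub : ∀ n, Function.Surjective (ub n) := by
    intro n y
    obtain ⟨x, rfl⟩ := Ideal.Quotient.mk_surjective y
    obtain ⟨f, hf⟩ := hdense n x
    refine ⟨f, ?_⟩
    exact ((Ideal.Quotient.eq).mpr hf).symm
  have hker : ∀ n, ∀ f ∈ RingHom.ker (ub n), vb n f = 0 := by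
    intro n f hf
    have h1 : u f ∈ maximalIdeal R ^ n := Ideal.Quotient.eq_zero_iff_mem.mp hf
    exact Ideal.Quotient.eq_zero_iff_mem.mpr (hle' n f h1)
  let w : ∀ n, (R ⧸ maximalIdeal R ^ n) →ₐ[𝒪] A ⧸ maximalIdeal A ^ n := fun n =>
    (Ideal.Quotient.liftₐ (RingHom.ker (ub n)) (vb n) (hker n)).comp
      (Ideal.quotientKerAlgEquivOfSurjective (hub n)).symm.toAlgHom
  have hw : ∀ n f, w n (Ideal.Quotient.mk _ (u f)) = Ideal.Quotient.mk _ (v f) := by
    intro n f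
    have h1 : (Ideal.quotientKerAlgEquivOfSurjective (hub n)).symm
        (Ideal.Quotient.mk _ (u f)) = Ideal.Quotient.mk _ f := by
      rw [AlgEquiv.symm_apply_eq]
      rfl
    show (Ideal.Quotient.liftₐ (RingHom.ker (ub n)) (vb n) (hker n))
      ((Ideal.quotientKerAlgEquivOfSurjective (hub n)).symm (Ideal.Quotient.mk _ (u f))) = _
    rw [h1]
    rfl
  obtain ⟨F, hF, hFker⟩ : ∃ F : ∀ n, R →ₐ[𝒪] A ⧸ maximalIdeal A ^ n,
      (∀ n f, F n (u f) = Ideal.Quotient.mk _ (v f)) ∧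
      (∀ n x, x ∈ maximalIdeal R ^ n → F n x = 0) := by
    refine ⟨fun n => (w n).comp (Ideal.Quotient.mkₐ 𝒪 (maximalIdeal R ^ n)),
      fun n f => hw n f, fun n x hx => ?_⟩
    show w n (Ideal.Quotient.mk _ x) = 0
    rw [Ideal.Quotient.eq_zero_iff_mem.mpr hx, map_zero]
  have hFcomp : ∀ {m n : ℕ} (hmn : m ≤ n),
      (Ideal.Quotient.factorₐ 𝒪 (Ideal.pow_le_pow_right hmn)).comp (F n) = F m := by
    intro m n hmn
    ext x
    obtain ⟨f, hf⟩ := hdense n x
    have h1 : x = (x - u f) + u f := by ring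
    rw [h1, map_add, map_add, AlgHom.comp_apply, AlgHom.comp_apply, hFker n _ hf,
      hFker m _ (Ideal.pow_le_pow_right hmn hf), hF, hF, map_zero]
    rfl
  let φ : R →ₐ[𝒪] A := IsAdicComplete.liftAlgHom (maximalIdeal A) F hFcomp
  have hφ : ∀ n x, Ideal.Quotient.mk (maximalIdeal A ^ n) (φ x) = F n x := fun n x =>
    IsAdicComplete.mk_liftAlgHom (maximalIdeal A) F hFcomp n x
  have hφu : φ.comp u = v := by
    refine IsAdicComplete.algHom_ext (maximalIdeal A) fun n => ?_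
    ext f
    show Ideal.Quotient.mk (maximalIdeal A ^ n) (φ (u f)) = Ideal.Quotient.mk _ (v f)
    rw [hφ, hF]
  have hφm : ∀ x ∈ maximalIdeal R, φ x ∈ maximalIdeal A := by
    intro x hx
    have h1 := hφ 1 x
    rw [hFker 1 x (by simpa using hx), Ideal.Quotient.eq_zero_iff_mem, pow_one] at h1
    exact h1
  refine ⟨φ, ?_, hφu, ?_⟩
  · refine ⟨fun x hx => ?_⟩
    by_contra hcon
    exact (mem_maximalIdeal _).mp (hφm x ((mem_maximalIdeal _).mpr hcon)) hx
  · intro φ' hφ' hφ'u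
    refine IsAdicComplete.algHom_ext (maximalIdeal A) fun n => ?_
    ext x
    show Ideal.Quotient.mk (maximalIdeal A ^ n) (φ' x) = Ideal.Quotient.mk _ (φ x)
    obtain ⟨f, hf⟩ := hdense n x
    have h1 : x = (x - u f) + u f := by ring
    have h2 : φ' (u f) = v f := DFunLike.congr_fun hφ'u f
    have h3 : φ' (x - u f) ∈ maximalIdeal A ^ n := by
      have h4 : (maximalIdeal R).map (φ' : R →+* A) ≤ maximalIdeal A := by
        rw [Ideal.map_le_iff_le_comap]
        intro y hy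
        exact map_nonunit (φ' : R →+* A) y hy
      have h5 := Ideal.mem_map_of_mem (φ' : R →+* A) hf
      rw [Ideal.map_pow] at h5
      exact Ideal.pow_right_mono h4 n h5
    rw [hφ, h1, map_add, map_add, map_add, h2, hF, hFker n _ hf,
      Ideal.Quotient.eq_zero_iff_mem.mpr h3]

end Fermat.Agent.S53
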