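import Mathlib
import Fermat.Prelude.Def_GaloisRep_DeformationRingData
import Fermat.Prelude.Def_GaloisRep_DeformationCondition

set_option autoImplicit false
set_option linter.unusedSectionVars false
set_option linter.style.haveILetI false

namespace Fermat.Agent.S53

open IsLocalRing Module
open scoped TensorProduct

abbrev Gal : Type := AlgebraicClosure ℚ ≃ₐ[ℚ] AlgebraicClosure ℚ

abbrev M2 (A : Type) : Type := Matrix (Fin 2) (Fin 2) A

section Adic

variable {A : Type} [CommRing A] [IsLocalRing A]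

/-- `ρ` has matrix `r` in some basis. -/
def HasMat (ρ : GaloisRepAdic A) (r : Gal → M2 A) : Prop :=
  ∃ b : Basis (Fin 2) A ρ.V, ∀ σ, LinearMap.toMatrix b b (ρ.ρ σ) = r σ

def MatCont (r : Gal → M2 A) : Prop :=
  ∀ n : ℕ, ∃ L : IntermediateField ℚ (AlgebraicClosure ℚ), FiniteDimensional ℚ L ∧
    ∀ σ : Gal, (∀ x ∈ L, σ x = x) → ∀ i j, (r σ - 1) i j ∈ maximalIdeal A ^ n

theorem exists_hasMat (ρ : GaloisRepAdic A) : ∃ r : Gal → M2 A, HasMat ρ r :=
  ⟨_, Module.finBasisOfFinrankEq A ρ.V ρ.finrank_eq, fun _ => rfl⟩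

theorem HasMat.map_one {ρ : GaloisRepAdic A} {r : Gal → M2 A} (h : HasMat ρ r) : r 1 = 1 := by
  obtain ⟨b, hb⟩ := h
  rw [← hb, _root_.map_one, Module.End.one_eq_id, LinearMap.toMatrix_id]

theorem HasMat.map_mul {ρ : GaloisRepAdic A} {r : Gal → M2 A} (h : HasMat ρ r) (σ τ : Gal) :
    r (σ * τ) = r σ * r τ := by
  obtain ⟨b, hb⟩ := h
  rw [← hb, ← hb, ← hb, _root_.map_mul, Module.End.mul_eq_comp, LinearMap.toMatrix_comp b b b]

theorem HasMat.isEquiv {ρ ρ' : GaloisRepAdic A} {r : Gal → M2 A} (h : HasMat ρ r)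
    (h' : HasMat ρ' r) : ρ.IsEquiv ρ' := by
  obtain ⟨b, hb⟩ := h
  obtain ⟨b', hb'⟩ := h'
  refine ⟨⟨b.equiv b' (Equiv.refl _), fun σ x => ?_⟩⟩
  have key : ∀ j, b.equiv b' (Equiv.refl _) (ρ.ρ σ (b j)) = ρ'.ρ σ (b' j) := by
    intro j
    have h1 : ρ.ρ σ (b j) = ∑ i, (r σ) i j • b i := by
      rw [← hb]
      simp only [LinearMap.toMatrix_apply]
      exact (b.sum_repr _).symm
    have h2 : ρ'.ρ σ (b' j) = ∑ i, (r σ) i j • b' i := by
      rw [← hb']
      simp only [LinearMap.toMatrix_apply]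
      exact (b'.sum_repr _).symm
    rw [h1, h2, map_sum]
    simp
  have : ((b.equiv b' (Equiv.refl _)).toLinearMap ∘ₗ ρ.ρ σ) =
      (ρ'.ρ σ ∘ₗ (b.equiv b' (Equiv.refl _)).toLinearMap) := by
    refine b.ext fun j => ?_
    simp only [LinearMap.comp_apply, LinearEquiv.coe_coe]
    rw [key]
    simp
  exact LinearMap.congr_fun this x

theorem HasMat.of_isEquiv {ρ ρ' : GaloisRepAdic A} {r : Gal → M2 A} (h : HasMat ρ r)
    (e : ρ.IsEquiv ρ') : HasMat ρ' r := by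
  obtain ⟨b, hb⟩ := h
  obtain ⟨e⟩ := e
  refine ⟨b.map e.toLinearEquiv, fun σ => ?_⟩
  rw [← hb]
  ext i j
  simp only [LinearMap.toMatrix_apply, Basis.map_apply, Basis.map_repr, LinearEquiv.trans_apply]
  rw [← e.map_apply, LinearEquiv.symm_apply_apply]

theorem HasMat.baseChangeAlong {B : Type} [CommRing B] [IsLocalRing B] {ρ : GaloisRepAdic A}
    {r : Gal → M2 A} (h : HasMat ρ r) (φ : A →+* B) (hφ : IsLocalHom φ) :
    HasMat (ρ.baseChangeAlong φ hφ) (fun σ => (r σ).map φ) := by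
  obtain ⟨b, hb⟩ := h
  let _ : Algebra A B := φ.toAlgebra
  refine ⟨Algebra.TensorProduct.basis B b, fun σ => ?_⟩
  exact (LinearMap.toMatrix_baseChange B (ρ.ρ σ) b b).trans (by rw [hb]; rfl)

/-- change of basis -/
theorem HasMat.conj {ρ : GaloisRepAdic A} {r : Gal → M2 A} (h : HasMat ρ r) (U : (M2 A)ˣ) :
    HasMat ρ (fun σ => (U : M2 A) * r σ * ((U⁻¹ : (M2 A)ˣ) : M2 A)) := by
  obtain ⟨b, hb⟩ := h
  -- new basis: b' j = ∑ i, U⁻¹ i j • b i
  let e : ρ.V ≃ₗ[A] ρ.V :=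
    LinearEquiv.ofLinearMap (Matrix.toLin b b ((U⁻¹ : (M2 A)ˣ) : M2 A)) (Matrix.toLin b b (U : M2 A))
      (by rw [← Matrix.toLin_mul b b b, Units.inv_mul, Matrix.toLin_one])
      (by rw [← Matrix.toLin_mul b b b, Units.mul_inv, Matrix.toLin_one])
  refine ⟨b.map e, fun σ => ?_⟩
  have h1 : LinearMap.toMatrix (b.map e) (b.map e) (ρ.ρ σ) =
      LinearMap.toMatrix b b (e.symm.toLinearMap ∘ₗ ρ.ρ σ ∘ₗ e.toLinearMap) := by
    ext i j
    simp [LinearMap.toMatrix_apply]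
  rw [h1, LinearMap.toMatrix_comp b b b, LinearMap.toMatrix_comp b b b, hb]
  have h2 : LinearMap.toMatrix b b e.symm.toLinearMap = (U : M2 A) := by
    show LinearMap.toMatrix b b (Matrix.toLin b b (U : M2 A)) = _
    rw [LinearMap.toMatrix_toLin]
  have h3 : LinearMap.toMatrix b b e.toLinearMap = ((U⁻¹ : (M2 A)ˣ) : M2 A) := by
    show LinearMap.toMatrix b b (Matrix.toLin b b ((U⁻¹ : (M2 A)ˣ) : M2 A)) = _
    rw [LinearMap.toMatrix_toLin]
  rw [h2, h3]
  exact (mul_assoc _ _ _).symm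

theorem HasMat.exists_conj {ρ : GaloisRepAdic A} {r r' : Gal → M2 A} (h : HasMat ρ r)
    (h' : HasMat ρ r') : ∃ U : (M2 A)ˣ, ∀ σ, (U : M2 A) * r σ = r' σ * (U : M2 A) := by
  obtain ⟨b, hb⟩ := h
  obtain ⟨b', hb'⟩ := h'
  refine ⟨⟨b'.toMatrix b, b.toMatrix b', Basis.toMatrix_mul_toMatrix_flip _ _,
    Basis.toMatrix_mul_toMatrix_flip _ _⟩, fun σ => ?_⟩
  show b'.toMatrix b * r σ = r' σ * b'.toMatrix b
  rw [← hb, ← hb', basis_toMatrix_mul_linearMap_toMatrix, linearMap_toMatrix_mul_basis_toMatrix]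

theorem mem_smul_top_of_forall_repr {M : Type} [AddCommGroup M] [Module A M]
    (b : Basis (Fin 2) A M) (I : Ideal A) (v : M) (h : ∀ i, b.repr v i ∈ I) :
    v ∈ I • (⊤ : Submodule A M) := by
  rw [← b.sum_repr v]
  exact Submodule.sum_mem _ fun i _ => Submodule.smul_mem_smul (h i) Submodule.mem_top

theorem repr_mem_of_mem_smul_top {M : Type} [AddCommGroup M] [Module A M]
    (b : Basis (Fin 2) A M) (I : Ideal A) (v : M) (h : v ∈ I • (⊤ : Submodule A M)) (i : Fin 2) :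
    b.repr v i ∈ I := by
  refine Submodule.smul_induction_on h ?_ ?_
  · intro a ha w _
    rw [map_smul, Finsupp.smul_apply, smul_eq_mul]
    exact I.mul_mem_right _ ha
  · intro x y hx hy
    rw [map_add, Finsupp.add_apply]
    exact I.add_mem hx hy

theorem HasMat.matCont {ρ : GaloisRepAdic A} {r : Gal → M2 A} (h : HasMat ρ r) : MatCont r := by
  obtain ⟨b, hb⟩ := h
  intro n
  obtain ⟨L, hL, h1⟩ := ρ.isAdicContinuous n
  refine ⟨L, hL, fun σ hσ i j => ?_⟩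
  have := repr_mem_of_mem_smul_top b _ _ (h1 σ hσ (b j)) i
  rw [← hb, Matrix.sub_apply, LinearMap.toMatrix_apply, Matrix.one_apply]
  rw [map_sub, Finsupp.sub_apply, Basis.repr_self, Finsupp.single_apply] at this
  convert this using 3
  exact eq_comm

/-- The Galois representation attached to a continuous matrix representation. -/
noncomputable def ofMat (r : Gal →* M2 A) (hr : MatCont r) : GaloisRepAdic A where
  V := Fin 2 → A
  finrank_eq := by simp
  ρ := (Matrix.toLinAlgEquiv' : M2 A ≃ₐ[A] _).toAlgHom.toMonoidHom.comp r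
  isAdicContinuous := by
    intro n
    obtain ⟨L, hL, h1⟩ := hr n
    refine ⟨L, hL, fun σ hσ v => ?_⟩
    refine mem_smul_top_of_forall_repr (Pi.basisFun A (Fin 2)) _ _ fun i => ?_
    show (Matrix.toLin' (r σ) v - v) i ∈ _
    have : (Matrix.toLin' (r σ) v - v) i = ∑ j, (r σ - 1) i j * v j := by
      rw [Pi.sub_apply, Matrix.toLin'_apply, Matrix.mulVec, dotProduct]
      simp only [Matrix.sub_apply, sub_mul, Finset.sum_sub_distrib, Matrix.one_apply, ite_mul,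
        one_mul, zero_mul, Finset.sum_ite_eq, Finset.mem_univ, if_true]
    rw [this]
    exact Ideal.sum_mem _ fun j _ => Ideal.mul_mem_right _ _ (h1 σ hσ i j)

theorem hasMat_ofMat (r : Gal →* M2 A) (hr : MatCont r) : HasMat (ofMat r hr) r :=
  ⟨Pi.basisFun A (Fin 2), fun σ => by
    show LinearMap.toMatrix (Pi.basisFun A (Fin 2)) (Pi.basisFun A (Fin 2)) (Matrix.toLin' (r σ)) = _
    rw [LinearMap.toMatrix_eq_toMatrix', LinearMap.toMatrix'_toLin']⟩

end Adic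

section Res

variable {k : Type} [Field k]

def HasMatRes (ρ : ResidualGaloisRep k) (r : Gal → M2 k) : Prop :=
  ∃ b : Basis (Fin 2) k ρ.V, ∀ σ, LinearMap.toMatrix b b (ρ.ρ σ) = r σ

theorem HasMatRes.hasMat {ρ : ResidualGaloisRep k} {r : Gal → M2 k} (h : HasMatRes ρ r) :
    HasMat (GaloisRepAdic.ofResidualGaloisRep ρ) r := h

theorem exists_hasMatRes (ρ : ResidualGaloisRep k) : ∃ r : Gal → M2 k, HasMatRes ρ r :=
  ⟨_, Module.finBasisOfFinrankEq k ρ.V ρ.finrank_eq, fun _ => rfl⟩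

theorem HasMatRes.isEquiv {ρ ρ' : ResidualGaloisRep k} {r : Gal → M2 k} (h : HasMatRes ρ r)
    (h' : HasMatRes ρ' r) : ρ.IsEquiv ρ' := by
  obtain ⟨e⟩ := h.hasMat.isEquiv h'.hasMat
  exact ⟨⟨e.toLinearEquiv, e.map_apply⟩⟩

theorem HasMatRes.of_isEquiv {ρ ρ' : ResidualGaloisRep k} {r : Gal → M2 k} (h : HasMatRes ρ r)
    (e : ρ.IsEquiv ρ') : HasMatRes ρ' r := by
  obtain ⟨e⟩ := e
  exact h.hasMat.of_isEquiv (ρ' := GaloisRepAdic.ofResidualGaloisRep ρ')
    ⟨⟨e.toLinearEquiv, e.map_apply⟩⟩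

theorem HasMatRes.exists_conj {ρ : ResidualGaloisRep k} {r r' : Gal → M2 k} (h : HasMatRes ρ r)
    (h' : HasMatRes ρ r') : ∃ U : (M2 k)ˣ, ∀ σ, (U : M2 k) * r σ = r' σ * (U : M2 k) :=
  h.hasMat.exists_conj h'.hasMat

theorem HasMatRes.baseChangeAlong {k' : Type} [Field k'] {ρ : ResidualGaloisRep k}
    {r : Gal → M2 k} (h : HasMatRes ρ r) (ψ : k →+* k') :
    HasMatRes (ρ.baseChangeAlong ψ) (fun σ => (r σ).map ψ) := by
  obtain ⟨b, hb⟩ := h
  let _ : Algebra k k' := ψ.toAlgebra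
  refine ⟨Algebra.TensorProduct.basis k' b, fun σ => ?_⟩
  exact (LinearMap.toMatrix_baseChange k' (ρ.ρ σ) b b).trans (by rw [hb]; rfl)

theorem HasMat.residual {A : Type} [CommRing A] [IsLocalRing A] {ρ : GaloisRepAdic A}
    {r : Gal → M2 A} (h : HasMat ρ r) :
    HasMatRes ρ.residual (fun σ => (r σ).map (residue A)) := by
  obtain ⟨b, hb⟩ := h
  refine ⟨Algebra.TensorProduct.basis (ResidueField A) b, fun σ => ?_⟩
  exact (LinearMap.toMatrix_baseChange (ResidueField A) (ρ.ρ σ) b b).trans (by rw [hb]; rfl)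

end Res

end Fermat.Agent.S53
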